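import Fermat.Agent.MW.Local.Projection

/-!
# The trace-dual family measures the separation of a fibre

The value of the dual family at a point of a fibre of the projection has the size of the product of
the distances to the other points of the fibre.
-/

set_option autoImplicit false

noncomputable section

open scoped TensorProduct Classical
open Module

namespace Fermat.Agent.MW.CurveBasis

variable {K A : Type} [Field K] [CommRing A] [Algebra K A] (D : CurveBasis K A)
variable {L : Type} [Field L] [Algebra K L] (O : ValuationSubring L) [OverBase K O]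

theorem valuation_proj_of_escapes {φ : L ⊗[K] A →ₐ[L] L} (h : D.Escapes O (baseHom φ)) :
    O.valuation (φ (1 ⊗ₜ D.e D.projDeg)) ^ D.embDeg =
      O.valuation (φ (1 ⊗ₜ D.e D.embDeg)) ^ D.projDeg :=
  D.valuation_pow_embDeg O _ h D.projDeg_notMem

theorem escapes_iff_proj {φ : L ⊗[K] A →ₐ[L] L} :
    D.Escapes O (baseHom φ) ↔ 1 < O.valuation (φ (1 ⊗ₜ D.e D.projDeg)) := by
  refine ⟨fun h => ?_, fun h => ⟨D.projDeg, by simp [projDeg, embDeg]; omega, h⟩⟩
  have hY := D.one_lt_of_escapes O h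
  rw [baseHom_apply] at hY
  by_contra! hle
  have h1 := D.valuation_proj_of_escapes O h
  exact (one_lt_pow₀ hY (show D.projDeg ≠ 0 by simp [projDeg])).not_ge
    (h1 ▸ pow_le_one₀ zero_le hle)

theorem valuation_basis_pos {ψ : A →ₐ[K] L} (h : D.Escapes O ψ) {n : ℕ} (hn : n ∉ D.gaps) :
    0 < O.valuation (ψ (D.e n)) := by
  refine zero_lt_iff.mpr fun h0 => ?_
  have h1 := D.valuation_pow_embDeg O ψ h hn
  rw [h0, zero_pow (by simp [embDeg])] at h1
  exact pow_ne_zero _ (zero_lt_one.trans (D.one_lt_of_escapes O h)).ne' h1.symm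

theorem valuation_basis_strictMono {ψ : A →ₐ[K] L} (h : D.Escapes O ψ) {m n : ℕ}
    (hn : n ∉ D.gaps) (hmn : m < n) : O.valuation (ψ (D.e m)) < O.valuation (ψ (D.e n)) := by
  by_cases hm : m ∈ D.gaps
  · rw [D.e_gap hm, map_zero, map_zero]; exact D.valuation_basis_pos O h hn
  refine lt_of_pow_lt_pow_left₀ D.embDeg zero_le ?_
  rw [D.valuation_pow_embDeg O ψ h hm, D.valuation_pow_embDeg O ψ h hn]
  exact pow_lt_pow_right₀ (D.one_lt_of_escapes O h) hmn

/-- A function of pole order `n` is dominated by its leading term. -/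
theorem valuation_map_eq_top {ψ : A →ₐ[K] L} (h : D.Escapes O ψ) {n : ℕ} (hn : n ∉ D.gaps)
    {f : A} (hf : f ∈ D.lev n) (hc : D.coeff n f ≠ 0) :
    O.valuation (ψ f) = O.valuation (ψ (D.e n)) := by
  have hlow : f - D.coeff n f • D.e n ∈ D.low n := D.sub_coeff_smul_mem_low hf
  have hsmall : O.valuation (ψ (f - D.coeff n f • D.e n)) < O.valuation (ψ (D.e n)) := by
    rcases Nat.eq_zero_or_pos n with rfl | hpos
    · have : f - D.coeff 0 f • D.e 0 = 0 := by
        have h0 : D.low 0 = ⊥ := by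
          rw [low, Submodule.span_eq_bot]
          rintro _ ⟨i, hi, rfl⟩
          exact absurd hi (by simp)
        rw [h0, Submodule.mem_bot] at hlow
        exact hlow
      rw [this, map_zero, map_zero]
      exact D.valuation_basis_pos O h hn
    refine lt_of_pow_lt_pow_left₀ D.embDeg zero_le ((D.valuation_map_le_of_mem_span O ψ hlow
      (by simp [embDeg]) (B := O.valuation (ψ (D.e D.embDeg)) ^ (n - 1)) fun i hi => ?_).trans_lt ?_)
    · by_cases hig : i ∈ D.gaps
      · rw [D.e_gap hig, map_zero, map_zero, zero_pow (by simp [embDeg])]; exact zero_le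
      rw [D.valuation_pow_embDeg O ψ h hig]
      exact pow_le_pow_right₀ (D.one_lt_of_escapes O h).le (by simp at hi; omega)
    · rw [D.valuation_pow_embDeg O ψ h hn]
      exact pow_lt_pow_right₀ (D.one_lt_of_escapes O h) (by omega)
  have hsplit : ψ f = D.coeff n f • ψ (D.e n) + ψ (f - D.coeff n f • D.e n) := by
    rw [← map_smul, ← map_add, add_sub_cancel]
  have htop : O.valuation (D.coeff n f • ψ (D.e n)) = O.valuation (ψ (D.e n)) := by
    rw [Algebra.smul_def, map_mul, valuation_algebraMap O hc, one_mul]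
  rw [hsplit, Valuation.map_add_eq_of_lt_left _ (by rwa [htop]), htop]

/-- A polynomial over the base at a large argument has the size of its top term. -/
theorem valuation_aeval_eq {Δ : Polynomial K} (hΔ : Δ ≠ 0) {c : L} (hc : 1 < O.valuation c) :
    O.valuation (Polynomial.aeval c Δ) = O.valuation c ^ Δ.natDegree := by
  have htop : O.valuation (algebraMap K L Δ.leadingCoeff * c ^ Δ.natDegree) =
      O.valuation c ^ Δ.natDegree := by
    rw [map_mul, map_pow, valuation_algebraMap O (Polynomial.leadingCoeff_ne_zero.mpr hΔ), one_mul]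
  have hlow : O.valuation (∑ i ∈ Finset.range Δ.natDegree, Δ.coeff i • c ^ i) <
      O.valuation c ^ Δ.natDegree := by
    refine Valuation.map_sum_lt _ (pow_ne_zero _ (zero_lt_one.trans hc).ne') fun i hi => ?_
    rw [Algebra.smul_def, map_mul, map_pow]
    exact (mul_le_of_le_one_left zero_le (valuation_algebraMap_le O _)).trans_lt
      (pow_lt_pow_right₀ hc (Finset.mem_range.mp hi))
  rw [Polynomial.aeval_eq_sum_range, Finset.sum_range_succ, add_comm, Algebra.smul_def,
    ← Polynomial.leadingCoeff, Valuation.map_add_eq_of_lt_left _ (by rw [htop]; exact hlow), htop]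

/-- An additive function on the pole orders up to `B₀ = 2 · embDeg · projDeg`, vanishing at
`projDeg`, vanishes there when the characteristic is zero. -/
theorem eq_zero_of_additive {R : Type*} [Field R] [CharZero R] (lam : ℕ → R)
    (hlamp : lam D.projDeg = 0)
    (hadd : ∀ m n, m ∉ D.gaps → n ∉ D.gaps → m + n ≤ 2 * D.embDeg * D.projDeg →
      lam (m + n) = lam m + lam n) :
    ∀ n, n ≤ 2 * D.embDeg * D.projDeg → n ∉ D.gaps → lam n = 0 := by
  have ha : 20 * D.genus + 20 = D.embDeg := rfl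
  have hp' : 2 * D.genus + 1 = D.projDeg := rfl
  set B₀ := 2 * D.embDeg * D.projDeg
  have hmulg : ∀ m q, m ∉ D.gaps → (q + 1) * m ∉ D.gaps := fun m q hm => by
    induction q with
    | zero => simpa using hm
    | succ q ih => rw [add_mul, one_mul]; exact D.add_notMem _ _ ih hm
  have hmult : ∀ m, m ∉ D.gaps → ∀ q : ℕ, (q + 1) * m ≤ B₀ →
      lam ((q + 1) * m) = ((q + 1 : ℕ) : R) * lam m := by
    intro m hm q
    induction q with
    | zero => simp
    | succ q ih =>
      intro hle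
      rw [add_mul, one_mul] at hle ⊢
      rw [hadd _ _ (hmulg m q hm) hm hle, ih (by omega)]
      push_cast
      ring
  have hsmall : ∀ m ≤ 2 * D.embDeg, m ∉ D.gaps → lam m = 0 := fun m hm hmg => by
    rcases Nat.eq_zero_or_pos m with rfl | hpos
    · simpa using hadd 0 0 D.zero_notMem D.zero_notMem (Nat.zero_le _)
    have hle : D.projDeg * m ≤ B₀ :=
      (Nat.mul_le_mul_left _ hm).trans (le_of_eq (mul_comm _ _))
    have h1 := hmult m hmg (D.projDeg - 1) (by rw [Nat.sub_add_cancel (by omega)]; exact hle)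
    rw [Nat.sub_add_cancel (by omega)] at h1
    have h2 := hmult D.projDeg D.projDeg_notMem (m - 1)
      (by rw [Nat.sub_add_cancel hpos, mul_comm]; exact hle)
    rw [Nat.sub_add_cancel hpos, mul_comm, h1, hlamp, mul_zero, mul_eq_zero] at h2
    exact h2.resolve_left (Nat.cast_ne_zero.mpr (by omega))
  have hall : ∀ n, n ≤ B₀ → n ∉ D.gaps → lam n = 0 := by
    intro n
    induction n using Nat.strong_induction_on with
    | h n ih =>
      intro hnB hng
      by_cases hn2 : n ≤ 2 * D.embDeg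
      · exact hsmall n hn2 hng
      have hg : n - D.projDeg ∉ D.gaps := D.notMem_gaps_of_le (by omega)
      have h1 := hadd (n - D.projDeg) D.projDeg hg D.projDeg_notMem (by omega)
      rw [Nat.sub_add_cancel (by omega), hlamp, add_zero, ih _ (by omega) (by omega) hg] at h1
      exact h1
  exact hall

/-- The ratio of the values of two points at a basis function, with junk value `1` at gaps. -/
def ratio (φ ψ : A →ₐ[K] L) (n : ℕ) : L :=
  if n ∈ D.gaps then 1 else ψ (D.e n) / φ (D.e n)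

theorem map_eq_ratio_mul {φ ψ : A →ₐ[K] L} (hφ : D.Escapes O φ) {n : ℕ} (hn : n ∉ D.gaps) :
    ψ (D.e n) = D.ratio φ ψ n * φ (D.e n) := by
  rw [ratio, if_neg hn, div_mul_cancel₀]
  intro h0
  have := D.valuation_basis_pos O hφ hn
  rw [h0, map_zero] at this
  exact lt_irrefl _ this

/-- Ratios of values of equal size are units. -/
theorem valuation_ratio {φ ψ : A →ₐ[K] L} (hφ : D.Escapes O φ)
    (hv : ∀ n ∉ D.gaps, O.valuation (ψ (D.e n)) = O.valuation (φ (D.e n))) (n : ℕ) :
    O.valuation (D.ratio φ ψ n) = 1 := by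
  by_cases hn : n ∈ D.gaps
  · simp [ratio, hn]
  · rw [ratio, if_neg hn, map_div₀, hv n hn, div_self (D.valuation_basis_pos O hφ hn).ne']

theorem ratio_mem {φ ψ : A →ₐ[K] L} (hφ : D.Escapes O φ)
    (hv : ∀ n ∉ D.gaps, O.valuation (ψ (D.e n)) = O.valuation (φ (D.e n))) (n : ℕ) :
    D.ratio φ ψ n ∈ O :=
  (O.valuation_le_one_iff _).mp (D.valuation_ratio O hφ hv n).le

/-- The multiplication table, up to lower terms, makes the ratios multiplicative up to an error
smaller than any common bound on their distances to `1`. -/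
theorem valuation_ratio_cocycle_lt {φ ψ : A →ₐ[K] L} (hφ : D.Escapes O φ)
    (hv : ∀ n ∉ D.gaps, O.valuation (ψ (D.e n)) = O.valuation (φ (D.e n))) {m n : ℕ}
    (hm : m ∉ D.gaps) (hn : n ∉ D.gaps) {B : O.ValueGroup} (hB : 0 < B)
    (hl : ∀ l < m + n, O.valuation (D.ratio φ ψ l - 1) ≤ B)
    (hXm : O.valuation (D.ratio φ ψ m - 1) ≤ B) (hXn : O.valuation (D.ratio φ ψ n - 1) ≤ B) :
    O.valuation ((D.ratio φ ψ m - 1) + (D.ratio φ ψ n - 1) +
      (D.ratio φ ψ m - 1) * (D.ratio φ ψ n - 1) - (D.ratio φ ψ (m + n) - 1)) < B := by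
  have ha : 20 * D.genus + 20 = D.embDeg := rfl
  set r := D.ratio φ ψ with r_def
  have hr := fun n => D.map_eq_ratio_mul O (ψ := ψ) hφ (n := n)
  let X : ℕ → L := fun n => r n - 1
  have hXO : ∀ n, X n ∈ O := fun n => sub_mem (D.ratio_mem O hφ hv n) O.one_mem
  change O.valuation (X m + X n + X m * X n - X (m + n)) < B
  rcases Nat.eq_zero_or_pos (m + n) with h0 | hpos
  · obtain ⟨rfl, rfl⟩ : m = 0 ∧ n = 0 := by omega
    simpa [X, r, ratio, D.zero_notMem, D.e_zero] using hB
  have hmn := D.add_notMem m n hm hn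
  set low := D.e m * D.e n - D.e (m + n)
  have hlowmem : low ∈ Submodule.span K (D.e '' Set.Iio (m + n)) := D.e_mul m n hm hn
  have hid : φ (D.e (m + n)) * (X m + X n + X m * X n - X (m + n)) =
      (ψ low - φ low) - φ low * (X m + X n + X m * X n) := by
    simp only [low, map_sub, map_mul, hr m hm, hr n hn, hr _ hmn, X]
    ring
  have hS0 := D.valuation_basis_pos O hφ hmn
  have hφlow : O.valuation (φ low) < O.valuation (φ (D.e (m + n))) := by
    refine lt_of_pow_lt_pow_left₀ D.embDeg zero_le ((D.valuation_map_le_of_mem_span O φ hlowmem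
      (by omega) (B := O.valuation (φ (D.e D.embDeg)) ^ (m + n - 1)) fun i hi => ?_).trans_lt ?_)
    · by_cases hig : i ∈ D.gaps
      · rw [D.e_gap hig, map_zero, map_zero, zero_pow (by omega)]; exact zero_le
      rw [D.valuation_pow_embDeg O φ hφ hig]
      exact pow_le_pow_right₀ (D.one_lt_of_escapes O hφ).le (by simp at hi; omega)
    · rw [D.valuation_pow_embDeg O φ hφ hmn]
      exact pow_lt_pow_right₀ (D.one_lt_of_escapes O hφ) (by omega)
  have hdiff : O.valuation (ψ low - φ low) < O.valuation (φ (D.e (m + n))) * B := by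
    have hspan : ∀ f ∈ Submodule.span K (D.e '' Set.Iio (m + n)),
        O.valuation (ψ f - φ f) < O.valuation (φ (D.e (m + n))) * B := by
      intro f hf
      induction hf using Submodule.span_induction with
      | mem x hx =>
        obtain ⟨l, hl', rfl⟩ := hx
        by_cases hlg : l ∈ D.gaps
        · simp [D.e_gap hlg, mul_pos hS0 hB]
        have : ψ (D.e l) - φ (D.e l) = φ (D.e l) * X l := by rw [hr l hlg]; simp [X]; ring
        rw [this, map_mul]
        exact (mul_le_mul' le_rfl (hl l hl')).trans_lt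
          (mul_lt_mul_of_pos_right (D.valuation_basis_strictMono O hφ hmn hl') hB)
      | zero => simp [mul_pos hS0 hB]
      | add x y _ _ hx hy =>
        rw [map_add, map_add, add_sub_add_comm]
        exact Valuation.map_add_lt _ hx hy
      | smul c x _ hx =>
        rw [map_smul, map_smul, ← smul_sub, Algebra.smul_def, map_mul]
        exact (mul_le_of_le_one_left zero_le (valuation_algebraMap_le O c)).trans_lt hx
    exact hspan low hlowmem
  have hXX : O.valuation (X m + X n + X m * X n) ≤ B := by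
    refine Valuation.map_add_le _ (Valuation.map_add_le _ hXm hXn) ?_
    rw [map_mul]
    exact (mul_le_of_le_one_right zero_le ((O.valuation_le_one_iff _).mpr (hXO n))).trans hXm
  have h2 : O.valuation (φ low * (X m + X n + X m * X n)) <
      O.valuation (φ (D.e (m + n))) * B := by
    rw [map_mul]
    exact (mul_le_mul' le_rfl hXX).trans_lt (mul_lt_mul_of_pos_right hφlow hB)
  have h3 := Valuation.map_sub_lt _ hdiff h2
  rw [← hid, map_mul] at h3
  exact lt_of_mul_lt_mul_left h3 zero_le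

/-- First order: all ratios reduce to `1` if two consecutive large ones have the same reduction. -/
theorem resid_ratio_eq_one {φ ψ : A →ₐ[K] L} (hφ : D.Escapes O φ)
    (hv : ∀ n ∉ D.gaps, O.valuation (ψ (D.e n)) = O.valuation (φ (D.e n)))
    (hζ : O.valuation (ψ (D.e (D.embDeg - 1)) * φ (D.e D.embDeg) -
      φ (D.e (D.embDeg - 1)) * ψ (D.e D.embDeg)) <
      O.valuation (φ (D.e (D.embDeg - 1)) * φ (D.e D.embDeg))) :
    ∀ n, resid O (D.ratio φ ψ n) = 1 := by
  have ha : 20 * D.genus + 20 = D.embDeg := rfl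
  set r := D.ratio φ ψ with r_def
  have hr := fun n => D.map_eq_ratio_mul O (ψ := ψ) hφ (n := n)
  have hrO := D.ratio_mem O hφ hv
  have hrv := D.valuation_ratio O hφ hv
  let X : ℕ → L := fun n => r n - 1
  have hXO : ∀ n, X n ∈ O := fun n => sub_mem (hrO n) O.one_mem
  have hmul : ∀ m n, m ∉ D.gaps → n ∉ D.gaps →
      resid O (r (m + n)) = resid O (r m) * resid O (r n) := fun m n hm hn => by
    have h : O.valuation (X m + X n + X m * X n - X (m + n)) < 1 :=
        D.valuation_ratio_cocycle_lt O hφ hv hm hn zero_lt_one (fun l _ => (O.valuation_le_one_iff _).mpr (hXO l))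
      ((O.valuation_le_one_iff _).mpr (hXO m)) ((O.valuation_le_one_iff _).mpr (hXO n))
    have e : X m + X n + X m * X n - X (m + n) = r m * r n - r (m + n) := by simp [X]; ring
    rw [e, ← resid_eq_zero_iff O (sub_mem (mul_mem (hrO m) (hrO n)) (hrO _)),
      resid_sub O (mul_mem (hrO m) (hrO n)) (hrO _), sub_eq_zero, resid_mul O (hrO m) (hrO n)] at h
    exact h.symm
  have hne0 : ∀ n, resid O (r n) ≠ 0 := fun n h0 => by
    rw [resid_eq_zero_iff O (hrO n), hrv n] at h0; exact lt_irrefl _ h0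
  have ha1 : D.embDeg - 1 ∉ D.gaps := D.notMem_gaps_of_le (by omega)
  have hag : D.embDeg ∉ D.gaps := D.embDeg_notMem
  have hbase : resid O (r (D.embDeg - 1)) = resid O (r D.embDeg) := by
    have e : ψ (D.e (D.embDeg - 1)) * φ (D.e D.embDeg) -
        φ (D.e (D.embDeg - 1)) * ψ (D.e D.embDeg) =
        (φ (D.e (D.embDeg - 1)) * φ (D.e D.embDeg)) * (r (D.embDeg - 1) - r D.embDeg) := by
      rw [hr _ ha1, hr _ hag]; ring
    rw [e, map_mul _ (φ (D.e (D.embDeg - 1)) * φ (D.e D.embDeg))] at hζ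
    refine sub_eq_zero.mp ?_
    rw [← resid_sub O (hrO _) (hrO _), resid_eq_zero_iff O (sub_mem (hrO _) (hrO _))]
    by_contra! hge
    exact hζ.not_ge (le_mul_of_one_le_right zero_le hge)
  have hstep : ∀ n, 2 * D.genus ≤ n → resid O (r (n + 1)) = resid O (r n) := fun n hn => by
    have hn0 := D.notMem_gaps_of_le hn
    have hn1 := D.notMem_gaps_of_le (n := n + 1) (by omega)
    have h1 := hmul (n + 1) (D.embDeg - 1) hn1 ha1
    rw [show n + 1 + (D.embDeg - 1) = n + D.embDeg by omega, hmul n D.embDeg hn0 hag, hbase] at h1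
    exact mul_right_cancel₀ (hne0 D.embDeg) h1.symm
  have hconst : ∀ d, resid O (r (2 * D.genus + d)) = resid O (r (2 * D.genus)) := by
    intro d
    induction d with
    | zero => rfl
    | succ d ih => rw [← add_assoc, hstep _ (by omega), ih]
  have h2g := D.notMem_gaps_of_le (le_refl (2 * D.genus))
  have hone : resid O (r (2 * D.genus)) = 1 := by
    have h1 := hmul _ _ h2g h2g
    rw [hconst] at h1
    exact mul_right_cancel₀ (hne0 _) (by rw [one_mul]; exact h1.symm)
  intro n
  by_cases hg : n ∈ D.gaps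
  · simp [r, ratio, hg, resid_one]
  have h1 := hmul n _ hg h2g
  rw [add_comm n, hconst, hone, mul_one] at h1
  exact h1.symm

/-- Second order: if all ratios reduce to `1` and the projections agree, the ratios are `1`. -/
theorem ratio_eq_one_of_resid [CharZero K] {φ ψ : A →ₐ[K] L} (hφ : D.Escapes O φ)
    (hv : ∀ n ∉ D.gaps, O.valuation (ψ (D.e n)) = O.valuation (φ (D.e n)))
    (hρ : ∀ n, resid O (D.ratio φ ψ n) = 1) (hp : ψ (D.e D.projDeg) = φ (D.e D.projDeg)) :
    ∀ n ≤ 2 * D.embDeg * D.projDeg, D.ratio φ ψ n = 1 := by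
  set r := D.ratio φ ψ with r_def
  have hrO := D.ratio_mem O hφ hv
  let X : ℕ → L := fun n => r n - 1
  have hXO : ∀ n, X n ∈ O := fun n => sub_mem (hrO n) O.one_mem
  have hXlt : ∀ n, O.valuation (X n) < 1 := fun n => by
    rw [← resid_eq_zero_iff O (hXO n)]
    show resid O (r n - 1) = 0
    rw [resid_sub O (hrO n) O.one_mem, hρ, resid_one, sub_self]
  set B₀ := 2 * D.embDeg * D.projDeg with hB₀
  obtain ⟨n₀, hn₀, hmax⟩ := (Finset.range (B₀ + 1)).exists_max_image
    (fun n => O.valuation (X n)) ⟨0, by simp⟩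
  suffices hz : X n₀ = 0 by
    intro n hn
    have hXn := hmax n (Finset.mem_range.mpr (by omega))
    rw [hz, map_zero] at hXn
    exact sub_eq_zero.mp ((Valuation.zero_iff _).mp (le_antisymm hXn zero_le))
  by_contra hz
  set M := O.valuation (X n₀)
  have hM : 0 < M := zero_lt_iff.mpr ((Valuation.ne_zero_iff _).mpr hz)
  let lam : ℕ → ResField O := fun n => resid O (X n / X n₀)
  have hlamO : ∀ n ≤ B₀, X n / X n₀ ∈ O := fun n hn => by
    rw [← ValuationSubring.valuation_le_one_iff, map_div₀, div_le_one₀ hM]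
    exact hmax n (Finset.mem_range.mpr (by omega))
  have hadd : ∀ m n, m ∉ D.gaps → n ∉ D.gaps → m + n ≤ B₀ →
      lam (m + n) = lam m + lam n := fun m n hm hn hmn => by
    have hb : ∀ l ≤ B₀, O.valuation (X l) ≤ M := fun l hl =>
      hmax l (Finset.mem_range.mpr (by omega))
    have h : O.valuation (X m + X n + X m * X n - X (m + n)) < M :=
      D.valuation_ratio_cocycle_lt O hφ hv hm hn hM (fun l hl => hb l (by omega)) (hb m (by omega))
        (hb n (by omega))
    have h' : O.valuation (X m + X n - X (m + n)) < M := by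
      have e : X m + X n - X (m + n) = (X m + X n + X m * X n - X (m + n)) - X m * X n := by ring
      rw [e]
      refine Valuation.map_sub_lt _ h ?_
      rw [map_mul]
      exact (mul_le_mul' (hb m (by omega)) le_rfl).trans_lt
        ((mul_lt_mul_of_pos_left (hXlt n) hM).trans_eq (mul_one M))
    have hO1 := hlamO m (by omega)
    have hO2 := hlamO n (by omega)
    have hO3 := hlamO (m + n) hmn
    refine (sub_eq_zero.mp ?_).symm
    show resid O (X m / X n₀) + resid O (X n / X n₀) - resid O (X (m + n) / X n₀) = 0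
    rw [← resid_add O hO1 hO2, ← resid_sub O (add_mem hO1 hO2) hO3,
      resid_eq_zero_iff O (sub_mem (add_mem hO1 hO2) hO3), ← add_div, ← sub_div, map_div₀,
      div_lt_one₀ hM]
    exact h'
  have hXp : X D.projDeg = 0 := by
    have h0 := D.valuation_basis_pos O hφ D.projDeg_notMem
    simp only [X, r, ratio, if_neg D.projDeg_notMem, hp,
      div_self ((Valuation.ne_zero_iff _).mp h0.ne'), sub_self]
  have hlamp : lam D.projDeg = 0 := by simp [lam, hXp, resid_zero]
  have := charZero_resField (K := K) O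
  have hn₀g : n₀ ∉ D.gaps := fun hg => hz (by simp [X, r, ratio, hg])
  have := D.eq_zero_of_additive lam hlamp hadd n₀
    (by have := Finset.mem_range.mp hn₀; omega) hn₀g
  simp [lam, div_self hz, resid_one] at this

/-- Two points near infinity over the same value of the projection. -/
theorem eq_of_ratio_eq_one [CharZero K] {φ ψ : A →ₐ[K] L} (hφ : D.Escapes O φ)
    (hp : ψ (D.e D.projDeg) = φ (D.e D.projDeg))
    (hv : ∀ n ∉ D.gaps, O.valuation (ψ (D.e n)) = O.valuation (φ (D.e n)))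
    (hζ : O.valuation (ψ (D.e (D.embDeg - 1)) * φ (D.e D.embDeg) -
      φ (D.e (D.embDeg - 1)) * ψ (D.e D.embDeg)) <
      O.valuation (φ (D.e (D.embDeg - 1)) * φ (D.e D.embDeg))) :
    ∀ n ≤ D.embDeg, ψ (D.e n) = φ (D.e n) := by
  intro n hn
  by_cases hg : n ∈ D.gaps
  · simp [D.e_gap hg]
  have hle : D.embDeg ≤ 2 * D.embDeg * D.projDeg :=
    (Nat.le_mul_of_pos_left _ two_pos).trans (Nat.le_mul_of_pos_right _ D.projDeg_pos)
  rw [D.map_eq_ratio_mul O hφ hg,
    D.ratio_eq_one_of_resid O hφ hv (D.resid_ratio_eq_one O hφ hv hζ) hp n (hn.trans hle), one_mul]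

variable [IsAlgClosed L] [IsDedekindDomain (L ⊗[K] A)]
variable [IsAlgClosed (ResField O)] [IsDedekindDomain (ResField O ⊗[K] A)]

omit [IsAlgClosed (ResField O)] [IsDedekindDomain (ResField O ⊗[K] A)] [IsAlgClosed L]
    [IsDedekindDomain (L ⊗[K] A)] in
/-- Two distinct points near infinity of one fibre are as far apart as from infinity. -/
theorem dst_fibre_escapes [CharZero K] {φ ψ : L ⊗[K] A →ₐ[L] L} (hφ : D.Escapes O (baseHom φ))
    (hp : ψ (1 ⊗ₜ D.e D.projDeg) = φ (1 ⊗ₜ D.e D.projDeg)) (hne : ψ ≠ φ) :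
    (D.baseChange L).dst O.valuation (some φ) (some ψ) ^ D.embDeg *
      O.valuation (φ (1 ⊗ₜ D.e D.embDeg)) = 1 := by
  have ha : 20 * D.genus + 20 = D.embDeg := rfl
  have hψ : D.Escapes O (baseHom ψ) :=
    (D.escapes_iff_proj O).mpr (hp.symm ▸ (D.escapes_iff_proj O).mp hφ)
  set Y := O.valuation (φ (1 ⊗ₜ D.e D.embDeg)) with hYdef
  have hY : 1 < Y := D.one_lt_of_escapes O hφ
  have hY0 : 0 < Y := zero_lt_one.trans hY
  have hYψ : O.valuation (ψ (1 ⊗ₜ D.e D.embDeg)) = Y := by
    refine (pow_left_inj₀ zero_le zero_le (show D.projDeg ≠ 0 by simp [projDeg])).mp ?_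
    rw [← D.valuation_proj_of_escapes O hψ, hp, D.valuation_proj_of_escapes O hφ]
  have hv : ∀ n ∉ D.gaps, O.valuation (baseHom ψ (D.e n)) = O.valuation (baseHom φ (D.e n)) :=
    fun n hn => by
    refine (pow_left_inj₀ zero_le zero_le (show D.embDeg ≠ 0 by omega)).mp ?_
    rw [D.valuation_pow_embDeg O _ hψ hn, D.valuation_pow_embDeg O _ hφ hn]
    simp only [baseHom_apply, hYψ, ← hYdef]
  have hcN : ∀ (χ : L ⊗[K] A →ₐ[L] L) (_ : D.Escapes O (baseHom χ)) (i : Fin (D.embDeg + 1)),
      D.cNrm O (some χ) i = (χ (1 ⊗ₜ D.e D.embDeg))⁻¹ * χ (1 ⊗ₜ D.e i) := fun χ hχ i => by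
    show D.nev O 1 (some χ) ((1 : L) ⊗ₜ[K] D.e i) = _
    rw [nev_apply, pow_one, D.scale_of_escapes O hχ]; rfl
  have hlast : ∀ (χ : L ⊗[K] A →ₐ[L] L) (_ : D.Escapes O (baseHom χ)) (i : Fin (D.embDeg + 1)),
      i.1 = D.embDeg → D.cNrm O (some χ) i = 1 := fun χ hχ i hi => by
    rw [hcN χ hχ, hi, inv_mul_cancel₀]
    exact (Valuation.ne_zero_iff _).mp (zero_lt_one.trans (D.one_lt_of_escapes O hχ)).ne'
  have hpowle : ∀ (χ : L ⊗[K] A →ₐ[L] L) (_ : D.Escapes O (baseHom χ))
      (_ : O.valuation (χ (1 ⊗ₜ D.e D.embDeg)) = Y) (i : Fin (D.embDeg + 1)),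
      i.1 ≠ D.embDeg → O.valuation (D.cNrm O (some χ) i) ^ D.embDeg * Y ≤ 1 := by
    intro χ hχ hχY i hi
    rw [hcN χ hχ, map_mul, map_inv₀, hχY, mul_pow, inv_pow]
    by_cases hg : (i : ℕ) ∈ D.gaps
    · simp [D.e_gap hg, zero_pow (show D.embDeg ≠ 0 by omega)]
    have := D.valuation_pow_embDeg O _ hχ hg
    simp only [baseHom_apply, hχY] at this
    rw [this, mul_assoc, inv_mul_le_iff₀ (pow_pos hY0 _), mul_one, ← pow_succ]
    exact pow_le_pow_right₀ hY.le (by have := i.2; omega)
  rw [D.dst_eq O]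
  set S := wedge (D.cNrm O (some φ)) (D.cNrm O (some ψ))
  obtain ⟨q, hq⟩ := exists_supMag_eq O.valuation S
  refine le_antisymm ?_ ?_
  · rw [hq]
    have hb : ∀ i j : Fin (D.embDeg + 1), ¬ (i.1 = D.embDeg ∧ j.1 = D.embDeg) →
        O.valuation (D.cNrm O (some φ) i * D.cNrm O (some ψ) j) ^ D.embDeg * Y ≤ 1 := by
      intro i j hij
      rw [map_mul, mul_pow]
      have hc1 := pow_le_one₀ (n := D.embDeg) zero_le
        ((O.valuation_le_one_iff _).mpr (D.cNrm_mem O (some φ) i))
      have hc2 := pow_le_one₀ (n := D.embDeg) zero_le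
        ((O.valuation_le_one_iff _).mpr (D.cNrm_mem O (some ψ) j))
      by_cases hi : i.1 = D.embDeg
      · rw [mul_assoc]
        exact mul_le_one₀ hc1 zero_le (hpowle ψ hψ hYψ j fun hj => hij ⟨hi, hj⟩)
      · rw [mul_right_comm]
        exact mul_le_one₀ (hpowle φ hφ rfl i hi) zero_le hc2
    by_cases hqq : q.1.1 = D.embDeg ∧ q.2.1 = D.embDeg
    · simp [S, wedge, hlast φ hφ _ hqq.1, hlast φ hφ _ hqq.2, hlast ψ hψ _ hqq.1,
        hlast ψ hψ _ hqq.2, zero_pow (show D.embDeg ≠ 0 by omega)]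
    rcases le_total (O.valuation (D.cNrm O (some φ) q.1 * D.cNrm O (some ψ) q.2))
      (O.valuation (D.cNrm O (some φ) q.2 * D.cNrm O (some ψ) q.1)) with hle | hle
    · exact (mul_le_mul' (pow_le_pow_left₀ zero_le
        ((Valuation.map_sub _ _ _).trans (max_le hle le_rfl)) _) le_rfl).trans
          (hb _ _ fun h => hqq ⟨h.2, h.1⟩)
    · exact (mul_le_mul' (pow_le_pow_left₀ zero_le
        ((Valuation.map_sub _ _ _).trans (max_le le_rfl hle)) _) le_rfl).trans (hb _ _ hqq)
  · let i : Fin (D.embDeg + 1) := ⟨D.embDeg - 1, by omega⟩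
    have hig : (i : ℕ) ∉ D.gaps := D.notMem_gaps_of_le (by simp [i]; omega)
    have hφ0 : φ (1 ⊗ₜ D.e D.embDeg) ≠ 0 := (Valuation.ne_zero_iff _).mp hY0.ne'
    have hψ0 : ψ (1 ⊗ₜ D.e D.embDeg) ≠ 0 := (Valuation.ne_zero_iff _).mp (hYψ ▸ hY0.ne')
    have hlow : O.valuation (baseHom φ (D.e (D.embDeg - 1)) * baseHom φ (D.e D.embDeg)) ≤
        O.valuation (baseHom ψ (D.e (D.embDeg - 1)) * baseHom φ (D.e D.embDeg) -
          baseHom φ (D.e (D.embDeg - 1)) * baseHom ψ (D.e D.embDeg)) := by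
      by_contra! hlt
      have heq := D.eq_of_ratio_eq_one O hφ hp hv hlt
      have hcoord : ∀ j : Fin (D.embDeg + 1),
          (D.baseChange L).coord (some ψ) j = (D.baseChange L).coord (some φ) j := fun j => by
        have h := heq j (Nat.lt_succ_iff.mp j.2)
        rw [baseHom_apply, baseHom_apply] at h
        simp only [coord, baseChange_e]
        exact h
      refine hne (Option.some.inj
        ((D.baseChange L).eq_of_wedge_coord_eq_zero (some ψ) (some φ) fun a b => ?_))
      rw [hcoord, hcoord]; ring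
    have hkey : O.valuation (D.cNrm O (some φ) i) ≤ O.valuation (S (i, Fin.last _)) := by
      have e : S (i, Fin.last _) = -((φ (1 ⊗ₜ D.e D.embDeg) * ψ (1 ⊗ₜ D.e D.embDeg))⁻¹ *
          (ψ (1 ⊗ₜ D.e i) * φ (1 ⊗ₜ D.e D.embDeg) - φ (1 ⊗ₜ D.e i) * ψ (1 ⊗ₜ D.e D.embDeg))) := by
        simp only [S, wedge]
        rw [hlast ψ hψ (Fin.last _) rfl, hlast φ hφ (Fin.last _) rfl, hcN φ hφ, hcN ψ hψ]
        field_simp
        ring
      rw [e, Valuation.map_neg, hcN φ hφ, map_mul, map_mul, map_inv₀, map_inv₀, map_mul, hYψ,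
        ← hYdef]
      refine le_trans (le_of_eq ?_) (mul_le_mul' le_rfl hlow)
      rw [map_mul, baseHom_apply, baseHom_apply, ← hYdef, mul_inv]
      rw [mul_comm (O.valuation (φ (1 ⊗ₜ[K] D.e (D.embDeg - 1)))) Y, mul_assoc, ← mul_assoc _ Y,
        inv_mul_cancel₀ hY0.ne', one_mul]
    have h2 : O.valuation (D.cNrm O (some φ) i) ^ D.embDeg * Y = 1 := by
      rw [hcN φ hφ, map_mul, map_inv₀, ← hYdef, mul_pow, inv_pow]
      have := D.valuation_pow_embDeg O _ hφ hig
      simp only [baseHom_apply, ← hYdef] at this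
      rw [this, mul_assoc, ← pow_succ, show (i : ℕ) + 1 = D.embDeg by simp [i]; omega,
        inv_mul_cancel₀ (pow_ne_zero _ hY0.ne')]
    rw [← h2]
    exact mul_le_mul' (pow_le_pow_left₀ zero_le (hkey.trans (le_supMag O.valuation _ _)) _) le_rfl

/-- A section through the given points whose other zeros reduce away from a point. -/
theorem exists_near_product (P : Pt L (L ⊗[K] A)) (Qs : Multiset (Pt L (L ⊗[K] A))) :
    ∃ (k : ℕ) (f : L ⊗[K] A), f ∈ (D.baseChange L).lev (k * D.embDeg) ∧ D.Primitive O f ∧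
      ∃ Z, (D.baseChange L).zeros (k * D.embDeg) f = Qs + Z ∧ ∀ R ∈ Z, red O R ≠ red O P := by
  induction Qs using Multiset.induction_on with
  | empty =>
    obtain ⟨h, hh, hhp, -, hhv⟩ := D.exists_killer O P 0 (by simp)
    exact ⟨_, h, hh, hhp, _, (zero_add _).symm, fun R hR => D.red_ne_of_unit O hhp hh hR hhv⟩
  | cons Q Qs ih =>
    obtain ⟨k, f, hf, hfp, Z, hfz, hZ⟩ := ih
    obtain ⟨u, hu, hup, Z', huz, hZ'⟩ : ∃ u ∈ (D.baseChange L).lev (1 * D.embDeg),
        D.Primitive O u ∧ ∃ Z', (D.baseChange L).zeros (1 * D.embDeg) u = Q ::ₘ Z' ∧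
          ∀ R ∈ Z', red O R ≠ red O P := by
      by_cases hQ : red O Q = red O P
      · obtain ⟨u, hu, hup, Z', huz, hZ'⟩ := D.exists_param O Q
        exact ⟨u, hu, hup, Z', huz, fun R hR h => hZ' R hR (h.trans hQ.symm)⟩
      · obtain ⟨l, hl, hlp, hlz, hlv⟩ := D.exists_killer O P {Q} (by simpa using hQ)
        rw [Multiset.card_singleton] at hl hlz hlv
        obtain ⟨Z', hZ'⟩ := Multiset.le_iff_exists_add.mp hlz
        refine ⟨l, hl, hlp, Z', by rw [hZ', Multiset.singleton_add], fun R hR => ?_⟩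
        exact D.red_ne_of_unit O hlp hl (by rw [hZ']; simp [hR]) hlv
    refine ⟨k + 1, f * u, ?_, Primitive.mul D O hfp hup, Z + Z', ?_, fun R hR => ?_⟩
    · rw [add_mul]; exact (D.baseChange L).mul_mem_lev hf hu
    · rw [add_mul, (D.baseChange L).zeros_mul (Primitive.ne_zero D O hfp) (Primitive.ne_zero D O hup)
        hf hu, hfz, huz, ← Multiset.singleton_add Q Z', ← Multiset.singleton_add Q Qs]
      abel
    · rcases Multiset.mem_add.mp hR with h | h
      · exact hZ R h
      · exact hZ' R h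

section FibreOfPoint

variable (φ : L ⊗[K] A →ₐ[L] L) (Qs : Multiset (Pt L (L ⊗[K] A)))

theorem card_fibre_rest
    (hfib : (D.baseChange L).zeros D.projDeg
        (1 ⊗ₜ D.e D.projDeg - algebraMap L _ (φ (1 ⊗ₜ D.e D.projDeg))) = some φ ::ₘ Qs)
    : Multiset.card Qs = D.projDeg - 1 := by
  set c := φ (1 ⊗ₜ D.e D.projDeg) with hc_def
  have h := (D.baseChange L).card_zeros (D.fibre_ne_zero c) (D.fibre_lev c)
  rw [hfib, Multiset.card_cons] at h
  omega

/-- The other points of a fibre are finite, over the same value of the projection. -/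
theorem exists_eq_some_of_mem_fibre_rest
    (hfib : (D.baseChange L).zeros D.projDeg
        (1 ⊗ₜ D.e D.projDeg - algebraMap L _ (φ (1 ⊗ₜ D.e D.projDeg))) = some φ ::ₘ Qs)
    : ∀ Q ∈ Qs, ∃ ψ : L ⊗[K] A →ₐ[L] L,
      Q = some ψ ∧ ψ (1 ⊗ₜ D.e D.projDeg) = φ (1 ⊗ₜ D.e D.projDeg) := by
  set c := φ (1 ⊗ₜ D.e D.projDeg) with hc_def
  intro Q hQ
  rcases Q with _ | ψ
  · exact absurd (by rw [hfib]; exact Multiset.mem_cons_of_mem hQ) (D.none_notMem_fibre c)
  · exact ⟨ψ, rfl, D.apply_of_mem_fibre (by rw [hfib]; exact Multiset.mem_cons_of_mem hQ)⟩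

/-- The duality identity against a section through the other points of the fibre. -/
theorem dual_mul_eq_of_le_zeros [IsDedekindDomain A] (E : DualData D)
    (hfib : (D.baseChange L).zeros D.projDeg
        (1 ⊗ₜ D.e D.projDeg - algebraMap L _ (φ (1 ⊗ₜ D.e D.projDeg))) = some φ ::ₘ Qs)
    {f : L ⊗[K] A} {n : ℕ} (hle : Qs ≤ (D.baseChange L).zeros n f)
    {p : Fin D.projDeg → L} (hq : ∃ q, f - ∑ j, p j • ((1 : L) ⊗ₜ[K] D.e (D.apery j)) =
      (1 ⊗ₜ D.e D.projDeg - algebraMap L _ (φ (1 ⊗ₜ D.e D.projDeg))) * q) (i : Fin D.projDeg) :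
    φ (1 ⊗ₜ E.W i) * φ f = Polynomial.aeval (φ (1 ⊗ₜ D.e D.projDeg)) E.Δ * p i := by
  set c := φ (1 ⊗ₜ D.e D.projDeg) with hc_def
  have hsome := D.exists_eq_some_of_mem_fibre_rest φ Qs hfib
  revert i
  refine E.fiber_dual L φ Qs f p hfib (Or.inr ?_) ?_
  · refine Multiset.le_iff_count.mpr fun Q => ?_
    rcases Nat.eq_zero_or_pos (Qs.count Q) with h0 | hpos
    · rw [h0]; exact Nat.zero_le _
    obtain ⟨ψ, rfl, -⟩ := hsome Q (Multiset.count_pos.mp hpos)
    rw [Multiset.count_map_eq_count' some _ (Option.some_injective _), ← D.count_some_zeros n]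
    exact Multiset.le_iff_count.mp hle _
  · obtain ⟨q, hq⟩ := hq
    exact Ideal.mem_span_singleton.mpr ⟨q, hq⟩

/-- Outside the zeros of the discriminant the point is simple in its fibre. -/
theorem notMem_rest_of_aeval_ne_zero [IsDedekindDomain A] (E : DualData D)
    (hfib : (D.baseChange L).zeros D.projDeg
        (1 ⊗ₜ D.e D.projDeg - algebraMap L _ (φ (1 ⊗ₜ D.e D.projDeg))) = some φ ::ₘ Qs)
    (hΔ : Polynomial.aeval (φ (1 ⊗ₜ D.e D.projDeg)) E.Δ ≠ 0) : some φ ∉ Qs := by
  set c := φ (1 ⊗ₜ D.e D.projDeg) with hc_def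
  set πc := (1 : L) ⊗ₜ[K] D.e D.projDeg - algebraMap L (L ⊗[K] A) c
  intro hmem
  obtain ⟨t, ht, ht0, E', hE', hav⟩ := (D.baseChange L).exists_section_avoid Qs
    (n := Multiset.card Qs + 2 * D.genus) le_rfl {some φ}
  have hφt : φ t = 0 :=
    ((D.baseChange L).evSec_eq_zero_iff ht0 ht (some φ)).mpr
      (by rw [hE']; exact Multiset.mem_add.mpr (Or.inl hmem))
  obtain ⟨p, q, -, -, hpq⟩ := D.reduces_of_coeff_mem (S := ⊤) (c := c) Algebra.mem_top (f := t)
    fun i => Algebra.mem_top
  have hp : ∀ i, p i = 0 := fun i => by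
    have h := D.dual_mul_eq_of_le_zeros φ Qs E hfib
      (show Qs ≤ (D.baseChange L).zeros _ t by rw [hE']; exact Multiset.le_add_right _ _) ⟨q, hpq⟩ i
    rw [hφt, mul_zero, eq_comm, mul_eq_zero] at h
    exact h.resolve_left hΔ
  simp only [hp, zero_smul, Finset.sum_const_zero, sub_zero] at hpq
  have hq0 : q ≠ 0 := fun h0 => ht0 (by rw [hpq, h0, mul_zero])
  have hz : ((D.baseChange L).zeros (D.projDeg + (D.baseChange L).deg q) (πc * q)).count (some φ)
      = (Qs + E').count (some φ) := by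
    rw [D.count_some_zeros, ← hpq, ← hE', D.count_some_zeros]
  rw [(D.baseChange L).zeros_mul (D.fibre_ne_zero c) hq0 (D.fibre_lev c)
    ((D.baseChange L).mem_lev_deg q), hfib, Multiset.count_add, Multiset.count_cons_self,
    Multiset.count_add, Multiset.count_eq_zero.mpr fun h => hav _ h (by simp)] at hz
  omega

omit [IsAlgClosed L] [IsDedekindDomain (L ⊗[K] A)] [IsAlgClosed (ResField O)]
    [IsDedekindDomain (ResField O ⊗[K] A)] in
/-- Near infinity the largest value of the dual family has degree `projDeg · δ`. -/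
theorem supMag_dual_pow_of_escapes [IsDedekindDomain A] (E : DualData D)
    [Nonempty (Fin D.projDeg)] (hesc : D.Escapes O (baseHom φ)) :
    supMag O.valuation (fun i => φ (1 ⊗ₜ E.W i)) ^ D.embDeg =
      O.valuation (φ (1 ⊗ₜ D.e D.embDeg)) ^ (D.projDeg * E.δ) := by
  have hp0 : 0 < D.projDeg := D.projDeg_pos
  have hY := D.one_lt_of_escapes O hesc
  rw [baseHom_apply] at hY
  set Y := O.valuation (φ (1 ⊗ₜ D.e D.embDeg))
  have hdom : ∀ i, O.valuation (φ (1 ⊗ₜ E.W i)) ^ D.embDeg = Y ^ D.deg (E.W i) := fun i => by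
    rw [← baseHom_apply, D.valuation_map_eq_top O hesc (D.deg_notMem_gaps _) (D.mem_lev_deg _)
      (D.coeff_deg_ne_zero (E.W_ne_zero i)),
      D.valuation_pow_embDeg O _ hesc (D.deg_notMem_gaps _), baseHom_apply]
  have h0 : D.deg (E.W ⟨0, hp0⟩) = D.projDeg * E.δ := by
    have := E.deg_W ⟨0, hp0⟩
    rwa [D.apery_zero hp0, add_zero] at this
  obtain ⟨i, hi⟩ := exists_supMag_eq O.valuation (fun i => φ (1 ⊗ₜ E.W i))
  refine le_antisymm ?_ ?_
  · rw [hi, hdom i]
    exact pow_le_pow_right₀ hY.le (by have := E.deg_W i; omega)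
  · rw [← h0, ← hdom]
    exact pow_le_pow_left₀ zero_le
      (le_supMag O.valuation (fun i => φ (1 ⊗ₜ E.W i)) ⟨0, hp0⟩) _

omit [IsAlgClosed (ResField O)] [IsDedekindDomain (ResField O ⊗[K] A)] in
/-- Near infinity the product of the distances to the other points of the fibre. -/
theorem prod_dst_pow_mul_of_escapes [CharZero K] (hesc : D.Escapes O (baseHom φ))
    (hfib : (D.baseChange L).zeros D.projDeg
        (1 ⊗ₜ D.e D.projDeg - algebraMap L _ (φ (1 ⊗ₜ D.e D.projDeg))) = some φ ::ₘ Qs)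
    (hnot : some φ ∉ Qs) :
    (Qs.map fun Q => (D.baseChange L).dst O.valuation (some φ) Q).prod ^ D.embDeg *
      O.valuation (φ (1 ⊗ₜ D.e D.embDeg)) ^ (D.projDeg - 1) = 1 := by
  have hcard := D.card_fibre_rest φ Qs hfib
  have hsome := D.exists_eq_some_of_mem_fibre_rest φ Qs hfib
  set Y := O.valuation (φ (1 ⊗ₜ D.e D.embDeg))
  rw [← hcard, ← Multiset.prod_map_pow,
    show Y ^ Multiset.card Qs = (Qs.map fun _ => Y).prod by simp, ← Multiset.prod_map_mul]
  refine Multiset.prod_eq_one fun x hx => ?_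
  obtain ⟨Q, hQ, rfl⟩ := Multiset.mem_map.mp hx
  obtain ⟨ψ, rfl, hψ⟩ := hsome Q hQ
  exact D.dst_fibre_escapes O hesc hψ fun h => hnot (h ▸ hQ)

/-- Away from infinity the remainder of a primitive section with no further zero near `φ` is
primitive. -/
theorem exists_resid_remainder_ne_zero (hesc : ¬ D.Escapes O (baseHom φ))
    (hfib : (D.baseChange L).zeros D.projDeg
        (1 ⊗ₜ D.e D.projDeg - algebraMap L _ (φ (1 ⊗ₜ D.e D.projDeg))) = some φ ::ₘ Qs)
    {k : ℕ} {f : L ⊗[K] A} (hf : f ∈ (D.baseChange L).lev (k * D.embDeg))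
    (hfp : D.Primitive O f) {Z : Multiset (Pt L (L ⊗[K] A))}
    (hfz : (D.baseChange L).zeros (k * D.embDeg) f = Qs + Z)
    (hZ : ∀ R ∈ Z, red O R ≠ red O (some φ)) {p : Fin D.projDeg → L} {q : L ⊗[K] A}
    (hpO : ∀ i, p i ∈ intRing K O) (hqO : ∀ i, (D.baseChange L).coeff i q ∈ intRing K O)
    (hpq : f - ∑ j, p j • ((1 : L) ⊗ₜ[K] D.e (D.apery j)) =
      (1 ⊗ₜ D.e D.projDeg - algebraMap L _ (φ (1 ⊗ₜ D.e D.projDeg))) * q) :
    ∃ i, resid O (p i) ≠ 0 := by
  have hcO : φ (1 ⊗ₜ D.e D.projDeg) ∈ O := D.mem_of_not_escapes O _ hesc _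
  set c := φ (1 ⊗ₜ D.e D.projDeg) with hc_def
  set πc := (1 : L) ⊗ₜ[K] D.e D.projDeg - algebraMap L (L ⊗[K] A) c
  by_contra! hall
  have hsum : ∀ j ∈ Finset.univ, D.IntCoeff O (p j • ((1 : L) ⊗ₜ[K] D.e (D.apery j))) :=
    fun j _ => IntCoeff.smul D O (hpO j) (D.intCoeff_tmul O _)
  have hπI : D.IntCoeff O πc := by
    refine IntCoeff.sub D O (D.intCoeff_tmul O _) ?_
    have h1 : algebraMap L (L ⊗[K] A) c = c • ((1 : L) ⊗ₜ[K] D.e 0) := by
      rw [Algebra.algebraMap_eq_smul_one, D.e_zero]; rfl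
    rw [h1]
    exact IntCoeff.smul D O hcO (D.intCoeff_tmul O _)
  have hred : redSec O D f = redSec O D πc * redSec O D q := by
    have h := congrArg (redSec O D) hpq
    rw [D.redSec_sub O hfp.1 (IntCoeff.sum D O _ hsum), D.redSec_sum O _ hsum,
      Finset.sum_eq_zero (fun j _ => by
        rw [D.redSec_smul O (hpO j) (D.intCoeff_tmul O _), hall j, zero_smul]),
      sub_zero, D.redSec_mul O hπI hqO] at h
    exact h
  have hq0 : redSec O D q ≠ 0 := fun h0 => hfp.2 (by rw [hred, h0, mul_zero])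
  have hπ0 : redSec O D πc ≠ 0 := fun h0 => hfp.2 (by rw [hred, h0, zero_mul])
  obtain ⟨χ, hχ, -⟩ := D.exists_red_of_not_escapes O hesc
  let Dk := D.baseChange (ResField O)
  have hzπ := D.zeros_redSec_eq O _ _ (D.fibre_lev c) hπI hπ0
  rw [hfib, Multiset.map_cons, hχ] at hzπ
  have hzf := D.zeros_redSec_eq O _ _ hf hfp.1 hfp.2
  rw [hfz, Multiset.map_add] at hzf
  have hlevq : redSec O D q ∈ Dk.lev (Dk.deg (redSec O D q)) := Dk.mem_lev_deg _
  have hmulz := Dk.zeros_mul hπ0 hq0 (D.redSec_mem_lev O (D.fibre_lev c)) hlevq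
  have hcount : (zerosFin (K := ResField O) (redSec O D f)).count χ =
      (zerosFin (K := ResField O) (redSec O D πc * redSec O D q)).count χ := by rw [hred]
  have e1 : ∀ (n : ℕ) (t : ResField O ⊗[K] A),
      (Dk.zeros n t).count (some χ) = (zerosFin (K := ResField O) t).count χ := fun n t => by
    rw [CurveBasis.zeros, Multiset.count_add, Multiset.count_replicate, if_neg (by simp),
      add_zero, Multiset.count_map_eq_count' some _ (Option.some_injective _)]
  have hZ0 : (Z.map (red O)).count (some χ) = 0 := Multiset.count_eq_zero.mpr fun h => by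
    obtain ⟨R, hR, hRχ⟩ := Multiset.mem_map.mp h
    exact hZ R hR (hRχ.trans hχ.symm)
  rw [← e1 (k * D.embDeg), ← e1 (D.projDeg + Dk.deg (redSec O D q)), hzf, hmulz, hzπ,
    Multiset.count_add, Multiset.count_add, Multiset.count_cons_self, hZ0] at hcount
  omega

/-- Away from infinity the value of such a section is the product of the distances to its zeros. -/
theorem valuation_apply_near_product (hesc : ¬ D.Escapes O (baseHom φ))
    {k : ℕ} {f : L ⊗[K] A} (hf : f ∈ (D.baseChange L).lev (k * D.embDeg))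
    (hfp : D.Primitive O f) {Z : Multiset (Pt L (L ⊗[K] A))}
    (hfz : (D.baseChange L).zeros (k * D.embDeg) f = Qs + Z)
    (hZ : ∀ R ∈ Z, red O R ≠ red O (some φ)) :
    O.valuation (φ f) = (Qs.map fun Q => (D.baseChange L).dst O.valuation (some φ) Q).prod := by
  have h := D.valuation_nev_eq_prod O _ k f (some φ) hf hfp rfl
  rw [nev_apply, D.scale_of_not_escapes O hesc, one_pow, one_mul, hfz, Multiset.map_add,
    Multiset.prod_add, Multiset.prod_eq_one (s := Z.map _) (fun x hx => by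
      obtain ⟨R, hR, rfl⟩ := Multiset.mem_map.mp hx
      exact D.dst_eq_one O _ _ fun h => hZ R hR h.symm), mul_one] at h
  exact h

/-- The dual family measures the separation of the fibre of the projection. -/
theorem valuation_dual_eq [CharZero K] [IsDedekindDomain A] (E : DualData D)
    [Nonempty (Fin D.projDeg)]
    (hfib : (D.baseChange L).zeros D.projDeg
        (1 ⊗ₜ D.e D.projDeg - algebraMap L _ (φ (1 ⊗ₜ D.e D.projDeg))) = some φ ::ₘ Qs)
    (hΔ : Polynomial.aeval (φ (1 ⊗ₜ D.e D.projDeg)) E.Δ ≠ 0) :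
    supMag O.valuation (fun i => φ (1 ⊗ₜ E.W i)) ^ D.embDeg *
        (Qs.map fun Q => (D.baseChange L).dst O.valuation (some φ) Q).prod ^ D.embDeg *
        supMag O.valuation ((D.baseChange L).coord (some φ)) ^ (D.projDeg - 1) =
      O.valuation (Polynomial.aeval (φ (1 ⊗ₜ D.e D.projDeg)) E.Δ) ^ D.embDeg := by
  set c := φ (1 ⊗ₜ D.e D.projDeg) with hc_def
  by_cases hesc : D.Escapes O (baseHom φ)
  · have hc1 : 1 < O.valuation c := (D.escapes_iff_proj O).mp hesc
    have hcY := D.valuation_proj_of_escapes O hesc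
    have hprod := D.prod_dst_pow_mul_of_escapes O φ Qs hesc hfib
      (D.notMem_rest_of_aeval_ne_zero φ Qs E hfib hΔ)
    rw [valuation_aeval_eq O E.Δ_ne_zero hc1, E.natDegree_Δ, ← pow_mul, mul_comm E.δ, pow_mul,
      hcY, ← pow_mul, D.supMag_dual_pow_of_escapes O φ E hesc, mul_assoc, D.supMag_coord O,
      D.scale_of_escapes O hesc, map_inv₀, inv_inv, hprod, mul_one]
  · have hcO : c ∈ O := D.mem_of_not_escapes O _ hesc _
    rw [D.supMag_coord O, D.scale_of_not_escapes O hesc, map_one, inv_one, one_pow, mul_one,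
      ← mul_pow]
    congr 1
    obtain ⟨k, f, hf, hfp, Z, hfz, hZ⟩ := D.exists_near_product O (some φ) Qs
    obtain ⟨p, q, hpO, hqO, hpq⟩ := D.reduces_of_coeff_mem (S := intRing K O) (c := c) hcO
      (f := f) hfp.1
    obtain ⟨i, hi⟩ := D.exists_resid_remainder_ne_zero O φ Qs hesc hfib hf hfp hfz hZ hpO hqO hpq
    have hfval := D.valuation_apply_near_product O φ Qs hesc hf hfp hfz hZ
    have hid := D.dual_mul_eq_of_le_zeros φ Qs E hfib
      (show Qs ≤ (D.baseChange L).zeros _ f by rw [hfz]; exact Multiset.le_add_right _ _) ⟨q, hpq⟩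
    have hsupp : supMag O.valuation p = 1 :=
      supMag_eq_of_le_of_eq _ _ (fun j => (O.valuation_le_one_iff _).mpr (hpO j)) (i := i)
        (valuation_eq_one_of_resid_ne_zero O (hpO i) hi)
    calc supMag O.valuation (fun i => φ (1 ⊗ₜ E.W i)) *
          (Qs.map fun Q => (D.baseChange L).dst O.valuation (some φ) Q).prod
        = supMag O.valuation (φ f • fun i => φ (1 ⊗ₜ E.W i)) := by
          rw [supMag_smul, hfval, mul_comm]
      _ = supMag O.valuation (Polynomial.aeval c E.Δ • p) := by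
          congr 1; funext j; rw [Pi.smul_apply, Pi.smul_apply, smul_eq_mul, smul_eq_mul, mul_comm, hid j]
      _ = _ := by rw [supMag_smul, hsupp, mul_one]

end FibreOfPoint

end Fermat.Agent.MW.CurveBasis
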