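import Fermat.Agent.MW.Local.Defs
import Fermat.Agent.MW.Core.BaseChange
import Fermat.Agent.MW.Local.Dual
import Mathlib.LinearAlgebra.Matrix.Determinant.Basic

/-!
# Valuative identities of points, sections and families

On a valued extension field with residue field over the base field: distances, values of sections,
leading coefficients, determinants and the trace-dual family.
-/

set_option autoImplicit false

noncomputable section

open scoped TensorProduct

namespace Fermat.Agent.MW.CurveBasis

variable {K A : Type} [Field K] [IsAlgClosed K] [CharZero K] [CommRing A] [Algebra K A]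
  [IsDedekindDomain A] (D : CurveBasis K A)
variable {L : Type} [Field L] [Algebra K L] [IsAlgClosed L] [IsDedekindDomain (L ⊗[K] A)]
variable (O : ValuationSubring L) [OverBase K O]

omit [IsDedekindDomain (L ⊗[K] A)] in
/-- Distance of a finite point to infinity. -/
theorem dst_none (P : Pt L (L ⊗[K] A)) (hP : P ≠ none) :
    (D.baseChange L).dst O.valuation none P ^ D.embDeg *
      supMag O.valuation ((D.baseChange L).coord P) = 1 := by
  have := isAlgClosed_resField O
  have := charZero_resField (K := K) O
  have := isDedekindDomain_baseChange D (ResField O)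
  exact D.dst_none_eq O P hP

/-- The value of a section is the product of the distances to its zeros. -/
theorem valuation_evSec (k : ℕ) (t : L ⊗[K] A) (ht : t ≠ 0)
    (htk : t ∈ (D.baseChange L).lev (k * D.embDeg)) (P : Pt L (L ⊗[K] A)) :
    O.valuation ((D.baseChange L).evSec (k * D.embDeg) P t) =
      supMag O.valuation ((D.baseChange L).coeffVec (k * D.embDeg) t) *
        supMag O.valuation ((D.baseChange L).coord P) ^ k *
        (((D.baseChange L).zeros (k * D.embDeg) t).map
          fun Q => (D.baseChange L).dst O.valuation P Q).prod := by
  have := isAlgClosed_resField O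
  have := charZero_resField (K := K) O
  have := isDedekindDomain_baseChange D (ResField O)
  exact D.valuation_evSec_eq O k t ht htk P

/-- The leading coefficient against the heights of the zeros. -/
theorem valuation_lead (t : L ⊗[K] A) (ht : t ≠ 0) (hta : t ∈ (D.baseChange L).lev D.embDeg) :
    O.valuation ((D.baseChange L).coeff ((D.baseChange L).deg t) t) ^ D.embDeg *
        (((D.baseChange L).zeros D.embDeg t).map
          fun Q => supMag O.valuation ((D.baseChange L).coord Q)).prod =
      supMag O.valuation ((D.baseChange L).coeffVec D.embDeg t) ^ D.embDeg := by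
  have := isAlgClosed_resField O
  have := charZero_resField (K := K) O
  have := isDedekindDomain_baseChange D (ResField O)
  exact D.valuation_lead_eq O t ht hta

omit [IsDedekindDomain (L ⊗[K] A)] in
/-- The projection controls the size of a point. -/
theorem supMag_coord_proj (φ : L ⊗[K] A →ₐ[L] L) :
    supMag O.valuation ((D.baseChange L).coord (some φ)) ^ D.projDeg =
      max 1 (O.valuation (φ (1 ⊗ₜ D.e D.projDeg))) ^ D.embDeg := by
  have := isAlgClosed_resField O
  have := charZero_resField (K := K) O
  have := isDedekindDomain_baseChange D (ResField O)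
  exact D.supMag_coord_proj_eq O φ

/-- A family defined over `K` evaluates to the distance to its base divisor. -/
theorem supMag_family {ι : Type} [Fintype ι] [Nonempty ι] (F : BaseFamily D ι)
    (P : Pt L (L ⊗[K] A)) :
    supMag O.valuation (fun i => (D.baseChange L).evSec (F.k * D.embDeg) P (1 ⊗ₜ F.W i)) =
      supMag O.valuation ((D.baseChange L).coord P) ^ F.k *
        (F.R.map fun R => (D.baseChange L).dst O.valuation P (mapPt L R)).prod := by
  have := isAlgClosed_resField O
  have := charZero_resField (K := K) O
  have := isDedekindDomain_baseChange D (ResField O)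
  exact D.supMag_family_eq O F P

/-- A determinant of values is small when the points are close. -/
theorem valuation_det_le {d : ℕ} [Nonempty (Fin d)] (F : BaseFamily D (Fin d))
    (P : Fin d → Pt L (L ⊗[K] A)) :
    O.valuation
        (Matrix.det (Matrix.of fun j i =>
          (D.baseChange L).evSec (F.k * D.embDeg) (P j) (1 ⊗ₜ F.W i))) ≤
      (∏ j, supMag O.valuation
          fun i => (D.baseChange L).evSec (F.k * D.embDeg) (P j) (1 ⊗ₜ F.W i)) *
        ∏ p ∈ Finset.univ.filter (fun p : Fin d × Fin d => p.1 < p.2),
          (D.baseChange L).dst O.valuation (P p.1) (P p.2) := by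
  have := isAlgClosed_resField O
  have := charZero_resField (K := K) O
  have := isDedekindDomain_baseChange D (ResField O)
  exact D.valuation_det_le_eq O F P

/-- The dual family measures the separation of the fibre of the projection. -/
theorem valuation_dual (E : DualData D) [Nonempty (Fin D.projDeg)] (φ : L ⊗[K] A →ₐ[L] L)
    (Qs : Multiset (Pt L (L ⊗[K] A)))
    (hfib : (D.baseChange L).zeros D.projDeg
        (1 ⊗ₜ D.e D.projDeg - algebraMap L _ (φ (1 ⊗ₜ D.e D.projDeg))) = some φ ::ₘ Qs)
    (hΔ : Polynomial.aeval (φ (1 ⊗ₜ D.e D.projDeg)) E.Δ ≠ 0) :
    supMag O.valuation (fun i => φ (1 ⊗ₜ E.W i)) ^ D.embDeg *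
        (Qs.map fun Q => (D.baseChange L).dst O.valuation (some φ) Q).prod ^ D.embDeg *
        supMag O.valuation ((D.baseChange L).coord (some φ)) ^ (D.projDeg - 1) =
      O.valuation (Polynomial.aeval (φ (1 ⊗ₜ D.e D.projDeg)) E.Δ) ^ D.embDeg := by
  have := isAlgClosed_resField O
  have := charZero_resField (K := K) O
  have := isDedekindDomain_baseChange D (ResField O)
  exact D.valuation_dual_eq O φ Qs E hfib hΔ

end Fermat.Agent.MW.CurveBasis
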