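import Fermat.Agent.MW.Core.Defs
import Mathlib.RingTheory.Valuation.ValuationSubring
import Mathlib.RingTheory.LocalRing.ResidueField.Basic
import Mathlib.Data.Finset.Lattice.Fold

/-!
# Projective distance and reduction of points

For a valuation or absolute value: the largest magnitude of a coordinate, the projective distance
of two points, and reduction of points and functions modulo a valuation ring over the base field.
-/

set_option autoImplicit false

noncomputable section

open scoped TensorProduct

namespace Fermat.Agent.MW

/-- The largest magnitude of a coordinate. -/
def supMag {R Γ : Type*} [LinearOrder Γ] {ι : Type*} [Fintype ι] [Nonempty ι]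
    (v : R → Γ) (x : ι → R) : Γ :=
  Finset.univ.sup' Finset.univ_nonempty fun i => v (x i)

/-- The exterior product of two coordinate vectors. -/
def wedge {R : Type*} [CommRing R] {ι : Type*} (x y : ι → R) : ι × ι → R :=
  fun p => x p.1 * y p.2 - x p.2 * y p.1

/-- The projective distance of two points, for a valuation or an absolute value `v`. -/
def CurveBasis.dst {K A : Type} [Field K] [CommRing A] [Algebra K A] (D : CurveBasis K A)
    {Γ : Type*} [LinearOrder Γ] [Mul Γ] [Div Γ] (v : K → Γ) (P Q : Pt K A) : Γ :=
  supMag v (wedge (D.coord P) (D.coord Q)) / (supMag v (D.coord P) * supMag v (D.coord Q))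

/-- The valuation ring contains the base field (so the residue characteristic is that of it). -/
class OverBase (K : Type) [Field K] {L : Type} [Field L] [Algebra K L]
    (O : ValuationSubring L) : Prop where
  algebraMap_mem : ∀ c : K, algebraMap K L c ∈ O

variable {K L : Type} [Field K] [Field L] [Algebra K L]

/-- The residue field of `O`. -/
abbrev ResField (O : ValuationSubring L) : Type := IsLocalRing.ResidueField O

instance instAlgebraResField (O : ValuationSubring L) [OverBase K O] :
    Algebra K (ResField O) :=
  ((IsLocalRing.residue O).comp ((algebraMap K L).codRestrict O.toSubring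
    OverBase.algebraMap_mem)).toAlgebra

variable {A : Type} [CommRing A] [Algebra K A] (O : ValuationSubring L) [OverBase K O]

open scoped Classical in
/-- Reduction of a point. -/
def red : Pt L (L ⊗[K] A) → Pt (ResField O) (ResField O ⊗[K] A)
  | none => none
  | some φ =>
    if h : ∀ f : A, φ (1 ⊗ₜ f) ∈ O then
      some <| Algebra.TensorProduct.lift (AlgHom.id _ _)
        ({ toRingHom := (IsLocalRing.residue O).comp
            ((φ.toRingHom.comp (Algebra.TensorProduct.includeRight
              (R := K) (A := L)).toRingHom).codRestrict O.toSubring h)
           commutes' := fun c => by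
            refine congrArg (IsLocalRing.residue O) (Subtype.ext ?_)
            show φ (1 ⊗ₜ algebraMap K A c) = algebraMap K L c
            have e : ((1 : L) ⊗ₜ[K] algebraMap K A c)
                = algebraMap L (L ⊗[K] A) (algebraMap K L c) := by
              rw [Algebra.TensorProduct.algebraMap_apply, Algebra.algebraMap_eq_smul_one c,
                TensorProduct.tmul_smul, TensorProduct.smul_tmul', ← Algebra.algebraMap_eq_smul_one]
              rfl
            rw [e, φ.commutes]
            rfl } : A →ₐ[K] ResField O)
        (fun _ _ => Commute.all _ _)
    else none

open scoped Classical in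
/-- Residue of an element, extended by zero outside `O`. -/
def resid (x : L) : ResField O := if h : x ∈ O then IsLocalRing.residue O ⟨x, h⟩ else 0

/-- Reduction of a function with integral coefficients. -/
def redSec (D : CurveBasis K A) (t : L ⊗[K] A) : ResField O ⊗[K] A :=
  ((D.baseChange L).basis.repr t).sum fun i c => resid O c • ((1 : ResField O) ⊗ₜ D.basis i)

end Fermat.Agent.MW
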