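import Fermat.Agent.MW.Local.Mag
import Fermat.Agent.MW.Core.API

/-!
# Integral sections and their reduction

Over a valuation ring containing the base field the largest coefficient of a section is
multiplicative, and the integral sections reduce to sections over the residue field.
-/

set_option autoImplicit false

noncomputable section

open scoped TensorProduct
open Module

namespace Fermat.Agent.MW.CurveBasis

variable {K A : Type} [Field K] [CommRing A] [Algebra K A] (D : CurveBasis K A)

/-- The `i`-th coefficient with arbitrary scalars. -/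
def coeffScalar (R : Type) [CommRing R] [Algebra K R] (i : ℕ) : R ⊗[K] A →ₗ[K] R :=
  (TensorProduct.rid K R).toLinearMap ∘ₗ (D.coeff i).lTensor R

theorem coeffScalar_tmul (R : Type) [CommRing R] [Algebra K R] (i : ℕ) (c : R) (f : A) :
    D.coeffScalar R i (c ⊗ₜ f) = c * algebraMap K R (D.coeff i f) := by
  simp [coeffScalar, Algebra.smul_def, mul_comm]

theorem coeff_eq_coeffScalar (F : Type) [Field F] [Algebra K F] (i : ℕ) (t : F ⊗[K] A) :
    (D.baseChange F).coeff i t = D.coeffScalar F i t := by
  induction t using TensorProduct.induction_on with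
  | zero => simp
  | tmul c f => rw [baseChange_coeff, coeffScalar_tmul]
  | add x y hx hy => simp [hx, hy]

theorem coeffScalar_map {R S : Type} [CommRing R] [Algebra K R] [CommRing S] [Algebra K S]
    (g : R →ₐ[K] S) (i : ℕ) (t : R ⊗[K] A) :
    D.coeffScalar S i (Algebra.TensorProduct.map g (AlgHom.id K A) t) = g (D.coeffScalar R i t) := by
  induction t using TensorProduct.induction_on with
  | zero => simp
  | tmul c f => simp [coeffScalar_tmul]
  | add x y hx hy => simp [hx, hy]

/-- A function is determined by its coefficients. -/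
theorem coeff_ext {f g : A} (h : ∀ i, D.coeff i f = D.coeff i g) : f = g := by
  refine D.basis.repr.injective (Finsupp.ext fun i => ?_)
  simpa [coeff, i.2] using h i.1

variable {L : Type} [Field L] [Algebra K L] (O : ValuationSubring L)

/-- All coefficients lie in the valuation ring. -/
def IntCoeff (t : L ⊗[K] A) : Prop := ∀ i, (D.baseChange L).coeff i t ∈ O

/-- An integral section with nonzero reduction. -/
def Primitive [OverBase K O] (t : L ⊗[K] A) : Prop := D.IntCoeff O t ∧ redSec O D t ≠ 0

/-- The inclusion of integral functions. -/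
def inclInt [OverBase K O] : intRing K O ⊗[K] A →ₐ[K] L ⊗[K] A :=
  Algebra.TensorProduct.map (intRing K O).val (AlgHom.id K A)

/-- The reduction of integral functions. -/
def redInt [OverBase K O] : intRing K O ⊗[K] A →ₐ[K] ResField O ⊗[K] A :=
  Algebra.TensorProduct.map (residAlg O) (AlgHom.id K A)

variable [OverBase K O]

omit [OverBase K O] in
theorem coeff_baseChange_of_notMem (t : L ⊗[K] A) {i : ℕ} (hi : i ∉ D.gaps) :
    (D.baseChange L).coeff i t = (D.basis.baseChange L).repr t ⟨i, hi⟩ := by
  rw [coeff, dif_neg (show i ∉ (D.baseChange L).gaps from hi)]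
  rfl

omit [OverBase K O] in
/-- Coefficients at gaps vanish after base change. -/
theorem coeff_baseChange_of_mem (t : L ⊗[K] A) {i : ℕ} (hi : i ∈ D.gaps) :
    (D.baseChange L).coeff i t = 0 := by
  rw [coeff, dif_pos (show i ∈ (D.baseChange L).gaps from hi)]
  rfl

/-- Reduction of sections reduces the coefficients. -/
theorem coeff_redSec (t : L ⊗[K] A) (i : ℕ) :
    (D.baseChange (ResField O)).coeff i (redSec O D t) =
      resid O ((D.baseChange L).coeff i t) := by
  classical
  have e : redSec O D t = ((D.basis.baseChange L).repr t).sum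
      fun j c => resid O c • ((1 : ResField O) ⊗ₜ[K] D.basis j) := rfl
  rw [e, Finsupp.sum, map_sum]
  simp only [map_smul, baseChange_coeff, coeff_basis, one_mul, smul_eq_mul]
  by_cases hi : i ∈ D.gaps
  · rw [Finset.sum_eq_zero fun j _ => by
      rw [if_neg (fun h : i = j.1 => j.2 (h ▸ hi))]; simp]
    rw [D.coeff_baseChange_of_mem t hi, resid_zero]
  · rw [D.coeff_baseChange_of_notMem t hi,
      Finset.sum_eq_single (⟨i, hi⟩ : {n : ℕ // n ∉ D.gaps})]
    · simp
    · intro j _ hj
      rw [if_neg (fun h : i = j.1 => hj (Subtype.ext h.symm))]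
      simp
    · intro h
      simp only [Finsupp.notMem_support_iff] at h
      simp [h, resid_zero]

theorem intCoeff_inclInt (τ : intRing K O ⊗[K] A) : D.IntCoeff O (inclInt O τ) := fun i => by
  rw [coeff_eq_coeffScalar, inclInt, coeffScalar_map]
  exact (D.coeffScalar (intRing K O) i τ).2

/-- Reduction of sections extends the reduction of integral functions. -/
theorem redSec_inclInt (τ : intRing K O ⊗[K] A) : redSec O D (inclInt O τ) = redInt O τ := by
  refine (D.baseChange (ResField O)).coeff_ext fun i => ?_
  rw [coeff_redSec, coeff_eq_coeffScalar, coeff_eq_coeffScalar, redInt, inclInt, coeffScalar_map,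
    coeffScalar_map]
  exact resid_coe O ⟨_, (D.coeffScalar (intRing K O) i τ).2⟩

/-- A section with integral coefficients comes from an integral function. -/
theorem exists_inclInt_eq {t : L ⊗[K] A} (h : D.IntCoeff O t) :
    ∃ τ : intRing K O ⊗[K] A, inclInt O τ = t := by
  classical
  let s := ((D.basis.baseChange L).repr t).support.image Subtype.val
  refine ⟨∑ i ∈ s, (⟨_, h i⟩ : intRing K O) ⊗ₜ[K] D.e i, (D.baseChange L).coeff_ext fun j => ?_⟩
  simp only [map_sum, inclInt, Algebra.TensorProduct.map_tmul, baseChange_coeff]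
  by_cases hj : j ∈ s
  · have hjg : j ∉ D.gaps := by
      obtain ⟨q, -, rfl⟩ := Finset.mem_image.mp hj
      exact q.2
    rw [Finset.sum_eq_single j]
    · simp [D.coeff_e hjg]
    · intro i hi hij
      obtain ⟨q, -, rfl⟩ := Finset.mem_image.mp hi
      simp [D.coeff_e q.2, hij.symm]
    · exact fun h' => absurd hj h'
  · rw [Finset.sum_eq_zero]
    · by_cases hjg : j ∈ D.gaps
      · rw [D.coeff_baseChange_of_mem t hjg]
      · rw [D.coeff_baseChange_of_notMem t hjg]
        exact (Finsupp.notMem_support_iff.mp fun h' => hj (Finset.mem_image.mpr ⟨_, h', rfl⟩)).symm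
    · intro i hi
      obtain ⟨q, -, rfl⟩ := Finset.mem_image.mp hi
      have : j ≠ q.1 := fun h' => hj (h' ▸ hi)
      simp [D.coeff_e q.2, this]

/-- Integral sections are closed under products. -/
theorem IntCoeff.mul {s t : L ⊗[K] A} (hs : D.IntCoeff O s) (ht : D.IntCoeff O t) :
    D.IntCoeff O (s * t) := by
  obtain ⟨σ, rfl⟩ := D.exists_inclInt_eq O hs
  obtain ⟨τ, rfl⟩ := D.exists_inclInt_eq O ht
  rw [← map_mul]; exact D.intCoeff_inclInt O _

/-- Reduction is multiplicative. -/
theorem redSec_mul {s t : L ⊗[K] A} (hs : D.IntCoeff O s) (ht : D.IntCoeff O t) :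
    redSec O D (s * t) = redSec O D s * redSec O D t := by
  obtain ⟨σ, rfl⟩ := D.exists_inclInt_eq O hs
  obtain ⟨τ, rfl⟩ := D.exists_inclInt_eq O ht
  rw [← map_mul, redSec_inclInt, redSec_inclInt, redSec_inclInt, map_mul]

omit [OverBase K O] in
/-- Integral sections are closed under sums. -/
theorem IntCoeff.add {s t : L ⊗[K] A} (hs : D.IntCoeff O s) (ht : D.IntCoeff O t) :
    D.IntCoeff O (s + t) := fun i => by simpa using O.add_mem _ _ (hs i) (ht i)

omit [OverBase K O] in
/-- Integral sections are closed under differences. -/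
theorem IntCoeff.sub {s t : L ⊗[K] A} (hs : D.IntCoeff O s) (ht : D.IntCoeff O t) :
    D.IntCoeff O (s - t) := fun i => by simpa using sub_mem (hs i) (ht i)

omit [OverBase K O] in
/-- The zero section is integral. -/
theorem intCoeff_zero : D.IntCoeff O (0 : L ⊗[K] A) := fun i => by simp

omit [OverBase K O] in
/-- Integral sections are closed under integral multiples. -/
theorem IntCoeff.smul {t : L ⊗[K] A} {c : L} (hc : c ∈ O) (ht : D.IntCoeff O t) :
    D.IntCoeff O (c • t) := fun i => by simpa using mul_mem hc (ht i)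

omit [OverBase K O] in
/-- Integral sections are closed under finite sums. -/
theorem IntCoeff.sum {ι : Type*} (s : Finset ι) {f : ι → L ⊗[K] A}
    (h : ∀ i ∈ s, D.IntCoeff O (f i)) : D.IntCoeff O (∑ i ∈ s, f i) :=
  Finset.sum_induction _ (D.IntCoeff O) (fun _ _ => IntCoeff.add D O) (D.intCoeff_zero O) h

/-- Reduction is additive. -/
theorem redSec_add {s t : L ⊗[K] A} (hs : D.IntCoeff O s) (ht : D.IntCoeff O t) :
    redSec O D (s + t) = redSec O D s + redSec O D t :=
  (D.baseChange (ResField O)).coeff_ext fun i => by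
    simp [coeff_redSec, resid_add O (hs i) (ht i)]

/-- Reduction respects subtraction. -/
theorem redSec_sub {s t : L ⊗[K] A} (hs : D.IntCoeff O s) (ht : D.IntCoeff O t) :
    redSec O D (s - t) = redSec O D s - redSec O D t :=
  (D.baseChange (ResField O)).coeff_ext fun i => by
    simp [coeff_redSec, resid_sub O (hs i) (ht i)]

/-- Reduction is semilinear for the residue map. -/
theorem redSec_smul {t : L ⊗[K] A} {c : L} (hc : c ∈ O) (ht : D.IntCoeff O t) :
    redSec O D (c • t) = resid O c • redSec O D t :=
  (D.baseChange (ResField O)).coeff_ext fun i => by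
    simp [coeff_redSec, resid_mul O hc (ht i)]

/-- The reduction of `0` is `0`. -/
theorem redSec_zero : redSec O D (0 : L ⊗[K] A) = 0 :=
  (D.baseChange (ResField O)).coeff_ext fun i => by simp [coeff_redSec, resid_zero]

/-- Reduction commutes with finite sums. -/
theorem redSec_sum {ι : Type*} (s : Finset ι) {f : ι → L ⊗[K] A}
    (h : ∀ i ∈ s, D.IntCoeff O (f i)) :
    redSec O D (∑ i ∈ s, f i) = ∑ i ∈ s, redSec O D (f i) := by
  classical
  induction s using Finset.induction_on with
  | empty => simp [redSec_zero]
  | insert a s ha ih =>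
    simp only [Finset.forall_mem_insert] at h
    rw [Finset.sum_insert ha, Finset.sum_insert ha,
      redSec_add D O h.1 (IntCoeff.sum D O s h.2), ih h.2]

/-- Functions defined over the base are integral. -/
theorem intCoeff_tmul (f : A) : D.IntCoeff O ((1 : L) ⊗ₜ[K] f) := fun i => by
  rw [baseChange_coeff, one_mul]; exact OverBase.algebraMap_mem _

/-- Reduction fixes functions defined over the base. -/
theorem redSec_tmul (f : A) :
    redSec O D ((1 : L) ⊗ₜ[K] f) = (1 : ResField O) ⊗ₜ[K] f :=
  (D.baseChange (ResField O)).coeff_ext fun i => by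
    simp [coeff_redSec, baseChange_coeff, resid_algebraMap]

/-- Reduction preserves the filtration. -/
theorem redSec_mem_lev {N : ℕ} {t : L ⊗[K] A} (ht : t ∈ (D.baseChange L).lev N) :
    redSec O D t ∈ (D.baseChange (ResField O)).lev N := by
  rw [mem_lev_iff] at ht ⊢
  intro m hm
  simp [coeff_redSec, ht m hm, resid_zero]

/-- A primitive section is nonzero. -/
theorem Primitive.ne_zero {t : L ⊗[K] A} (h : D.Primitive O t) : t ≠ 0 := by
  rintro rfl; exact h.2 (D.redSec_zero O)

/-- Every lift of a reduction. -/
theorem exists_redSec_eq {N : ℕ} {t : ResField O ⊗[K] A}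
    (ht : t ∈ (D.baseChange (ResField O)).lev N) :
    ∃ s ∈ (D.baseChange L).lev N, D.IntCoeff O s ∧ redSec O D s = t := by
  classical
  choose lift hlift hres using exists_resid_eq O
  let S := (Finset.range (N + 1)).filter (· ∉ D.gaps)
  let c : ℕ → L := fun i => lift ((D.baseChange (ResField O)).coeff i t)
  have hS : ∀ i ∈ S, D.IntCoeff O (c i • ((1 : L) ⊗ₜ[K] D.e i)) :=
    fun i _ => IntCoeff.smul D O (hlift _) (D.intCoeff_tmul O _)
  refine ⟨∑ i ∈ S, c i • ((1 : L) ⊗ₜ[K] D.e i), Submodule.sum_mem _ fun i hi => ?_,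
    IntCoeff.sum D O S hS, ?_⟩
  · refine Submodule.smul_mem _ _ (Submodule.subset_span ⟨i, ?_, D.baseChange_e L i⟩)
    simp [S] at hi ⊢; omega
  · refine (D.baseChange (ResField O)).coeff_ext fun j => ?_
    rw [redSec_sum D O S hS, map_sum]
    by_cases hj : j ∈ S
    · rw [Finset.sum_eq_single j]
      · rw [redSec_smul D O (hlift _) (D.intCoeff_tmul O _), redSec_tmul, map_smul,
          baseChange_coeff, D.coeff_e (Finset.mem_filter.mp hj).2]
        simp [hres]
      · intro i hi hij
        rw [redSec_smul D O (hlift _) (D.intCoeff_tmul O _), redSec_tmul, map_smul,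
          baseChange_coeff, D.coeff_e (Finset.mem_filter.mp hi).2]
        simp [hij.symm]
      · exact fun h => absurd hj h
    · rw [Finset.sum_eq_zero]
      · simp only [S, Finset.mem_filter, Finset.mem_range, not_and, not_not] at hj
        by_cases hjN : j < N + 1
        · simp [coeff, baseChange, hj hjN]
        · exact ((D.baseChange (ResField O)).mem_lev_iff.mp ht j (by omega)).symm
      · intro i hi
        rw [redSec_smul D O (hlift _) (D.intCoeff_tmul O _), redSec_tmul, map_smul,
          baseChange_coeff, D.coeff_e (Finset.mem_filter.mp hi).2]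
        have : j ≠ i := fun h => hj (h ▸ hi)
        simp [this]

/-- The coefficient vector of a primitive section has size `1`. -/
theorem supMag_coeffVec_primitive {N : ℕ} {t : L ⊗[K] A} (htN : t ∈ (D.baseChange L).lev N)
    (h : D.Primitive O t) : supMag O.valuation ((D.baseChange L).coeffVec N t) = 1 := by
  obtain ⟨i, hi⟩ : ∃ i : Fin (N + 1), resid O ((D.baseChange L).coeff i t) ≠ 0 := by
    by_contra! hc
    refine h.2 ((D.baseChange (ResField O)).coeff_ext fun i => ?_)
    rw [map_zero, coeff_redSec]
    by_cases hiN : i < N + 1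
    · exact hc ⟨i, hiN⟩
    · rw [mem_lev_iff] at htN
      rw [htN i (by omega), resid_zero]
  exact supMag_eq_of_le_of_eq _ _ (fun j => (O.valuation_le_one_iff _).mpr (h.1 j))
    (i := i) (valuation_eq_one_of_resid_ne_zero O (h.1 i) hi)

/-- Coefficient vectors are linear. -/
theorem coeffVec_smul (N : ℕ) (c : L) (t : L ⊗[K] A) :
    (D.baseChange L).coeffVec N (c • t) = c • (D.baseChange L).coeffVec N t :=
  funext fun i => by simp [coeffVec]

/-- Every nonzero section is a scalar multiple of a primitive one. -/
theorem exists_primitive {N : ℕ} {t : L ⊗[K] A} (ht : t ≠ 0)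
    (htN : t ∈ (D.baseChange L).lev N) :
    ∃ (c : L) (t' : L ⊗[K] A), c ≠ 0 ∧ t' ∈ (D.baseChange L).lev N ∧ D.Primitive O t' ∧
      t = c • t' ∧ supMag O.valuation ((D.baseChange L).coeffVec N t) = O.valuation c := by
  obtain ⟨i, hi⟩ := exists_supMag_eq O.valuation ((D.baseChange L).coeffVec N t)
  set c := (D.baseChange L).coeffVec N t i
  have hne : (D.baseChange L).coeffVec N t ≠ 0 := fun h => ht
    ((D.baseChange L).coeff_ext fun j => by
      rw [map_zero]
      by_cases hj : j < N + 1
      · exact congrFun h ⟨j, hj⟩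
      · exact (mem_lev_iff _).mp htN j (by omega))
  have hc : c ≠ 0 := fun h => supMag_ne_zero O.valuation hne (by rw [hi, h, map_zero])
  have hint : D.IntCoeff O (c⁻¹ • t) := fun j => by
    rw [map_smul, smul_eq_mul, ← ValuationSubring.valuation_le_one_iff, map_mul, map_inv₀]
    by_cases hj : j < N + 1
    · refine (mul_le_mul_right (hi ▸ le_supMag O.valuation _ (⟨j, hj⟩ : Fin (N + 1))) _).trans ?_
      rw [inv_mul_cancel₀ ((Valuation.ne_zero_iff _).mpr hc)]
    · rw [(mem_lev_iff _).mp htN j (by omega)]; simp
  refine ⟨c, c⁻¹ • t, hc, Submodule.smul_mem _ _ htN, ⟨hint, fun h => ?_⟩,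
    by rw [smul_smul, mul_inv_cancel₀ hc, one_smul], hi⟩
  have h1 := congrArg ((D.baseChange (ResField O)).coeff i) h
  rw [coeff_redSec, map_zero, map_smul, smul_eq_mul] at h1
  rw [show c⁻¹ * (D.baseChange L).coeff i t = 1 from inv_mul_cancel₀ hc, resid_one] at h1
  exact one_ne_zero h1

variable [IsDomain (ResField O ⊗[K] A)]

/-- A product of primitive sections is primitive. -/
theorem Primitive.mul {s t : L ⊗[K] A} (hs : D.Primitive O s) (ht : D.Primitive O t) :
    D.Primitive O (s * t) :=
  ⟨IntCoeff.mul D O hs.1 ht.1, by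
    rw [redSec_mul D O hs.1 ht.1]; exact mul_ne_zero hs.2 ht.2⟩

end Fermat.Agent.MW.CurveBasis
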