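import Mathlib.LinearAlgebra.Matrix.Determinant.Basic
import Mathlib.Algebra.BigOperators.Fin
import Mathlib.RingTheory.Valuation.Basic

/-!
# Determinants of functions with small divided differences

Integral functions on finitely many points grouped in classes have determinants bounded by the
product of the pairwise sizes inside the classes.
-/

set_option autoImplicit false

namespace Fermat.Agent.MW

open Finset

variable {L : Type*} [Field L] {Γ : Type*} [LinearOrderedCommGroupWithZero Γ] (v : Valuation L Γ)
  {γ : Type*} [DecidableEq γ]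

/-- The factor of a pair of points in one class. -/
def pairSize {ι : Type*} (cls : ι → γ) (δ : ι → ι → L) (i j : ι) : Γ :=
  if cls i = cls j then v (δ i j) else 1

/-- Integral functions stable under divided differences within classes. -/
def DivDiffStable {ι : Type*} (cls : ι → γ) (δ : ι → ι → L) (S : Set (ι → L)) : Prop :=
  ∀ f ∈ S, (∀ i, v (f i) ≤ 1) ∧ ∀ j, ∃ g ∈ S, ∀ i,
    (cls j = cls i → f i - f j = δ j i * g i) ∧ (cls j ≠ cls i → g i = f i)

omit [DecidableEq γ] in
/-- Stability under divided differences is preserved by reindexing. -/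
theorem DivDiffStable.comp {ι κ : Type*} {cls : ι → γ} {δ : ι → ι → L} {S : Set (ι → L)}
    (h : DivDiffStable v cls δ S) (φ : κ → ι) :
    DivDiffStable v (cls ∘ φ) (fun a b => δ (φ a) (φ b)) ((fun f => f ∘ φ) '' S) := by
  rintro _ ⟨f, hf, rfl⟩
  refine ⟨fun i => (h f hf).1 (φ i), fun j => ?_⟩
  obtain ⟨g, hg, hspec⟩ := (h f hf).2 (φ j)
  exact ⟨g ∘ φ, ⟨g, hg, rfl⟩, fun i => hspec (φ i)⟩

/-- The pairwise sizes inside the classes bound every determinant of such functions. -/
theorem valuation_det_le_prod_pairSize : ∀ {n : ℕ} (cls : Fin n → γ) (δ : Fin n → Fin n → L)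
    {S : Set (Fin n → L)} (_ : DivDiffStable v cls δ S) (f : Fin n → Fin n → L)
    (_ : ∀ k, f k ∈ S),
    v (Matrix.det (Matrix.of fun i k => f k i)) ≤ ∏ i, ∏ j ∈ Ioi i, pairSize v cls δ i j := by
  intro n
  induction n with
  | zero => intros; simp
  | succ n ih =>
    intro cls δ S hS f hf
    choose g hg hspec using fun k => (hS (f k) (hf k)).2 0
    let c : Fin (n + 1) → L := fun i => if i ≠ 0 ∧ cls 0 = cls i then 1 else 0
    let a : Fin (n + 1) → L := fun i => if i ≠ 0 ∧ cls 0 = cls i then δ 0 i else 1
    let M' : Matrix (Fin (n + 1)) (Fin (n + 1)) L :=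
      Matrix.of fun i k => if i = 0 then f k 0 else g k i
    have hdet : Matrix.det (Matrix.of fun i k => f k i) = (∏ i, a i) * M'.det := by
      rw [← Matrix.det_mul_column]
      refine Matrix.det_eq_of_forall_row_eq_smul_add_const c 0 (by simp [c]) fun i k => ?_
      by_cases hi : i = 0
      · subst hi; simp [c, a, M']
      by_cases hc : cls 0 = cls i
      · have := (hspec k i).1 hc
        simp [c, a, M', hi, hc, ← this]
      · have := (hspec k i).2 hc
        simp [c, a, M', hi, hc, this]
    rw [hdet, map_mul, map_prod]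
    have hsplit : ∏ i, ∏ j ∈ Ioi i, pairSize v cls δ i j
        = (∏ i, v (a i)) * ∏ i, ∏ j ∈ Ioi i,
            pairSize v (cls ∘ Fin.succ) (fun p q => δ (Fin.succ p) (Fin.succ q)) i j := by
      rw [Fin.prod_univ_succ, Fin.prod_univ_succ (fun i => v (a i)), Fin.prod_Ioi_zero]
      simp [a, Fin.succ_ne_zero, Fin.prod_Ioi_succ, pairSize, apply_ite v]
    rw [hsplit]
    refine mul_le_mul' le_rfl ?_
    rw [Matrix.det_succ_row_zero]
    refine v.map_sum_le fun k _ => ?_
    rw [map_mul, map_mul, map_pow, Valuation.map_neg, map_one, one_pow, one_mul]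
    have hfirst : v (M' 0 k) ≤ 1 := by simpa [M'] using (hS (f k) (hf k)).1 0
    refine (mul_le_of_le_one_left zero_le hfirst).trans ?_
    have hsub : M'.submatrix Fin.succ k.succAbove
        = Matrix.of fun i l => (g (k.succAbove l) ∘ Fin.succ) i := by
      ext i l
      simp [M', Fin.succ_ne_zero]
    rw [hsub]
    exact ih (cls ∘ Fin.succ) (fun p q => δ (Fin.succ p) (Fin.succ q)) (hS.comp v Fin.succ) _
      fun l => ⟨_, hg (k.succAbove l), rfl⟩

end Fermat.Agent.MW
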