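import Fermat.Agent.MW.Local.Specialise

/-!
# The value of a section as a product of distances

Exact division near a point shows that the normalised value of a section is the product of the
distances to its zeros.
-/

set_option autoImplicit false

noncomputable section

open scoped TensorProduct
open Module

namespace Fermat.Agent.MW.CurveBasis

variable {K A : Type} [Field K] [CommRing A] [Algebra K A] (D : CurveBasis K A)
variable {L : Type} [Field L] [Algebra K L] (O : ValuationSubring L) [OverBase K O]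
variable [IsAlgClosed L] [IsDedekindDomain (L ⊗[K] A)]
variable [IsAlgClosed (ResField O)] [IsDedekindDomain (ResField O ⊗[K] A)]

omit [IsAlgClosed L] [IsDedekindDomain (L ⊗[K] A)] [IsAlgClosed (ResField O)]
    [IsDedekindDomain (ResField O ⊗[K] A)] in
theorem nev_congr_resid {k : ℕ} {t : L ⊗[K] A} (ht : D.IntCoeff O t)
    (htk : t ∈ (D.baseChange L).lev (k * D.embDeg)) {P Q : Pt L (L ⊗[K] A)}
    (h : red O P = red O Q) : resid O (D.nev O k P t) = resid O (D.nev O k Q t) := by
  rw [(D.resid_nev O ht htk P).2, (D.resid_nev O ht htk Q).2, h]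

omit [IsAlgClosed (ResField O)] [IsDedekindDomain (ResField O ⊗[K] A)] in
/-- A section whose normalised value is a unit has no zero with the same reduction. -/
theorem red_ne_of_unit {k : ℕ} {t : L ⊗[K] A} (ht : D.Primitive O t)
    (htk : t ∈ (D.baseChange L).lev (k * D.embDeg)) {P R : Pt L (L ⊗[K] A)}
    (hR : R ∈ (D.baseChange L).zeros (k * D.embDeg) t)
    (hP : O.valuation (D.nev O k P t) = 1) : red O R ≠ red O P := by
  intro h
  have h0 := (D.nev_eq_zero_iff O (Primitive.ne_zero D O ht) htk R).mpr hR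
  have h1 := D.nev_congr_resid O ht.1 htk h
  rw [h0, resid_zero, eq_comm, resid_eq_zero_iff O (D.nev_mem O ht.1 htk P), hP] at h1
  exact lt_irrefl _ h1

omit [IsAlgClosed L] [IsDedekindDomain (L ⊗[K] A)] [IsAlgClosed (ResField O)]
    [IsDedekindDomain (ResField O ⊗[K] A)] in
/-- Being a unit depends only on the reduction of the point. -/
theorem valuation_nev_eq_of_red {k : ℕ} {t : L ⊗[K] A} (ht : D.IntCoeff O t)
    (htk : t ∈ (D.baseChange L).lev (k * D.embDeg)) {P Q : Pt L (L ⊗[K] A)}
    (h : red O P = red O Q) (hQ : O.valuation (D.nev O k Q t) = 1) :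
    O.valuation (D.nev O k P t) = 1 := by
  refine valuation_eq_one_of_resid_ne_zero O (D.nev_mem O ht htk P) ?_
  rw [D.nev_congr_resid O ht htk h]
  intro h0
  rw [resid_eq_zero_iff O (D.nev_mem O ht htk Q), hQ] at h0
  exact lt_irrefl _ h0

/-- A local parameter at a point. -/
theorem exists_param (Q : Pt L (L ⊗[K] A)) :
    ∃ u ∈ (D.baseChange L).lev (1 * D.embDeg), D.Primitive O u ∧
      ∃ Z, (D.baseChange L).zeros (1 * D.embDeg) u = Q ::ₘ Z ∧ ∀ R ∈ Z, red O R ≠ red O Q := by
  classical
  obtain ⟨y, hy, hy0, Z', hZ', hav⟩ := (D.baseChange (ResField O)).exists_section_avoid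
    {red O Q} (n := D.embDeg)
    (by show Multiset.card {red O Q} + 2 * D.genus ≤ D.embDeg; simp [embDeg]; omega) {red O Q}
  obtain ⟨u, hu, huI, rfl, huQ⟩ := D.exists_lift_through_point O hy Q
    (((D.baseChange (ResField O)).evSec_eq_zero_iff hy0 hy _).mpr (by rw [hZ']; simp))
  have hu0 : u ≠ 0 := Primitive.ne_zero D O ⟨huI, hy0⟩
  obtain ⟨Z, hZ⟩ := Multiset.exists_cons_of_mem ((D.nev_eq_zero_iff O hu0 hu Q).mp huQ)
  refine ⟨u, hu, ⟨huI, hy0⟩, Z, hZ, fun R hR hRQ => ?_⟩
  have hmap := D.zeros_redSec_eq O _ u hu huI hy0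
  rw [hZ, one_mul, hZ', Multiset.map_cons, Multiset.singleton_add, Multiset.cons_inj_right] at hmap
  exact hav (red O R) (hmap ▸ Multiset.mem_map_of_mem _ hR) (by simp [hRQ])

omit [IsAlgClosed (ResField O)] in
/-- A product of sections killing given points, invertible at another reduction. -/
theorem exists_killer (P : Pt L (L ⊗[K] A)) (Z : Multiset (Pt L (L ⊗[K] A)))
    (hZ : ∀ R ∈ Z, red O R ≠ red O P) :
    ∃ h ∈ (D.baseChange L).lev (Multiset.card Z * D.embDeg), D.Primitive O h ∧
      Z ≤ (D.baseChange L).zeros (Multiset.card Z * D.embDeg) h ∧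
      O.valuation (D.nev O (Multiset.card Z) P h) = 1 := by
  classical
  induction Z using Multiset.induction_on with
  | empty =>
    have h1 : (1 : L ⊗[K] A) = 1 ⊗ₜ[K] D.e 0 := by rw [D.e_zero]; rfl
    refine ⟨1, h1 ▸ D.tmul_e_mem_lev (Nat.zero_le _), ?_, Multiset.zero_le _, ?_⟩
    · refine ⟨h1 ▸ D.intCoeff_tmul O _, ?_⟩
      rw [h1, D.redSec_tmul O, D.e_zero]
      exact one_ne_zero
    · rw [Multiset.card_zero, nev_apply, pow_zero, one_mul]
      rcases P with _ | φ
      · show O.valuation ((D.baseChange L).coeff (0 * D.embDeg) 1) = 1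
        rw [zero_mul, h1, baseChange_coeff, D.coeff_e D.zero_notMem]
        simp
      · show O.valuation (φ 1) = 1
        simp
  | cons R Z ih =>
    obtain ⟨h, hh, hhp, hhz, hhv⟩ := ih fun R' hR' => hZ R' (Multiset.mem_cons_of_mem hR')
    set c := (D.baseChange (ResField O)).coord (red O R)
    set d := (D.baseChange (ResField O)).coord (red O P)
    obtain ⟨i, j, hij⟩ : ∃ i j : Fin (D.embDeg + 1), c i * d j - c j * d i ≠ 0 := by
      by_contra! hcon
      exact hZ R (Multiset.mem_cons_self _ _)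
        ((D.baseChange (ResField O)).eq_of_wedge_coord_eq_zero _ _ hcon)
    let y : ResField O ⊗[K] A := c i • (1 ⊗ₜ[K] D.e j) - c j • (1 ⊗ₜ[K] D.e i)
    have hy : y ∈ (D.baseChange (ResField O)).lev D.embDeg :=
      sub_mem (Submodule.smul_mem _ _ (D.tmul_e_mem_lev (L := ResField O) (Nat.lt_succ_iff.mp j.2)))
        (Submodule.smul_mem _ _ (D.tmul_e_mem_lev (L := ResField O) (Nat.lt_succ_iff.mp i.2)))
    have hev : ∀ X : Pt (ResField O) (ResField O ⊗[K] A),
        (D.baseChange (ResField O)).evSec D.embDeg X y =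
          c i * (D.baseChange (ResField O)).coord X j -
            c j * (D.baseChange (ResField O)).coord X i := fun X => by
      simp only [y, map_sub, map_smul, smul_eq_mul, coord, baseChange_e]
      rfl
    obtain ⟨l, hl, hlI, hlr, hlR⟩ := D.exists_lift_through_point O hy R
      (by rw [hev]; exact sub_eq_zero.mpr (mul_comm _ _))
    have hlP : O.valuation (D.nev O 1 P l) = 1 := by
      refine valuation_eq_one_of_resid_ne_zero O (D.nev_mem O hlI hl P) ?_
      rw [(D.resid_nev O hlI hl P).2, hlr, one_mul, hev]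
      exact hij
    have hlp : D.Primitive O l := ⟨hlI, fun h0 => hij (by
      have := hev (red O P)
      rw [← hlr, h0, map_zero] at this
      exact this.symm)⟩
    have hl0 := Primitive.ne_zero D O hlp
    have hh0 := Primitive.ne_zero D O hhp
    have hlev : h * l ∈ (D.baseChange L).lev ((Multiset.card Z + 1) * D.embDeg) := by
      have := (D.baseChange L).mul_mem_lev hh hl
      rwa [← add_mul] at this
    refine ⟨h * l, by rwa [Multiset.card_cons], Primitive.mul D O hhp hlp, ?_, ?_⟩
    · rw [Multiset.card_cons, add_mul, (D.baseChange L).zeros_mul hh0 hl0 hh hl,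
        ← Multiset.singleton_add, add_comm ({R} : Multiset _)]
      exact add_le_add hhz (Multiset.singleton_le.mpr ((D.nev_eq_zero_iff O hl0 hl R).mp hlR))
    · rw [Multiset.card_cons, D.nev_mul O hh hl, map_mul, hhv, hlP, mul_one]

omit [IsAlgClosed (ResField O)] in
/-- Exact division by a local parameter. -/
theorem exists_division {Q : Pt L (L ⊗[K] A)} {u : L ⊗[K] A}
    (hu : u ∈ (D.baseChange L).lev (1 * D.embDeg)) (hup : D.Primitive O u)
    {Z : Multiset (Pt L (L ⊗[K] A))} (huZ : (D.baseChange L).zeros (1 * D.embDeg) u = Q ::ₘ Z)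
    (hZ : ∀ R ∈ Z, red O R ≠ red O Q) {k : ℕ} {s : L ⊗[K] A}
    (hs : s ∈ (D.baseChange L).lev (k * D.embDeg)) (hsI : D.IntCoeff O s)
    (hsQ : D.nev O k Q s = 0) :
    ∃ (m j : ℕ) (h g : L ⊗[K] A), k + m = 1 + j ∧ h ∈ (D.baseChange L).lev (m * D.embDeg) ∧
      g ∈ (D.baseChange L).lev (j * D.embDeg) ∧ D.Primitive O h ∧ D.IntCoeff O g ∧
      O.valuation (D.nev O m Q h) = 1 ∧ s * h = u * g ∧
      (D.Primitive O s → D.Primitive O g) := by
  classical
  have hu0 := Primitive.ne_zero D O hup
  obtain ⟨h, hh, hhp, hhz, hhv⟩ := D.exists_killer O Q Z hZ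
  have hh0 := Primitive.ne_zero D O hhp
  set m := Multiset.card Z
  have hm : 1 ≤ m := by
    have h1 := (D.baseChange L).card_zeros hu0 hu
    rw [huZ, Multiset.card_cons, one_mul] at h1
    have : 20 ≤ D.embDeg := by simp [embDeg]
    omega
  obtain ⟨j, hj⟩ : ∃ j, k + m = 1 + j := ⟨k + m - 1, by omega⟩
  rcases eq_or_ne s 0 with rfl | hs0
  · exact ⟨m, j, h, 0, hj, hh, zero_mem _, hhp, D.intCoeff_zero O, hhv, by simp,
      fun hp => absurd rfl (Primitive.ne_zero D O hp)⟩
  have hsh : s * h ∈ (D.baseChange L).lev (1 * D.embDeg + j * D.embDeg) := by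
    have := (D.baseChange L).mul_mem_lev hs hh
    rwa [← add_mul, hj, add_mul] at this
  have hle : (D.baseChange L).zeros (1 * D.embDeg) u ≤
      (D.baseChange L).zeros (1 * D.embDeg + j * D.embDeg) (s * h) := by
    rw [← add_mul, ← hj, add_mul, (D.baseChange L).zeros_mul hs0 hh0 hs hh, huZ,
      ← Multiset.singleton_add]
    exact add_le_add (Multiset.singleton_le.mpr ((D.nev_eq_zero_iff O hs0 hs Q).mp hsQ)) hhz
  obtain ⟨g, hg, hug⟩ :=
    (D.baseChange L).exists_eq_mul_of_zeros_le hu0 (mul_ne_zero hs0 hh0) hu hsh hle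
  have hg0 : g ≠ 0 := fun h0 => mul_ne_zero hs0 hh0 (by rw [hug, h0, mul_zero])
  obtain ⟨c, s', -, hs', hsp, hsc, -⟩ := D.exists_primitive O hs0 hs
  obtain ⟨b, g', hb, hg', hgp, hgb, -⟩ := D.exists_primitive O hg0 hg
  have hvc : O.valuation c = O.valuation b := by
    have h1 := congrArg
      (fun x => supMag O.valuation ((D.baseChange L).coeffVec (1 * D.embDeg + j * D.embDeg) x)) hug
    simp only [hsc, hgb, smul_mul_assoc, mul_smul_comm, coeffVec_smul, supMag_smul] at h1
    have hlev : s' * h ∈ (D.baseChange L).lev (1 * D.embDeg + j * D.embDeg) := by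
      have := (D.baseChange L).mul_mem_lev hs' hh
      rwa [← add_mul, hj, add_mul] at this
    rwa [D.supMag_coeffVec_primitive O hlev (Primitive.mul D O hsp hhp),
      D.supMag_coeffVec_primitive O ((D.baseChange L).mul_mem_lev hu hg')
        (Primitive.mul D O hup hgp), mul_one, mul_one] at h1
  obtain ⟨i, hi⟩ : ∃ i, resid O ((D.baseChange L).coeff i s') ≠ 0 := by
    by_contra! hcon
    exact hsp.2 ((D.baseChange (ResField O)).coeff_ext fun i => by
      rw [map_zero, coeff_redSec, hcon i])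
  have hci := hsI i
  rw [hsc, map_smul, smul_eq_mul, ← ValuationSubring.valuation_le_one_iff, map_mul,
    valuation_eq_one_of_resid_ne_zero O (hsp.1 i) hi, mul_one, hvc] at hci
  have hbO : b ∈ O := (O.valuation_le_one_iff _).mp hci
  refine ⟨m, j, h, g, hj, hh, hg, hhp, hgb ▸ IntCoeff.smul D O hbO hgp.1, hhv, hug,
    fun hp => ⟨hgb ▸ IntCoeff.smul D O hbO hgp.1, ?_⟩⟩
  intro hg0'
  have h2 := D.redSec_mul O hp.1 hhp.1
  rw [hug, D.redSec_mul O hup.1 (hgb ▸ IntCoeff.smul D O hbO hgp.1), hg0', mul_zero] at h2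
  exact mul_ne_zero hp.2 hhp.2 h2.symm

omit [IsAlgClosed (ResField O)] in
/-- Near a point every integral section vanishing there is at most as large as a parameter. -/
theorem valuation_nev_le_param {Q : Pt L (L ⊗[K] A)} {u : L ⊗[K] A}
    (hu : u ∈ (D.baseChange L).lev (1 * D.embDeg)) (hup : D.Primitive O u)
    {Z : Multiset (Pt L (L ⊗[K] A))} (huZ : (D.baseChange L).zeros (1 * D.embDeg) u = Q ::ₘ Z)
    (hZ : ∀ R ∈ Z, red O R ≠ red O Q) {k : ℕ} {s : L ⊗[K] A}
    (hs : s ∈ (D.baseChange L).lev (k * D.embDeg)) (hsI : D.IntCoeff O s)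
    (hsQ : D.nev O k Q s = 0) {P : Pt L (L ⊗[K] A)} (hPQ : red O P = red O Q) :
    O.valuation (D.nev O k P s) ≤ O.valuation (D.nev O 1 P u) := by
  obtain ⟨m, j, h, g, hkm, hh, hg, hhp, hgI, hhv, heq, -⟩ :=
    D.exists_division O hu hup huZ hZ hs hsI hsQ
  have h1 := congrArg (fun x => O.valuation (D.nev O (k + m) P x)) heq
  simp only [D.nev_mul O hs hh, map_mul, D.valuation_nev_eq_of_red O hhp.1 hh hPQ hhv, mul_one]
    at h1
  rw [h1, hkm, D.nev_mul O hu hg, map_mul]
  exact mul_le_of_le_one_right zero_le ((O.valuation_le_one_iff _).mpr (D.nev_mem O hgI hg P))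

omit [IsAlgClosed (ResField O)] in
/-- The distance to a point is the size of a parameter there. -/
theorem dst_eq_param {Q : Pt L (L ⊗[K] A)} {u : L ⊗[K] A}
    (hu : u ∈ (D.baseChange L).lev (1 * D.embDeg)) (hup : D.Primitive O u)
    {Z : Multiset (Pt L (L ⊗[K] A))} (huZ : (D.baseChange L).zeros (1 * D.embDeg) u = Q ::ₘ Z)
    (hZ : ∀ R ∈ Z, red O R ≠ red O Q) {P : Pt L (L ⊗[K] A)} (hPQ : red O P = red O Q) :
    (D.baseChange L).dst O.valuation P Q = O.valuation (D.nev O 1 P u) := by
  classical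
  rw [D.dst_eq O]
  refine le_antisymm ((supMag_le_iff _ _ _).mpr fun p => ?_) ?_
  · let s : L ⊗[K] A :=
      D.cNrm O Q p.2 • (1 ⊗ₜ[K] D.e p.1) - D.cNrm O Q p.1 • (1 ⊗ₜ[K] D.e p.2)
    have hs : s ∈ (D.baseChange L).lev (1 * D.embDeg) :=
      sub_mem (Submodule.smul_mem _ _ (D.tmul_e_mem_lev_one p.1))
        (Submodule.smul_mem _ _ (D.tmul_e_mem_lev_one p.2))
    have hnev : ∀ X, D.nev O 1 X s =
        D.cNrm O Q p.2 * D.cNrm O X p.1 - D.cNrm O Q p.1 * D.cNrm O X p.2 := fun X => by
      simp only [s, map_sub, map_smul, smul_eq_mul]; rfl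
    refine le_of_eq_of_le ?_ (D.valuation_nev_le_param O hu hup huZ hZ hs
      (IntCoeff.sub D O (IntCoeff.smul D O (D.cNrm_mem O Q _) (D.intCoeff_tmul O _))
        (IntCoeff.smul D O (D.cNrm_mem O Q _) (D.intCoeff_tmul O _)))
      (by rw [hnev]; exact sub_eq_zero.mpr (mul_comm _ _)) hPQ)
    rw [hnev]
    congr 1
    simp only [wedge]
    ring
  · obtain ⟨i, hi⟩ := D.exists_cNrm_unit O Q
    have hiv : O.valuation (D.cNrm O Q i) = 1 :=
      valuation_eq_one_of_resid_ne_zero O (D.cNrm_mem O Q i) (hi ▸ one_ne_zero)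
    have huQ : D.nev O 1 Q u = 0 :=
      (D.nev_eq_zero_iff O (Primitive.ne_zero D O hup) hu Q).mpr (by rw [huZ]; simp)
    have hexp : ∀ X, D.nev O 1 X u =
        ∑ l : Fin (D.embDeg + 1), (D.baseChange L).coeff l u * D.cNrm O X l := fun X => by
      conv_lhs => rw [D.eq_sum_coeff hu]
      rw [map_sum, Finset.sum_range, show 1 * D.embDeg + 1 = D.embDeg + 1 by rw [one_mul]]
      exact Finset.sum_congr rfl fun l _ => by rw [map_smul, smul_eq_mul]; rfl
    have hid : D.nev O 1 P u * D.cNrm O Q i = ∑ l : Fin (D.embDeg + 1),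
        (D.baseChange L).coeff l u * wedge (D.cNrm O P) (D.cNrm O Q) (l, i) := by
      have h0 : D.cNrm O P i * D.nev O 1 Q u = 0 := by rw [huQ, mul_zero]
      simp only [wedge, mul_sub, Finset.sum_sub_distrib]
      rw [← sub_zero (D.nev O 1 P u * D.cNrm O Q i), ← h0, hexp P, hexp Q, Finset.sum_mul,
        Finset.mul_sum]
      congr 1 <;> exact Finset.sum_congr rfl fun l _ => by ring
    rw [← mul_one (O.valuation (D.nev O 1 P u)), ← hiv, ← map_mul, hid]
    refine Valuation.map_sum_le _ fun l _ => ?_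
    rw [map_mul]
    exact (mul_le_of_le_one_left zero_le ((O.valuation_le_one_iff _).mpr (hup.1 l))).trans
      (le_supMag O.valuation _ (l, i))

/-- The value of a primitive section is the product of the distances to its zeros. -/
theorem valuation_nev_eq_prod : ∀ (n k : ℕ) (t : L ⊗[K] A) (P : Pt L (L ⊗[K] A)),
    t ∈ (D.baseChange L).lev (k * D.embDeg) → D.Primitive O t →
    ∀ [DecidablePred fun R => red O R = red O P],
      ((D.baseChange L).zeros (k * D.embDeg) t).countP (fun R => red O R = red O P) = n →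
      O.valuation (D.nev O k P t) = (((D.baseChange L).zeros (k * D.embDeg) t).map
        fun Q => (D.baseChange L).dst O.valuation P Q).prod := by
  intro n
  induction n with
  | zero =>
    intro k t P htk htp _ hn
    rw [Multiset.countP_eq_zero] at hn
    have hprod : (((D.baseChange L).zeros (k * D.embDeg) t).map
        fun Q => (D.baseChange L).dst O.valuation P Q).prod = 1 := by
      refine Multiset.prod_eq_one fun x hx => ?_
      obtain ⟨Q, hQ, rfl⟩ := Multiset.mem_map.mp hx
      exact D.dst_eq_one O P Q fun h => hn Q hQ h.symm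
    rw [hprod]
    refine valuation_eq_one_of_resid_ne_zero O (D.nev_mem O htp.1 htk P) ?_
    rw [(D.resid_nev O htp.1 htk P).2, ne_eq,
      (D.baseChange (ResField O)).evSec_eq_zero_iff htp.2 (D.redSec_mem_lev O htk),
      D.zeros_redSec_eq O _ t htk htp.1 htp.2, Multiset.mem_map]
    rintro ⟨Q, hQ, hQP⟩
    exact hn Q hQ hQP
  | succ n ih =>
    intro k t P htk htp _ hn
    have ht0 := Primitive.ne_zero D O htp
    obtain ⟨Q, hQ, hQP⟩ : ∃ Q ∈ (D.baseChange L).zeros (k * D.embDeg) t, red O Q = red O P :=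
      Multiset.countP_pos.mp (by omega)
    obtain ⟨u, hu, hup, Z, huZ, hZ⟩ := D.exists_param O Q
    obtain ⟨m, j, h, g, hkm, hh, hg, hhp, -, hhv, heq, hgp⟩ :=
      D.exists_division O hu hup huZ hZ htk htp.1 ((D.nev_eq_zero_iff O ht0 htk Q).mpr hQ)
    have hgP := hgp htp
    have hu0 := Primitive.ne_zero D O hup
    have hh0 := Primitive.ne_zero D O hhp
    have hg0 := Primitive.ne_zero D O hgP
    have hhv' : O.valuation (D.nev O m P h) = 1 :=
      D.valuation_nev_eq_of_red O hhp.1 hh hQP.symm hhv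
    have hz : (D.baseChange L).zeros (k * D.embDeg) t + (D.baseChange L).zeros (m * D.embDeg) h =
        (Q ::ₘ Z) + (D.baseChange L).zeros (j * D.embDeg) g := by
      rw [← (D.baseChange L).zeros_mul ht0 hh0 htk hh, ← huZ,
        ← (D.baseChange L).zeros_mul hu0 hg0 hu hg, heq, ← add_mul, hkm, add_mul]
    have hhzero : ∀ R ∈ (D.baseChange L).zeros (m * D.embDeg) h, red O R ≠ red O P :=
      fun R hR => D.red_ne_of_unit O hhp hh hR hhv'
    have hcount : ((D.baseChange L).zeros (j * D.embDeg) g).countP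
        (fun R => red O R = red O P) = n := by
      have h1 := congrArg (Multiset.countP fun R => red O R = red O P) hz
      rw [Multiset.countP_add, Multiset.countP_add, Multiset.countP_cons_of_pos Z hQP, hn,
        Multiset.countP_eq_zero.mpr hhzero,
        Multiset.countP_eq_zero.mpr fun R hR h => hZ R hR (h.trans hQP.symm)] at h1
      omega
    have hg' := ih j g P hg hgP hcount
    have hpr := congrArg
      (fun M => (M.map fun Q => (D.baseChange L).dst O.valuation P Q).prod) hz
    simp only [Multiset.map_add, Multiset.prod_add, Multiset.map_cons, Multiset.prod_cons] at hpr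
    have hone : ∀ M : Multiset (Pt L (L ⊗[K] A)), (∀ R ∈ M, red O R ≠ red O P) →
        (M.map fun Q => (D.baseChange L).dst O.valuation P Q).prod = 1 := fun M hM => by
      refine Multiset.prod_eq_one fun x hx => ?_
      obtain ⟨R, hR, rfl⟩ := Multiset.mem_map.mp hx
      exact D.dst_eq_one O P R fun h => hM R hR h.symm
    rw [hone _ hhzero, hone Z fun R hR h => hZ R hR (h.trans hQP.symm), mul_one, mul_one,
      D.dst_eq_param O hu hup huZ hZ hQP.symm, ← hg'] at hpr
    rw [hpr, ← map_mul, ← D.nev_mul O hu hg, ← heq, ← hkm, D.nev_mul O htk hh, map_mul, hhv',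
      mul_one]

/-- The value of a section is the product of the distances to its zeros. -/
theorem valuation_evSec_eq (k : ℕ) (t : L ⊗[K] A) (ht : t ≠ 0)
    (htk : t ∈ (D.baseChange L).lev (k * D.embDeg)) (P : Pt L (L ⊗[K] A)) :
    O.valuation ((D.baseChange L).evSec (k * D.embDeg) P t) =
      supMag O.valuation ((D.baseChange L).coeffVec (k * D.embDeg) t) *
        supMag O.valuation ((D.baseChange L).coord P) ^ k *
        (((D.baseChange L).zeros (k * D.embDeg) t).map
          fun Q => (D.baseChange L).dst O.valuation P Q).prod := by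
  classical
  obtain ⟨c, t', hc, ht', htp, rfl, hsup⟩ := D.exists_primitive O ht htk
  rw [hsup, (D.baseChange L).zeros_smul _ _ hc, ← D.valuation_nev_eq_prod O _ k t' P ht' htp rfl,
    D.evSec_nev O, map_smul, smul_eq_mul, D.supMag_coord O P, map_mul, map_mul, map_inv₀, map_pow,
    inv_pow]
  rw [← mul_assoc, mul_comm _ (O.valuation c)]

omit [IsAlgClosed (ResField O)] [IsDedekindDomain (ResField O ⊗[K] A)]
    [IsDedekindDomain (L ⊗[K] A)] in
/-- Distance of a finite point to infinity. -/
theorem dst_none_eq [IsAlgClosed (ResField O)] (P : Pt L (L ⊗[K] A)) (hP : P ≠ none) :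
    (D.baseChange L).dst O.valuation none P ^ D.embDeg *
      supMag O.valuation ((D.baseChange L).coord P) = 1 := by
  classical
  obtain ⟨φ, rfl⟩ := Option.ne_none_iff_exists'.mp hP
  by_cases hesc : D.Escapes O (baseHom φ)
  swap
  · obtain ⟨χ, hχ, -⟩ := D.exists_red_of_not_escapes O hesc
    rw [D.dst_eq_one O none (some φ) (by rw [hχ]; exact fun h => Option.some_ne_none χ h.symm),
      D.supMag_coord O, D.scale_of_not_escapes O hesc]
    simp
  have hY := D.one_lt_of_escapes O hesc
  rw [baseHom_apply] at hY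
  set Y := O.valuation (φ (1 ⊗ₜ D.e D.embDeg))
  have hY0 : 0 < Y := zero_lt_one.trans hY
  have ha : 20 * D.genus + 20 = D.embDeg := rfl
  have hnone : ∀ i : Fin (D.embDeg + 1),
      D.cNrm O none i = if i.1 = D.embDeg then 1 else 0 := fun i => by
    show D.nev O 1 none ((1 : L) ⊗ₜ[K] D.e i) = _
    rw [nev_apply, scale_none, one_pow, one_mul, one_mul]
    show (D.baseChange L).coeff D.embDeg ((1 : L) ⊗ₜ[K] D.e i) = _
    rw [baseChange_coeff, one_mul]
    by_cases hg : (i : ℕ) ∈ D.gaps
    · rw [D.e_gap hg, map_zero, map_zero, if_neg fun h => D.embDeg_notMem (by rwa [← h])]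
    · rw [D.coeff_e hg]
      simp [eq_comm, apply_ite (algebraMap K L)]
  have hcP : ∀ i : Fin (D.embDeg + 1),
      D.cNrm O (some φ) i = D.scale O (some φ) * φ (1 ⊗ₜ D.e i) := fun i => by
    show D.nev O 1 (some φ) ((1 : L) ⊗ₜ[K] D.e i) = _
    rw [nev_apply, pow_one]; rfl
  have hpow : ∀ i : Fin (D.embDeg + 1), (i : ℕ) ∉ D.gaps →
      O.valuation (D.cNrm O (some φ) i) ^ D.embDeg * Y ^ D.embDeg = Y ^ (i : ℕ) := fun i hi => by
    rw [hcP, D.scale_of_escapes O hesc, map_mul, map_inv₀, mul_pow, inv_pow]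
    show (Y ^ D.embDeg)⁻¹ * O.valuation (baseHom φ (D.e i)) ^ D.embDeg * Y ^ D.embDeg = _
    rw [D.valuation_pow_embDeg O _ hesc hi, baseHom_apply, mul_comm, ← mul_assoc,
      mul_inv_cancel₀ (pow_ne_zero _ hY0.ne'), one_mul]
  have hwedge : ∀ p, O.valuation (wedge (D.cNrm O none) (D.cNrm O (some φ)) p) ^ D.embDeg * Y
      ≤ 1 := fun p => by
    have hsmall : ∀ i : Fin (D.embDeg + 1), i.1 ≠ D.embDeg →
        O.valuation (D.cNrm O (some φ) i) ^ D.embDeg * Y ≤ 1 := fun i hi => by
      by_cases hg : (i : ℕ) ∈ D.gaps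
      · rw [hcP, D.e_gap hg]; simp [zero_pow (show D.embDeg ≠ 0 by omega)]
      have h := hpow i hg
      have hle : O.valuation (D.cNrm O (some φ) i) ^ D.embDeg * Y * Y ^ (D.embDeg - 1) ≤
          1 * Y ^ (D.embDeg - 1) := by
        rw [mul_assoc, ← pow_succ', Nat.sub_add_cancel (by omega), h, one_mul]
        exact pow_le_pow_right₀ hY.le (by have := i.2; omega)
      exact le_of_mul_le_mul_right hle (pow_pos hY0 _)
    simp only [wedge, hnone]
    by_cases h1 : p.1.1 = D.embDeg
    · by_cases h2 : p.2.1 = D.embDeg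
      · have hpp : p.1 = p.2 := Fin.ext (h1.trans h2.symm)
        simp [hpp, zero_pow (show D.embDeg ≠ 0 by omega)]
      · simpa [h1, h2] using hsmall p.2 h2
    · by_cases h2 : p.2.1 = D.embDeg
      · simpa [h1, h2, Valuation.map_neg] using hsmall p.1 h1
      · simp [h1, h2, zero_pow (show D.embDeg ≠ 0 by omega)]
  rw [D.supMag_coord O, D.scale_of_escapes O hesc, map_inv₀, inv_inv, D.dst_eq O]
  obtain ⟨p, hp⟩ := exists_supMag_eq O.valuation (wedge (D.cNrm O none) (D.cNrm O (some φ)))
  refine le_antisymm (hp ▸ hwedge p) ?_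
  let i : Fin (D.embDeg + 1) := ⟨D.embDeg - 1, by omega⟩
  have hig : (i : ℕ) ∉ D.gaps := D.notMem_gaps_of_le (by simp [i]; omega)
  have hw : wedge (D.cNrm O none) (D.cNrm O (some φ)) (Fin.last _, i) = D.cNrm O (some φ) i := by
    have hne : (i : ℕ) ≠ D.embDeg := by simp [i]; omega
    simp [wedge, hnone, hne]
  have heq : O.valuation (D.cNrm O (some φ) i) ^ D.embDeg * Y = 1 := by
    have h := hpow i hig
    refine mul_right_cancel₀ (pow_ne_zero (D.embDeg - 1) hY0.ne') ?_
    rw [mul_assoc, ← pow_succ', Nat.sub_add_cancel (by omega), h, one_mul]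
  rw [← heq]
  exact mul_le_mul' (pow_le_pow_left₀ zero_le (hw ▸ le_supMag O.valuation _ (Fin.last _, i)) _)
    le_rfl

omit [IsAlgClosed (ResField O)] [IsDedekindDomain (ResField O ⊗[K] A)] [IsAlgClosed L]
    [IsDedekindDomain (L ⊗[K] A)] in
/-- The projection controls the size of a point. -/
theorem supMag_coord_proj_eq (φ : L ⊗[K] A →ₐ[L] L) :
    supMag O.valuation ((D.baseChange L).coord (some φ)) ^ D.projDeg =
      max 1 (O.valuation (φ (1 ⊗ₜ D.e D.projDeg))) ^ D.embDeg := by
  rw [D.supMag_coord O]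
  by_cases hesc : D.Escapes O (baseHom φ)
  · have hY := D.one_lt_of_escapes O hesc
    have hp := D.valuation_pow_embDeg O _ hesc
      (D.notMem_gaps_of_le (n := D.projDeg) (by simp [projDeg]))
    rw [baseHom_apply, baseHom_apply] at hp
    rw [baseHom_apply] at hY
    rw [D.scale_of_escapes O hesc, map_inv₀, inv_inv, ← hp, max_eq_right]
    by_contra! hlt
    have h1 : 1 < O.valuation (φ (1 ⊗ₜ D.e D.projDeg)) ^ D.embDeg := by
      rw [hp]; exact one_lt_pow₀ hY (by simp [projDeg])
    exact h1.not_ge (pow_le_one₀ zero_le hlt.le)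
  · rw [D.scale_of_not_escapes O hesc, max_eq_left]
    · simp
    · exact (O.valuation_le_one_iff _).mpr (D.mem_of_not_escapes O _ hesc _)

/-- The leading coefficient against the sizes of the zeros. -/
theorem valuation_lead_eq [IsAlgClosed K] [IsDedekindDomain A] (t : L ⊗[K] A) (ht : t ≠ 0)
    (hta : t ∈ (D.baseChange L).lev D.embDeg) :
    O.valuation ((D.baseChange L).coeff ((D.baseChange L).deg t) t) ^ D.embDeg *
        (((D.baseChange L).zeros D.embDeg t).map
          fun Q => supMag O.valuation ((D.baseChange L).coord Q)).prod =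
      supMag O.valuation ((D.baseChange L).coeffVec D.embDeg t) ^ D.embDeg := by
  classical
  obtain ⟨c, s, hc, hs, hsp, rfl, hsup⟩ := D.exists_primitive O ht hta
  have hs0 := Primitive.ne_zero D O hsp
  rw [hsup, (D.baseChange L).deg_smul _ hc, map_smul, smul_eq_mul, map_mul, mul_pow,
    (D.baseChange L).zeros_smul _ _ hc, mul_assoc]
  refine mul_right_eq_self₀.mpr (Or.inl ?_)
  set n := (D.baseChange L).deg s
  have hna : n ≤ D.embDeg := (D.baseChange L).deg_le_of_mem_lev hs
  have hsn : s ∈ (D.baseChange L).lev n := (D.baseChange L).mem_lev_deg s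
  set m := 2 * D.embDeg - n
  have hmg : m ∉ D.gaps := D.notMem_gaps_of_le (by
    have : 20 * D.genus + 20 = D.embDeg := rfl
    omega)
  have hem : (1 : L) ⊗ₜ[K] D.e m ∈ (D.baseChange L).lev m := D.tmul_e_mem_lev le_rfl
  have hep : D.Primitive O ((1 : L) ⊗ₜ[K] D.e m) := by
    refine ⟨D.intCoeff_tmul O _, fun h => ?_⟩
    have h1 := congrArg ((D.baseChange (ResField O)).coeff m) h
    rw [D.redSec_tmul O, baseChange_coeff, D.coeff_e hmg, if_pos rfl] at h1
    simp at h1
  have he0 := Primitive.ne_zero D O hep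
  have hnm : n + m = 2 * D.embDeg := by omega
  have hlev : s * ((1 : L) ⊗ₜ[K] D.e m) ∈ (D.baseChange L).lev (2 * D.embDeg) :=
    hnm ▸ (D.baseChange L).mul_mem_lev hsn hem
  have hval := D.valuation_nev_eq_prod O _ 2 _ none hlev (Primitive.mul D O hsp hep) rfl
  have hnev : D.nev O 2 none (s * ((1 : L) ⊗ₜ[K] D.e m)) = (D.baseChange L).coeff n s := by
    rw [nev_apply, scale_none, one_pow, one_mul]
    show (D.baseChange L).coeff (2 * D.embDeg) _ = _
    rw [← hnm, (D.baseChange L).coeff_mul hsn hem, baseChange_coeff, D.coeff_e hmg]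
    simp
  have hez : ((D.baseChange L).zeros m ((1 : L) ⊗ₜ[K] D.e m)).map
      (fun Q => (D.baseChange L).dst O.valuation none Q) =
      ((D.zeros m (D.e m)).map fun _ => 1) := by
    rw [D.zeros_baseChange L (fun h => he0 (by rw [h, TensorProduct.tmul_zero])), Multiset.map_map]
    refine Multiset.map_congr rfl fun R hR => ?_
    rcases R with _ | χ
    · exfalso
      have h1 := Multiset.count_pos.mpr hR
      rw [D.count_none_zeros, D.deg_e hmg] at h1
      omega
    · refine D.dst_eq_one O none _ ?_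
      rw [red_mapPt_eq O]
      exact fun h => Option.some_ne_none _ h.symm
  rw [hnev, ← hnm, (D.baseChange L).zeros_mul hs0 he0 hsn hem, Multiset.map_add,
    Multiset.prod_add, hez, Multiset.map_const', Multiset.prod_replicate, one_pow, mul_one] at hval
  have hzn : (D.baseChange L).zeros n s = (zerosFin (K := L) s).map some := by
    simp [CurveBasis.zeros, n]
  have hza : (D.baseChange L).zeros D.embDeg s =
      (zerosFin (K := L) s).map some + Multiset.replicate (D.embDeg - n) none := rfl
  have hnone : supMag O.valuation ((D.baseChange L).coord none) = 1 := by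
    rw [D.supMag_coord O, scale_none]; simp
  rw [hval, hzn, hza, Multiset.map_add, Multiset.map_replicate, hnone, Multiset.prod_add,
    Multiset.prod_replicate, one_pow, mul_one, Multiset.map_map, Multiset.map_map,
    ← Multiset.prod_map_pow, ← Multiset.prod_map_mul]
  refine Multiset.prod_eq_one fun x hx => ?_
  obtain ⟨ψ, -, rfl⟩ := Multiset.mem_map.mp hx
  exact D.dst_none_eq O (some ψ) (Option.some_ne_none ψ)

end Fermat.Agent.MW.CurveBasis
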