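import Fermat.Agent.MW.Local.Coeff

/-!
# Growth of the basis functions at a point near infinity

For a point with a non-integral coordinate all basis functions grow like a single variable of
weight one: `v (e n) ^ a = v (e a) ^ n`.
-/

set_option autoImplicit false

noncomputable section

open scoped TensorProduct Nat
open Module

namespace Fermat.Agent.MW.CurveBasis

variable {K A : Type} [Field K] [CommRing A] [Algebra K A] (D : CurveBasis K A)
variable {L : Type} [Field L] [Algebra K L] (O : ValuationSubring L) [OverBase K O]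
variable (ψ : A →ₐ[K] L)

/-- The point given by `ψ` has a non-integral coordinate. -/
def Escapes : Prop := ∃ n ≤ D.embDeg, 1 < O.valuation (ψ (D.e n))

omit [OverBase K O] in
/-- A non-integral coordinate occurs at a nongap. -/
theorem Escapes.exists_notMem {D : CurveBasis K A} {O : ValuationSubring L} {ψ : A →ₐ[K] L}
    (h : D.Escapes O ψ) : ∃ n ≤ D.embDeg, n ∉ D.gaps ∧ 1 < O.valuation (ψ (D.e n)) := by
  obtain ⟨n, hn, hv⟩ := h
  refine ⟨n, hn, fun hg => ?_, hv⟩
  rw [D.e_gap hg, map_zero, map_zero] at hv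
  exact not_lt_of_ge zero_le hv

/-- A bound on the values of spanning functions bounds the values of their combinations. -/
theorem valuation_map_le_of_mem_span {s : Set ℕ} {B : O.ValueGroup} {f : A}
    (hf : f ∈ Submodule.span K (D.e '' s)) {p : ℕ} (hp : p ≠ 0)
    (hb : ∀ i ∈ s, O.valuation (ψ (D.e i)) ^ p ≤ B) : O.valuation (ψ f) ^ p ≤ B := by
  induction hf using Submodule.span_induction with
  | mem x hx => obtain ⟨i, hi, rfl⟩ := hx; exact hb i hi
  | zero => rw [map_zero, map_zero, zero_pow hp]; exact zero_le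
  | add x y _ _ hx hy =>
    rw [map_add]
    rcases le_total (O.valuation (ψ x)) (O.valuation (ψ y)) with h | h
    · exact (pow_le_pow_left₀ zero_le ((O.valuation.map_add _ _).trans (max_le h le_rfl)) p).trans hy
    · exact (pow_le_pow_left₀ zero_le ((O.valuation.map_add _ _).trans (max_le le_rfl h)) p).trans hx
  | smul c x _ hx =>
    rw [map_smul, Algebra.smul_def, map_mul, mul_pow]
    exact mul_le_of_le_one_of_le (pow_le_one₀ zero_le (valuation_algebraMap_le O c)) hx

/-- Every basis function is integral at a point without non-integral coordinates. -/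
theorem mem_of_not_escapes (h : ¬ D.Escapes O ψ) (f : A) : ψ f ∈ O := by
  have hn : ∀ n, O.valuation (ψ (D.e n)) ≤ 1 := by
    intro n
    induction n using Nat.strong_induction_on with
    | h n ih =>
      by_cases hna : n ≤ D.embDeg
      · exact not_lt.mp fun hlt => h ⟨n, hna, hlt⟩
      by_cases hg : n ∈ D.gaps
      · rw [D.e_gap hg, map_zero, map_zero]; exact zero_le
      have hi : D.projDeg ∉ D.gaps := D.notMem_gaps_of_le (by simp [projDeg])
      have hlt : n - D.projDeg < n := by simp [projDeg, embDeg] at hna ⊢; omega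
      have hj : n - D.projDeg ∉ D.gaps :=
        D.notMem_gaps_of_le (by simp [projDeg, embDeg] at hna ⊢; omega)
      have hmul := D.e_mul D.projDeg (n - D.projDeg) hi hj
      rw [Nat.add_sub_cancel' (by simp [projDeg, embDeg] at hna ⊢; omega)] at hmul
      have h1 := valuation_map_le_of_mem_span D O ψ hmul one_ne_zero (B := 1)
        (fun i hi => by simpa using ih i hi)
      have h2 : ψ (D.e n) = ψ (D.e D.projDeg) * ψ (D.e (n - D.projDeg))
          - ψ (D.e D.projDeg * D.e (n - D.projDeg) - D.e n) := by simp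
      rw [h2]
      refine (Valuation.map_sub _ _ _).trans (max_le ?_ (by simpa using h1))
      rw [map_mul]
      refine mul_le_one₀ (not_lt.mp fun hlt' => h ⟨D.projDeg, ?_, hlt'⟩) zero_le (ih _ hlt)
      simp [projDeg, embDeg]; omega
  rw [← ValuationSubring.valuation_le_one_iff]
  have hspan : f ∈ Submodule.span K (D.e '' Set.Iic (D.deg f)) := D.mem_lev_deg f
  simpa using valuation_map_le_of_mem_span D O ψ hspan one_ne_zero (B := 1)
    (fun i _ => by simpa using hn i)

/-- The weight of one unit of pole order, as an `embDeg!`-th power. -/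
private theorem exists_weight (h : D.Escapes O ψ) :
    ∃ G : ℕ, G ≠ 0 ∧ ∃ X : O.ValueGroup, 1 < X ∧
      (∀ n, O.valuation (ψ (D.e n)) ^ G ≤ X ^ n) ∧
      ∃ n₀, 0 < n₀ ∧ n₀ ≤ D.embDeg ∧ n₀ ∉ D.gaps ∧
        O.valuation (ψ (D.e n₀)) ^ G = X ^ n₀ := by
  classical
  obtain ⟨G, hG0, hdvdG⟩ : ∃ G : ℕ, G ≠ 0 ∧ ∀ n, 1 ≤ n → n ≤ D.embDeg → n ∣ G :=
    ⟨D.embDeg !, Nat.factorial_ne_zero _, fun n h1 h2 => Nat.dvd_factorial h1 h2⟩
  obtain ⟨n₁, hn₁, hn₁g, hv₁⟩ := h.exists_notMem
  have hn₁0 : n₁ ≠ 0 := by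
    rintro rfl; rw [D.e_zero, map_one, map_one] at hv₁; exact lt_irrefl _ hv₁
  let S := (Finset.Icc 1 D.embDeg).filter (· ∉ D.gaps)
  have hS : n₁ ∈ S := Finset.mem_filter.mpr ⟨Finset.mem_Icc.mpr ⟨by omega, hn₁⟩, hn₁g⟩
  have hmem : ∀ n ∈ S, (1 ≤ n ∧ n ≤ D.embDeg) ∧ n ∉ D.gaps := fun n hn =>
    ⟨Finset.mem_Icc.mp (Finset.mem_filter.mp hn).1, (Finset.mem_filter.mp hn).2⟩
  obtain ⟨n₀, hn₀, hmax⟩ := S.exists_max_image
    (fun n => O.valuation (ψ (D.e n)) ^ (G / n)) ⟨n₁, hS⟩
  obtain ⟨⟨h01, h0a⟩, h0g⟩ := hmem n₀ hn₀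
  have hdiv : G / n₁ ≠ 0 := fun h0 => hG0 (by
    rw [← Nat.div_mul_cancel (hdvdG n₁ (by omega) hn₁), h0, zero_mul])
  have hX : 1 < O.valuation (ψ (D.e n₀)) ^ (G / n₀) :=
    lt_of_lt_of_le (one_lt_pow₀ hv₁ hdiv) (hmax n₁ hS)
  refine ⟨G, hG0, _, hX, fun n => ?_, n₀, h01, h0a, h0g,
    by rw [← pow_mul, Nat.div_mul_cancel (hdvdG n₀ h01 h0a)]⟩
  induction n using Nat.strong_induction_on with
  | h n ih =>
    by_cases hg : n ∈ D.gaps
    · rw [D.e_gap hg, map_zero, map_zero, zero_pow hG0]; exact zero_le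
    rcases Nat.eq_zero_or_pos n with rfl | hpos
    · simp [D.e_zero]
    by_cases hna : n ≤ D.embDeg
    · have hn : n ∈ S := Finset.mem_filter.mpr ⟨Finset.mem_Icc.mpr ⟨hpos, hna⟩, hg⟩
      conv_lhs => rw [← Nat.div_mul_cancel (hdvdG n hpos hna), pow_mul]
      exact pow_le_pow_left₀ zero_le (hmax n hn) n
    have hp : D.projDeg ≤ D.embDeg ∧ 0 < D.projDeg ∧
        2 * D.genus ≤ D.projDeg ∧ 2 * D.projDeg ≤ D.embDeg := by
      simp [projDeg, embDeg]; omega
    have hlt : n - D.projDeg < n := by omega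
    have hi : D.projDeg ∉ D.gaps := D.notMem_gaps_of_le hp.2.2.1
    have hj : n - D.projDeg ∉ D.gaps := D.notMem_gaps_of_le (by omega)
    have hsum : D.projDeg + (n - D.projDeg) = n := Nat.add_sub_cancel' (by omega)
    have hmul := D.e_mul D.projDeg (n - D.projDeg) hi hj
    rw [hsum] at hmul
    have h1 := valuation_map_le_of_mem_span D O ψ hmul hG0
      (fun i hi => (ih i hi).trans (pow_le_pow_right₀ hX.le (le_of_lt hi)))
    have h2 : ψ (D.e n) = ψ (D.e D.projDeg) * ψ (D.e (n - D.projDeg))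
        - ψ (D.e D.projDeg * D.e (n - D.projDeg) - D.e n) := by
      rw [map_sub, map_mul]; ring
    rw [h2]
    rcases le_total (O.valuation (ψ (D.e D.projDeg) * ψ (D.e (n - D.projDeg))))
      (O.valuation (ψ (D.e D.projDeg * D.e (n - D.projDeg) - D.e n))) with hle | hle
    · exact (pow_le_pow_left₀ zero_le
        ((Valuation.map_sub _ _ _).trans (max_le hle le_rfl)) _).trans h1
    · refine (pow_le_pow_left₀ zero_le
        ((Valuation.map_sub _ _ _).trans (max_le le_rfl hle)) _).trans ?_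
      rw [map_mul, mul_pow]
      refine (mul_le_mul' (ih _ (by omega)) (ih _ hlt)).trans (le_of_eq ?_)
      rw [← pow_add, hsum]

/-- Near infinity the basis functions have the size of a power of a single variable. -/
theorem valuation_pow_embDeg (h : D.Escapes O ψ) {n : ℕ} (hn : n ∉ D.gaps) :
    O.valuation (ψ (D.e n)) ^ D.embDeg = O.valuation (ψ (D.e D.embDeg)) ^ n := by
  obtain ⟨G, hG0, X, hX, hle, n₀, hn₀, hn₀a, hn₀g, heq⟩ := D.exists_weight O ψ h
  have prod_eq : ∀ i j, i ∉ D.gaps → j ∉ D.gaps → 0 < i + j →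
      (O.valuation (ψ (D.e (i + j))) ^ G = X ^ (i + j) ↔
        O.valuation (ψ (D.e i)) ^ G = X ^ i ∧ O.valuation (ψ (D.e j)) ^ G = X ^ j) := by
    intro i j hi hj hpos
    have hlow := valuation_map_le_of_mem_span D O ψ (D.e_mul i j hi hj) hG0
      (B := X ^ (i + j - 1)) (fun l hl => (hle l).trans
        (pow_le_pow_right₀ hX.le (by simp at hl; omega)))
    have hstrict : X ^ (i + j - 1) < X ^ (i + j) := pow_lt_pow_right₀ hX (by omega)
    set y := ψ (D.e i * D.e j - D.e (i + j))
    have hsum : ψ (D.e (i + j)) = ψ (D.e i) * ψ (D.e j) - y := by simp [y]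
    constructor
    · intro hij
      have hxy : O.valuation (ψ (D.e i) * ψ (D.e j)) = O.valuation (ψ (D.e (i + j))) := by
        have hylt : O.valuation y < O.valuation (ψ (D.e (i + j))) :=
          lt_of_pow_lt_pow_left₀ G zero_le (hlow.trans_lt (hij ▸ hstrict))
        have : ψ (D.e i) * ψ (D.e j) = ψ (D.e (i + j)) + y := by rw [hsum]; ring
        rw [this, Valuation.map_add_eq_of_lt_left _ hylt]
      have hprod : O.valuation (ψ (D.e i)) ^ G * O.valuation (ψ (D.e j)) ^ G = X ^ i * X ^ j := by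
        rw [← mul_pow, ← map_mul, hxy, hij, pow_add]
      refine ⟨le_antisymm (hle i) (not_lt.mp fun hlt => ?_),
        le_antisymm (hle j) (not_lt.mp fun hlt => ?_)⟩
      · exact absurd hprod (ne_of_lt
          (mul_lt_mul_of_lt_of_le_of_nonneg_of_pos hlt (hle j) zero_le
            (pow_pos (zero_lt_one.trans hX) _)))
      · refine absurd hprod (ne_of_lt ?_)
        refine lt_of_le_of_lt (mul_le_mul' (hle i) le_rfl) ?_
        exact mul_lt_mul_of_pos_left hlt (pow_pos (zero_lt_one.trans hX) _)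
    · rintro ⟨h1, h2⟩
      have hv : O.valuation (ψ (D.e i) * ψ (D.e j)) ^ G = X ^ (i + j) := by
        rw [map_mul, mul_pow, h1, h2, pow_add]
      have hylt : O.valuation y < O.valuation (ψ (D.e i) * ψ (D.e j)) :=
        lt_of_pow_lt_pow_left₀ G zero_le (hlow.trans_lt (hv ▸ hstrict))
      rw [hsum, Valuation.map_sub_eq_of_lt_left _ hylt, hv]
  have hmul : ∀ m k, m ∉ D.gaps → (k + 1) * m ∉ D.gaps := by
    intro m k hm
    induction k with
    | zero => simpa using hm
    | succ k ih => rw [add_mul, one_mul]; exact D.add_notMem _ _ ih hm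
  have up : ∀ k, O.valuation (ψ (D.e ((k + 1) * n₀))) ^ G = X ^ ((k + 1) * n₀) := by
    intro k
    induction k with
    | zero => simpa using heq
    | succ k ih =>
      rw [add_mul, one_mul]
      exact (prod_eq _ _ (hmul n₀ k hn₀g) hn₀g (by omega)).mpr ⟨ih, heq⟩
  have down : ∀ m, 0 < m → m ∉ D.gaps → ∀ k,
      O.valuation (ψ (D.e ((k + 1) * m))) ^ G = X ^ ((k + 1) * m) →
        O.valuation (ψ (D.e m)) ^ G = X ^ m := by
    intro m hm hmg k
    induction k with
    | zero => simp
    | succ k ih =>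
      rw [add_mul, one_mul]
      intro hk
      exact ((prod_eq _ _ (hmul m k hmg) hmg (by omega)).mp hk).2
  have ha0 : 1 ≤ D.embDeg := by simp [embDeg]
  have hag : D.embDeg ∉ D.gaps := D.notMem_gaps_of_le (by simp [embDeg]; omega)
  have ha : O.valuation (ψ (D.e D.embDeg)) ^ G = X ^ D.embDeg := by
    refine down _ ha0 hag (n₀ - 1) ?_
    have := up (D.embDeg - 1)
    rw [Nat.sub_add_cancel ha0] at this
    rwa [Nat.sub_add_cancel hn₀, mul_comm]
  have hupa : ∀ k, O.valuation (ψ (D.e ((k + 1) * D.embDeg))) ^ G = X ^ ((k + 1) * D.embDeg) := by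
    intro k
    induction k with
    | zero => simpa using ha
    | succ k ih =>
      rw [add_mul, one_mul]
      exact (prod_eq _ _ (hmul _ k hag) hag (by omega)).mpr ⟨ih, ha⟩
  have hnX : O.valuation (ψ (D.e n)) ^ G = X ^ n := by
    rcases Nat.eq_zero_or_pos n with rfl | hpos
    · simp [D.e_zero]
    refine down n hpos hn (D.embDeg - 1) ?_
    rw [Nat.sub_add_cancel ha0]
    have := hupa (n - 1)
    rwa [Nat.sub_add_cancel hpos, mul_comm] at this
  refine (pow_left_inj₀ zero_le zero_le hG0).mp ?_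
  rw [pow_right_comm, hnX, pow_right_comm _ n G, ha, pow_right_comm]

end Fermat.Agent.MW.CurveBasis
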