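import Fermat.Agent.MW.Local.Distance
import Fermat.Agent.MW.Local.DetBound
import Fermat.Agent.MW.Core.Defs2

/-!
# Values of families of sections over the base field

A family defined over the base evaluates to the distance to its base divisor, and determinants of
its values are small when the points are close.
-/

set_option autoImplicit false

noncomputable section

open scoped TensorProduct Classical
open Module

namespace Fermat.Agent.MW.CurveBasis

variable {K A : Type} [Field K] [CommRing A] [Algebra K A] (D : CurveBasis K A)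

theorem mapPt_injective (F : Type) [Field F] [Algebra K F] :
    Function.Injective (mapPt (K := K) (A := A) F) := by
  rintro (_ | φ) (_ | ψ) h
  · rfl
  · simp [mapPt] at h
  · simp [mapPt] at h
  · refine congrArg some (AlgHom.ext fun f => (algebraMap K F).injective ?_)
    have h1 := DFunLike.congr_fun (Option.some.inj h) ((1 : F) ⊗ₜ[K] f)
    simpa using h1

include D in
theorem one_tmul_ne_zero (F : Type) [Field F] [Algebra K F] {f : A} (hf : f ≠ 0) :
    (1 : F) ⊗ₜ[K] f ≠ 0 := by
  intro h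
  refine hf (D.coeff_ext fun i => (algebraMap K F).injective ?_)
  have := congrArg ((D.baseChange F).coeff i) h
  rw [baseChange_coeff, one_mul, map_zero] at this
  rw [this, map_zero, map_zero]

variable {L : Type} [Field L] [Algebra K L] (O : ValuationSubring L) [OverBase K O]

theorem primitive_tmul {f : A} (hf : f ≠ 0) : D.Primitive O ((1 : L) ⊗ₜ[K] f) :=
  ⟨D.intCoeff_tmul O f, by rw [D.redSec_tmul O]; exact D.one_tmul_ne_zero (ResField O) hf⟩

variable [IsAlgClosed K] [IsDedekindDomain A] [IsAlgClosed L] [IsDedekindDomain (L ⊗[K] A)]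
variable [IsAlgClosed (ResField O)] [IsDedekindDomain (ResField O ⊗[K] A)]

omit [IsAlgClosed K] [IsDedekindDomain A] [IsAlgClosed (ResField O)] in
/-- Exact division by a section, near a point. -/
theorem exists_division_of_le (P : Pt L (L ⊗[K] A)) {ku : ℕ} {u : L ⊗[K] A}
    (hu : u ∈ (D.baseChange L).lev (ku * D.embDeg)) (hup : D.Primitive O u)
    {N Z : Multiset (Pt L (L ⊗[K] A))} (huZ : (D.baseChange L).zeros (ku * D.embDeg) u = N + Z)
    (hZ : ∀ R ∈ Z, red O R ≠ red O P) {k : ℕ} (hk : ku ≤ k) {s : L ⊗[K] A}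
    (hs : s ∈ (D.baseChange L).lev (k * D.embDeg)) (hsI : D.IntCoeff O s)
    (hsN : s = 0 ∨ N ≤ (D.baseChange L).zeros (k * D.embDeg) s) :
    ∃ (m j : ℕ) (h g : L ⊗[K] A), k + m = ku + j ∧ h ∈ (D.baseChange L).lev (m * D.embDeg) ∧
      g ∈ (D.baseChange L).lev (j * D.embDeg) ∧ D.Primitive O h ∧ D.IntCoeff O g ∧
      O.valuation (D.nev O m P h) = 1 ∧ s * h = u * g := by
  classical
  have hu0 := Primitive.ne_zero D O hup
  obtain ⟨h, hh, hhp, hhz, hhv⟩ := D.exists_killer O P Z hZ
  have hh0 := Primitive.ne_zero D O hhp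
  set m := Multiset.card Z
  obtain ⟨j, hj⟩ : ∃ j, k + m = ku + j := ⟨k + m - ku, by omega⟩
  rcases eq_or_ne s 0 with rfl | hs0
  · exact ⟨m, j, h, 0, hj, hh, zero_mem _, hhp, D.intCoeff_zero O, hhv, by simp⟩
  have hsh : s * h ∈ (D.baseChange L).lev (ku * D.embDeg + j * D.embDeg) := by
    have := (D.baseChange L).mul_mem_lev hs hh
    rwa [← add_mul, hj, add_mul] at this
  have hle : (D.baseChange L).zeros (ku * D.embDeg) u ≤
      (D.baseChange L).zeros (ku * D.embDeg + j * D.embDeg) (s * h) := by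
    rw [← add_mul, ← hj, add_mul, (D.baseChange L).zeros_mul hs0 hh0 hs hh, huZ]
    exact add_le_add (hsN.resolve_left hs0) hhz
  obtain ⟨g, hg, hug⟩ :=
    (D.baseChange L).exists_eq_mul_of_zeros_le hu0 (mul_ne_zero hs0 hh0) hu hsh hle
  refine ⟨m, j, h, g, hj, hh, hg, hhp, ?_, hhv, hug⟩
  have hg0 : g ≠ 0 := fun h0 => mul_ne_zero hs0 hh0 (by rw [hug, h0, mul_zero])
  obtain ⟨b, g', hb, hg', hgp, hgb, -⟩ := D.exists_primitive O hg0 hg
  refine hgb ▸ IntCoeff.smul D O ?_ hgp.1
  have hI : D.IntCoeff O (u * g) := hug ▸ IntCoeff.mul D O hsI hhp.1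
  obtain ⟨i, hi⟩ : ∃ i, resid O ((D.baseChange L).coeff i (u * g')) ≠ 0 := by
    by_contra! hcon
    exact (Primitive.mul D O hup hgp).2 ((D.baseChange (ResField O)).coeff_ext fun i => by
      rw [map_zero, coeff_redSec, hcon i])
  have hci := hI i
  rwa [hgb, mul_smul_comm, map_smul, smul_eq_mul, ← ValuationSubring.valuation_le_one_iff, map_mul,
    valuation_eq_one_of_resid_ne_zero O ((Primitive.mul D O hup hgp).1 i) hi, mul_one,
    ValuationSubring.valuation_le_one_iff] at hci

omit [IsAlgClosed L] [IsDedekindDomain (L ⊗[K] A)] in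
omit [IsAlgClosed K] [IsAlgClosed (ResField O)] [IsDedekindDomain (ResField O ⊗[K] A)] in
/-- In every reduction class some member of the family is as large as possible. -/
theorem exists_pivot {ι : Type} (F : BaseFamily D ι) (c : Pt (ResField O) (ResField O ⊗[K] A)) :
    ∃ i, F.W i ≠ 0 ∧ ∀ R : Pt K A, mapPt (ResField O) R = c →
      (D.zeros (F.k * D.embDeg) (F.W i)).count R = F.R.count R := by
  classical
  by_cases h : ∃ R : Pt K A, mapPt (ResField O) R = c
  · obtain ⟨R, hR⟩ := h
    obtain ⟨i, hi, hcount⟩ := F.exact R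
    refine ⟨i, hi, fun R' hR' => ?_⟩
    rw [mapPt_injective _ (hR'.trans hR.symm)]
    exact hcount
  · obtain ⟨i, hi, -⟩ := F.exact none
    exact ⟨i, hi, fun R hR => absurd ⟨R, hR⟩ h⟩

omit [IsAlgClosed (ResField O)] in
/-- Every member is a multiple of the pivot near a point. -/
theorem exists_ratio {ι : Type} (F : BaseFamily D ι) {i₀ : ι} (P : Pt L (L ⊗[K] A))
    (hne : F.W i₀ ≠ 0) (hpiv : ∀ R : Pt K A, mapPt (ResField O) R = red O P →
      (D.zeros (F.k * D.embDeg) (F.W i₀)).count R = F.R.count R) (i : ι) :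
    ∃ (m : ℕ) (h g : L ⊗[K] A), h ∈ (D.baseChange L).lev (m * D.embDeg) ∧
      g ∈ (D.baseChange L).lev (m * D.embDeg) ∧ D.IntCoeff O h ∧ D.IntCoeff O g ∧
      O.valuation (D.nev O m P h) = 1 ∧ ∀ Q, D.nev O F.k Q (1 ⊗ₜ F.W i) * D.nev O m Q h =
        D.nev O F.k Q (1 ⊗ₜ F.W i₀) * D.nev O m Q g := by
  classical
  set n := F.k * D.embDeg
  have hz := D.zeros_baseChange L (n := n) hne
  set M := D.zeros n (F.W i₀)
  obtain ⟨m, j, h, g, hmj, hh, hg, hhp, hgI, hhv, heq⟩ := D.exists_division_of_le O P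
    (D.one_tmul_mem_lev L (F.mem i₀)) (D.primitive_tmul O hne)
    (N := (M.filter fun R => mapPt (ResField O) R = red O P).map (mapPt L))
    (Z := (M.filter fun R => ¬ mapPt (ResField O) R = red O P).map (mapPt L))
    (by rw [hz, ← Multiset.map_add, Multiset.filter_add_not])
    (fun R hR => by
      obtain ⟨R', hR', rfl⟩ := Multiset.mem_map.mp hR
      rw [red_mapPt_eq O]
      exact (Multiset.mem_filter.mp hR').2)
    le_rfl (D.one_tmul_mem_lev L (F.mem i)) (D.intCoeff_tmul O _) (by
      rcases eq_or_ne (F.W i) 0 with h0 | h0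
      · exact Or.inl (by rw [h0, TensorProduct.tmul_zero])
      refine Or.inr ?_
      rw [D.zeros_baseChange L h0]
      refine Multiset.map_le_map (Multiset.le_iff_count.mpr fun R => ?_)
      rw [Multiset.count_filter]
      split_ifs with hR
      · rw [hpiv R hR]
        exact Multiset.le_iff_count.mp (F.le_zeros _ (Submodule.subset_span ⟨i, rfl⟩) h0) R
      · exact Nat.zero_le _)
  obtain rfl : j = m := by omega
  refine ⟨j, h, g, hh, hg, hhp.1, hgI, hhv, fun Q => ?_⟩
  rw [← D.nev_mul O (D.one_tmul_mem_lev L (F.mem i)) hh,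
    ← D.nev_mul O (D.one_tmul_mem_lev L (F.mem i₀)) hg, heq]

/-- The pivot has the largest value, the product of the distances to the base divisor. -/
theorem valuation_pivot {ι : Type} (F : BaseFamily D ι) {i₀ : ι} (P : Pt L (L ⊗[K] A))
    (hne : F.W i₀ ≠ 0) (hpiv : ∀ R : Pt K A, mapPt (ResField O) R = red O P →
      (D.zeros (F.k * D.embDeg) (F.W i₀)).count R = F.R.count R) :
    O.valuation (D.nev O F.k P (1 ⊗ₜ F.W i₀)) =
      (F.R.map fun R => (D.baseChange L).dst O.valuation P (mapPt L R)).prod ∧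
    ∀ i, O.valuation (D.nev O F.k P (1 ⊗ₜ F.W i)) ≤
      O.valuation (D.nev O F.k P (1 ⊗ₜ F.W i₀)) := by
  classical
  refine ⟨?_, fun i => ?_⟩
  · rw [D.valuation_nev_eq_prod O _ F.k _ P (D.one_tmul_mem_lev L (F.mem i₀))
      (D.primitive_tmul O hne) rfl, D.zeros_baseChange L hne, Multiset.map_map]
    have hfar : ∀ R : Pt K A, mapPt (ResField O) R ≠ red O P →
        (D.baseChange L).dst O.valuation P (mapPt L R) = 1 := fun R hR =>
      D.dst_eq_one O P _ fun h => hR (by rw [h, red_mapPt_eq O])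
    by_cases h : ∃ R : Pt K A, mapPt (ResField O) R = red O P
    · obtain ⟨R, hR⟩ := h
      rw [Multiset.prod_map_eq_pow_single R, Multiset.prod_map_eq_pow_single R, hpiv R hR,
        Function.comp_apply]
      · exact fun R' hR' _ => hfar R' fun h => hR' (mapPt_injective _ (h.trans hR.symm))
      · exact fun R' hR' _ => hfar R' fun h => hR' (mapPt_injective _ (h.trans hR.symm))
    · rw [Multiset.prod_eq_one, Multiset.prod_eq_one] <;>
        · intro x hx
          obtain ⟨R, -, rfl⟩ := Multiset.mem_map.mp hx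
          exact hfar R fun h' => h ⟨R, h'⟩
  · obtain ⟨m, h, g, hh, hg, hhI, hgI, hhv, heq⟩ := D.exists_ratio O F P hne hpiv i
    have h1 := congrArg O.valuation (heq P)
    rw [map_mul, map_mul, hhv, mul_one] at h1
    rw [h1]
    exact mul_le_of_le_one_right zero_le ((O.valuation_le_one_iff _).mpr (D.nev_mem O hgI hg P))

/-- A family defined over `K` evaluates to the distance to its base divisor. -/
theorem supMag_family_eq {ι : Type} [Fintype ι] [Nonempty ι] (F : BaseFamily D ι)
    (P : Pt L (L ⊗[K] A)) :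
    supMag O.valuation (fun i => (D.baseChange L).evSec (F.k * D.embDeg) P (1 ⊗ₜ F.W i)) =
      supMag O.valuation ((D.baseChange L).coord P) ^ F.k *
        (F.R.map fun R => (D.baseChange L).dst O.valuation P (mapPt L R)).prod := by
  obtain ⟨i₀, hne, hpiv⟩ := D.exists_pivot O F (red O P)
  obtain ⟨hval, hle⟩ := D.valuation_pivot O F P hne hpiv
  have hconv : ∀ i, O.valuation ((D.baseChange L).evSec (F.k * D.embDeg) P (1 ⊗ₜ F.W i)) =
      supMag O.valuation ((D.baseChange L).coord P) ^ F.k *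
        O.valuation (D.nev O F.k P (1 ⊗ₜ F.W i)) := fun i => by
    rw [D.evSec_nev O, D.supMag_coord O, map_mul, map_inv₀, map_pow, inv_pow]
  refine supMag_eq_of_le_of_eq _ _ (fun i => ?_) (i := i₀) (by rw [hconv, hval])
  rw [hconv, ← hval]
  exact mul_le_mul' le_rfl (hle i)

/-- Integral functions on a family of points that are ratios of sections on each class. -/
def LocalFun {d : ℕ} (P : Fin d → Pt L (L ⊗[K] A)) : Set (Fin d → L) :=
  {f | ∀ j₀, ∃ (k : ℕ) (W s : L ⊗[K] A), W ∈ (D.baseChange L).lev (k * D.embDeg) ∧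
    s ∈ (D.baseChange L).lev (k * D.embDeg) ∧ D.IntCoeff O W ∧ D.IntCoeff O s ∧
    ∀ j, red O (P j) = red O (P j₀) → O.valuation (D.nev O k (P j) s) = 1 ∧
      f j * D.nev O k (P j) s = D.nev O k (P j) W}

omit [IsAlgClosed K] [IsDedekindDomain A] in
theorem divDiffStable_localFun {d : ℕ} (P : Fin d → Pt L (L ⊗[K] A)) :
    ∃ δ : Fin d → Fin d → L, (∀ j i, red O (P j) = red O (P i) →
        O.valuation (δ j i) = (D.baseChange L).dst O.valuation (P j) (P i)) ∧
      DivDiffStable O.valuation (fun j => red O (P j)) δ (D.LocalFun O P) := by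
  classical
  choose u hu hup Z huZ hZ using fun j => D.exists_param O (P j)
  choose piv hpiv using fun j => D.exists_cNrm_unit O (P j)
  let ε : Fin d → L ⊗[K] A := fun j => (1 : L) ⊗ₜ[K] D.e (piv j)
  have hεv : ∀ j i, red O (P j) = red O (P i) → O.valuation (D.nev O 1 (P i) (ε j)) = 1 :=
    fun j i h => D.valuation_nev_eq_of_red O (D.intCoeff_tmul O _) (D.tmul_e_mem_lev_one _) h.symm
      (valuation_eq_one_of_resid_ne_zero O (D.cNrm_mem O (P j) _) (hpiv j ▸ one_ne_zero))
  let δ : Fin d → Fin d → L := fun j i => D.nev O 1 (P i) (u j) / D.nev O 1 (P i) (ε j)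
  refine ⟨δ, fun j i h => ?_, fun f hf => ⟨fun i => ?_, fun j => ?_⟩⟩
  · rw [map_div₀, hεv j i h, div_one, D.dst_comm O,
      D.dst_eq_param O (hu j) (hup j) (huZ j) (hZ j) h.symm]
  · obtain ⟨k, W, s, hW, -, hWI, -, hspec⟩ := hf i
    obtain ⟨hs1, heq⟩ := hspec i rfl
    have := congrArg O.valuation heq
    rw [map_mul, hs1, mul_one] at this
    rw [this]
    exact (O.valuation_le_one_iff _).mpr (D.nev_mem O hWI hW _)
  obtain ⟨k, W, s, hW, hs, hWI, hsI, hspec⟩ := hf j
  obtain ⟨hsj, hfj⟩ := hspec j rfl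
  have hsjO := D.nev_mem O hsI hs (P j)
  have hWjO := D.nev_mem O hWI hW (P j)
  let num : L ⊗[K] A := D.nev O k (P j) s • W - D.nev O k (P j) W • s
  have hnum : num ∈ (D.baseChange L).lev (k * D.embDeg) :=
    sub_mem (Submodule.smul_mem _ _ hW) (Submodule.smul_mem _ _ hs)
  obtain ⟨m, j', h, g, hkm, hh, hg, hhp, hgI, hhv, heq, -⟩ :=
    D.exists_division O (hu j) (hup j) (huZ j) (hZ j) hnum
      (IntCoeff.sub D O (IntCoeff.smul D O hsjO hWI) (IntCoeff.smul D O hWjO hsI))
      (by simp only [num, map_sub, map_smul, smul_eq_mul]; ring)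
  let q : Fin d → L := fun i =>
    (D.nev O j' (P i) g * D.nev O 1 (P i) (ε j)) /
      (D.nev O m (P i) h * D.nev O k (P i) s * D.nev O k (P j) s)
  refine ⟨fun i => if red O (P j) = red O (P i) then q i else f i, fun j₀ => ?_, fun i => ?_⟩
  · by_cases hj₀ : red O (P j) = red O (P j₀)
    · have hlev1 : g * ε j ∈ (D.baseChange L).lev ((m + k) * D.embDeg) := by
        rw [show m + k = j' + 1 by omega, add_mul]
        exact (D.baseChange L).mul_mem_lev hg (D.tmul_e_mem_lev_one _)
      have hlev2 : D.nev O k (P j) s • (h * s) ∈ (D.baseChange L).lev ((m + k) * D.embDeg) := by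
        rw [add_mul]
        exact Submodule.smul_mem _ _ ((D.baseChange L).mul_mem_lev hh hs)
      refine ⟨m + k, _, _, hlev1, hlev2, IntCoeff.mul D O hgI (D.intCoeff_tmul O _),
        IntCoeff.smul D O hsjO (IntCoeff.mul D O hhp.1 hsI), fun i hi => ?_⟩
      have hji : red O (P j) = red O (P i) := hj₀.trans hi.symm
      have hhi := D.valuation_nev_eq_of_red O hhp.1 hh hji.symm hhv
      have hsi := (hspec i hji.symm).1
      have hne : ∀ {x : L}, O.valuation x = 1 → x ≠ 0 := fun {x} hx h0 => by simp [h0] at hx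
      beta_reduce
      rw [if_pos hji, map_smul, smul_eq_mul, D.nev_mul O hh hs,
        show D.nev O (m + k) (P i) (g * ε j) = D.nev O j' (P i) g * D.nev O 1 (P i) (ε j) by
          rw [show m + k = j' + 1 by omega, D.nev_mul O hg (D.tmul_e_mem_lev_one _)]]
      refine ⟨by rw [map_mul, map_mul, hsj, hhi, hsi, one_mul, one_mul], ?_⟩
      rw [show D.nev O k (P j) s * (D.nev O m (P i) h * D.nev O k (P i) s) =
        D.nev O m (P i) h * D.nev O k (P i) s * D.nev O k (P j) s by ring]
      exact div_mul_cancel₀ _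
        (mul_ne_zero (mul_ne_zero (hne hhi) (hne hsi)) (hne hsj))
    · obtain ⟨k', W', s', a1, a2, a3, a4, hspec'⟩ := hf j₀
      refine ⟨k', W', s', a1, a2, a3, a4, fun i hi => ?_⟩
      beta_reduce
      rw [if_neg fun hji : red O (P j) = red O (P i) => hj₀ (hji.trans hi)]
      exact hspec' i hi
  · refine ⟨fun hji => ?_, fun hji => if_neg hji⟩
    have hhi := D.valuation_nev_eq_of_red O hhp.1 hh hji.symm hhv
    obtain ⟨hsi, hfi⟩ := hspec i hji.symm
    have hne : ∀ {x : L}, O.valuation x = 1 → x ≠ 0 := fun {x} hx h0 => by simp [h0] at hx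
    have e1 := congrArg (D.nev O (k + m) (P i)) heq
    rw [D.nev_mul O hnum hh, hkm, D.nev_mul O (hu j) hg] at e1
    simp only [num, map_sub, map_smul, smul_eq_mul, ← hfi, ← hfj] at e1
    show f i - f j = δ j i * (if _ then _ else _)
    rw [if_pos hji]
    simp only [δ, q]
    have h1 := hne (hεv j i hji)
    have h2 := hne hhi
    have h3 := hne hsi
    have h4 := hne hsj
    field_simp
    linear_combination e1

/-- A determinant of values is small when the points are close. -/
theorem valuation_det_le_eq {d : ℕ} [Nonempty (Fin d)] (F : BaseFamily D (Fin d))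
    (P : Fin d → Pt L (L ⊗[K] A)) :
    O.valuation
        (Matrix.det (Matrix.of fun j i =>
          (D.baseChange L).evSec (F.k * D.embDeg) (P j) (1 ⊗ₜ F.W i))) ≤
      (∏ j, supMag O.valuation
          fun i => (D.baseChange L).evSec (F.k * D.embDeg) (P j) (1 ⊗ₜ F.W i)) *
        ∏ p ∈ Finset.univ.filter (fun p : Fin d × Fin d => p.1 < p.2),
          (D.baseChange L).dst O.valuation (P p.1) (P p.2) := by
  classical
  obtain ⟨δ, hδ, hstable⟩ := D.divDiffStable_localFun O P
  choose i₀ hne hpiv using fun c => D.exists_pivot O F c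
  choose m h g hh hg hhI hgI hhv heq using fun c i => fun (j : {j // red O (P j) = c}) =>
    D.exists_ratio O F (P j.1) (hne c) (fun R hR => hpiv c R (hR.trans j.2)) i
  -- one representative in every class
  let rep : Fin d → Fin d := fun j => (Finset.univ.filter fun l => red O (P l) = red O (P j)).min'
    ⟨j, by simp⟩
  have hrep : ∀ j, red O (P (rep j)) = red O (P j) := fun j =>
    (Finset.mem_filter.mp (Finset.min'_mem (Finset.univ.filter fun l => red O (P l) = red O (P j))
      ⟨j, by simp⟩)).2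
  have hrepeq : ∀ j l, red O (P j) = red O (P l) → rep j = rep l := fun j l hjl => by
    simp only [rep]
    congr 1
    rw [hjl]
  let w : Fin d → L := fun j =>
    D.nev O F.k (P j) (1 ⊗ₜ F.W (i₀ (red O (P (rep j)))))
  let rj : ∀ j : Fin d, {l // red O (P l) = red O (P (rep j))} := fun j => ⟨rep j, rfl⟩
  let f : Fin d → Fin d → L := fun i j =>
    D.nev O (m _ i (rj j)) (P j) (g _ i (rj j)) / D.nev O (m _ i (rj j)) (P j) (h _ i (rj j))
  have hhunit : ∀ i j, O.valuation (D.nev O (m _ i (rj j)) (P j) (h _ i (rj j))) = 1 := fun i j =>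
    D.valuation_nev_eq_of_red O (hhI _ i (rj j)) (hh _ i (rj j)) (hrep j).symm (hhv _ i (rj j))
  have hf : ∀ i, f i ∈ D.LocalFun O P := fun i j₀ => by
    refine ⟨_, g _ i (rj j₀), h _ i (rj j₀), hg _ i (rj j₀), hh _ i (rj j₀), hgI _ i (rj j₀),
      hhI _ i (rj j₀), fun j hj => ?_⟩
    have hr : rj j₀ = rj j₀ := rfl
    have hkey : ∀ l, rep l = rep j₀ →
        (O.valuation (D.nev O (m _ i (rj l)) (P j) (h _ i (rj l))) = 1 ∧
          D.nev O (m _ i (rj l)) (P j) (g _ i (rj l)) /
              D.nev O (m _ i (rj l)) (P j) (h _ i (rj l)) *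
            D.nev O (m _ i (rj l)) (P j) (h _ i (rj l)) =
          D.nev O (m _ i (rj l)) (P j) (g _ i (rj l))) := fun l hl => by
      have hv := D.valuation_nev_eq_of_red O (hhI _ i (rj l)) (hh _ i (rj l))
        (P := P j) (hj.trans ((hrep j₀).symm.trans (by rw [← hl]))) (hhv _ i (rj l))
      exact ⟨hv, div_mul_cancel₀ _ fun h0 => by simp [h0] at hv⟩
    have hfj : f i j = D.nev O (m _ i (rj j₀)) (P j) (g _ i (rj j₀)) /
        D.nev O (m _ i (rj j₀)) (P j) (h _ i (rj j₀)) := by
      have key : ∀ r r' : Fin d, r = r' →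
          D.nev O (m _ i (⟨r, rfl⟩ : {l // red O (P l) = red O (P r)})) (P j)
              (g _ i ⟨r, rfl⟩) /
            D.nev O (m _ i (⟨r, rfl⟩ : {l // red O (P l) = red O (P r)})) (P j) (h _ i ⟨r, rfl⟩) =
          D.nev O (m _ i (⟨r', rfl⟩ : {l // red O (P l) = red O (P r')})) (P j)
              (g _ i ⟨r', rfl⟩) /
            D.nev O (m _ i (⟨r', rfl⟩ : {l // red O (P l) = red O (P r')})) (P j)
              (h _ i ⟨r', rfl⟩) := by
        rintro r _ rfl; rfl
      exact key _ _ (hrepeq j j₀ hj)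
    rw [hfj]
    exact hkey j₀ rfl
  have hfac : ∀ j i, (D.baseChange L).evSec (F.k * D.embDeg) (P j) (1 ⊗ₜ F.W i) =
      (D.scale O (P j) ^ F.k)⁻¹ * w j * f i j := fun j i => by
    have h1 := heq _ i (rj j) (P j)
    have h2 : D.nev O (m _ i (rj j)) (P j) (h _ i (rj j)) ≠ 0 := fun h0 => by
      have := hhunit i j
      simp [h0] at this
    rw [D.evSec_nev O, mul_assoc]
    congr 1
    simp only [w, f]
    rw [← mul_div_assoc, eq_div_iff h2]
    exact h1
  have hmat : (Matrix.of fun j i =>
      (D.baseChange L).evSec (F.k * D.embDeg) (P j) (1 ⊗ₜ F.W i)) =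
      Matrix.of fun j i => ((D.scale O (P j) ^ F.k)⁻¹ * w j) * (Matrix.of fun j i => f i j) j i := by
    ext j i; simp [hfac]
  rw [hmat, Matrix.det_mul_column, map_mul, map_prod]
  refine mul_le_mul' (Finset.prod_le_prod' fun j _ => ?_) ?_
  · refine le_trans (le_of_eq ?_) (le_supMag O.valuation _ (i₀ (red O (P (rep j)))))
    simp only [w]
    rw [← D.evSec_nev O]
  · refine (valuation_det_le_prod_pairSize O.valuation _ δ hstable f hf).trans (le_of_eq ?_)
    have hIoi : ∀ i : Fin d,
        Finset.univ.filter (fun j => i < j) = Finset.Ioi i := fun i => by ext; simp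
    rw [Finset.prod_filter, ← Finset.univ_product_univ, Finset.prod_product]
    refine Finset.prod_congr rfl fun i _ => ?_
    rw [← Finset.prod_filter (fun j => i < j)
      (fun j => (D.baseChange L).dst O.valuation (P i) (P j)), hIoi]
    refine Finset.prod_congr rfl fun j _ => ?_
    unfold pairSize
    split_ifs with hc
    · exact hδ i j hc
    · exact (D.dst_eq_one O _ _ hc).symm

end Fermat.Agent.MW.CurveBasis
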