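import Fermat.Agent.MW.Local.Defs
import Mathlib.RingTheory.Valuation.LocalSubring
import Mathlib.Algebra.CharP.Algebra

/-!
# Magnitude of a vector; valuation rings over the base field

Elementary properties of the largest magnitude of a coordinate and of the residue map of a
valuation ring containing the base field.
-/

set_option autoImplicit false

noncomputable section

namespace Fermat.Agent.MW

variable {R Γ : Type*} [LinearOrder Γ] {ι : Type*} [Fintype ι] [Nonempty ι]

/-- Each entry is bounded by the size of the vector. -/
theorem le_supMag (v : R → Γ) (x : ι → R) (i : ι) : v (x i) ≤ supMag v x :=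
  Finset.le_sup' (fun i => v (x i)) (Finset.mem_univ i)

/-- The size of a vector is the least common bound of its entries. -/
theorem supMag_le_iff (v : R → Γ) (x : ι → R) (c : Γ) : supMag v x ≤ c ↔ ∀ i, v (x i) ≤ c := by
  simp [supMag]

/-- The size of a vector is attained. -/
theorem exists_supMag_eq (v : R → Γ) (x : ι → R) : ∃ i, supMag v x = v (x i) := by
  obtain ⟨i, -, hi⟩ := Finset.exists_mem_eq_sup' Finset.univ_nonempty fun i => v (x i)
  exact ⟨i, hi⟩

/-- The size of a vector is an attained upper bound. -/
theorem supMag_eq_of_le_of_eq (v : R → Γ) (x : ι → R) {c : Γ} (h : ∀ i, v (x i) ≤ c) {i : ι}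
    (hi : v (x i) = c) : supMag v x = c :=
  le_antisymm ((supMag_le_iff v x c).mpr h) (hi ▸ le_supMag v x i)

section Valuation

variable {L : Type*} [Field L] {G : Type*} [LinearOrderedCommGroupWithZero G] (v : Valuation L G)

/-- The size of a vector is homogeneous. -/
theorem supMag_smul (c : L) (x : ι → L) : supMag v (c • x) = v c * supMag v x := by
  obtain ⟨i, hi⟩ := exists_supMag_eq v x
  refine supMag_eq_of_le_of_eq _ _ (fun j => ?_) (i := i) ?_
  · simpa using mul_le_mul_right (le_supMag v x j) (v c)
  · simp [hi]

/-- The size of a nonzero vector is positive. -/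
theorem supMag_pos {x : ι → L} (h : x ≠ 0) : 0 < supMag v x := by
  obtain ⟨i, hi⟩ := Function.ne_iff.mp h
  exact lt_of_lt_of_le (zero_lt_iff.mpr ((Valuation.ne_zero_iff v).mpr hi)) (le_supMag v x i)

/-- The size of a nonzero vector is nonzero. -/
theorem supMag_ne_zero {x : ι → L} (h : x ≠ 0) : supMag v x ≠ 0 := (supMag_pos v h).ne'

end Valuation

section OverBase

variable {K L : Type} [Field K] [Field L] [Algebra K L] (O : ValuationSubring L) [OverBase K O]

variable (K) in
/-- The valuation ring as a subalgebra over the base field. -/
def intRing : Subalgebra K L :=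
  { O.toSubring with algebraMap_mem' := OverBase.algebraMap_mem }

/-- Reduction of an element of the valuation ring, as an algebra map. -/
def residAlg : intRing K O →ₐ[K] ResField O where
  toFun x := IsLocalRing.residue O ⟨x.1, x.2⟩
  map_one' := map_one _
  map_mul' x y := map_mul (IsLocalRing.residue O) ⟨x.1, x.2⟩ ⟨y.1, y.2⟩
  map_zero' := map_zero _
  map_add' x y := map_add (IsLocalRing.residue O) ⟨x.1, x.2⟩ ⟨y.1, y.2⟩
  commutes' _ := rfl

omit [OverBase K O] in
/-- The residue of an integral element. -/
theorem resid_of_mem {x : L} (h : x ∈ O) : resid O x = IsLocalRing.residue O ⟨x, h⟩ := by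
  simp [resid, h]

omit [OverBase K O] in
/-- The residue of an element of the valuation ring. -/
theorem resid_coe (x : O) : resid O (x : L) = IsLocalRing.residue O x := by
  rw [resid_of_mem O x.2]

omit [OverBase K O] in
/-- The residue of `0` is `0`. -/
theorem resid_zero : resid O (0 : L) = 0 := by
  simpa using resid_coe O 0

omit [OverBase K O] in
/-- The residue of `1` is `1`. -/
theorem resid_one : resid O (1 : L) = 1 := by
  simpa using resid_coe O 1

omit [OverBase K O] in
/-- The residue map is additive on integral elements. -/
theorem resid_add {x y : L} (hx : x ∈ O) (hy : y ∈ O) :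
    resid O (x + y) = resid O x + resid O y := by
  simpa using (resid_coe O (⟨x, hx⟩ + ⟨y, hy⟩)).trans
    ((map_add _ _ _).trans (by rw [resid_of_mem O hx, resid_of_mem O hy]))

omit [OverBase K O] in
/-- The residue map is multiplicative on integral elements. -/
theorem resid_mul {x y : L} (hx : x ∈ O) (hy : y ∈ O) :
    resid O (x * y) = resid O x * resid O y := by
  simpa using (resid_coe O (⟨x, hx⟩ * ⟨y, hy⟩)).trans
    ((map_mul _ _ _).trans (by rw [resid_of_mem O hx, resid_of_mem O hy]))

omit [OverBase K O] in
/-- The residue map respects subtraction on integral elements. -/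
theorem resid_sub {x y : L} (hx : x ∈ O) (hy : y ∈ O) :
    resid O (x - y) = resid O x - resid O y := by
  simpa using (resid_coe O (⟨x, hx⟩ - ⟨y, hy⟩)).trans
    ((map_sub _ _ _).trans (by rw [resid_of_mem O hx, resid_of_mem O hy]))

/-- The residue map fixes the base field. -/
theorem resid_algebraMap (c : K) : resid O (algebraMap K L c) = algebraMap K (ResField O) c := by
  rw [resid_of_mem O (OverBase.algebraMap_mem c)]; rfl

omit [OverBase K O] in
/-- A residue vanishes exactly when the valuation is less than `1`. -/
theorem resid_eq_zero_iff {x : L} (hx : x ∈ O) : resid O x = 0 ↔ O.valuation x < 1 := by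
  rw [resid_of_mem O hx, IsLocalRing.residue_eq_zero_iff, ValuationSubring.valuation_lt_one_iff]

omit [OverBase K O] in
/-- An integral element of nonzero residue is a unit. -/
theorem valuation_eq_one_of_resid_ne_zero {x : L} (hx : x ∈ O) (h : resid O x ≠ 0) :
    O.valuation x = 1 :=
  le_antisymm ((O.valuation_le_one_iff x).mpr hx)
    (not_lt.mp fun hlt => h ((resid_eq_zero_iff O hx).mpr hlt))

omit [OverBase K O] in
/-- Every residue lifts to an integral element. -/
theorem exists_resid_eq (c : ResField O) : ∃ x : L, x ∈ O ∧ resid O x = c := by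
  obtain ⟨x, rfl⟩ := IsLocalRing.residue_surjective c
  exact ⟨x, x.2, resid_coe O x⟩

/-- Nonzero elements of the base field are units. -/
theorem valuation_algebraMap {c : K} (hc : c ≠ 0) : O.valuation (algebraMap K L c) = 1 :=
  valuation_eq_one_of_resid_ne_zero O (OverBase.algebraMap_mem c) (by
    rw [resid_algebraMap]; simpa using hc)

/-- Elements of the base field are integral. -/
theorem valuation_algebraMap_le (c : K) : O.valuation (algebraMap K L c) ≤ 1 :=
  (O.valuation_le_one_iff _).mpr (OverBase.algebraMap_mem c)

end OverBase

/-- The residue field of a valuation ring of an algebraically closed field is algebraically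
closed. -/
theorem isAlgClosed_resField {L : Type} [Field L] [IsAlgClosed L] (O : ValuationSubring L) :
    IsAlgClosed (ResField O) := by
  refine IsAlgClosed.of_exists_root _ fun p hp hirr => ?_
  obtain ⟨q, hq, hdeg, hmon⟩ := Polynomial.lifts_and_degree_eq_and_monic
    ((Polynomial.map_surjective _ IsLocalRing.residue_surjective p :
      p ∈ Polynomial.lifts (IsLocalRing.residue O))) hp
  obtain ⟨z, hz⟩ := IsAlgClosed.exists_root (q.map O.subtype) (by
    rw [Polynomial.degree_map_eq_of_injective Subtype.coe_injective, hdeg]
    exact hirr.degree_pos.ne')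
  have hzint : IsIntegral O z := ⟨q, hmon, by
    rw [← Polynomial.eval_map]; exact hz⟩
  obtain ⟨y, hy⟩ := IsIntegrallyClosed.isIntegral_iff.mp hzint
  refine ⟨IsLocalRing.residue O y, ?_⟩
  rw [← hq, Polynomial.eval_map, Polynomial.eval₂_at_apply,
    ← map_zero (IsLocalRing.residue O)]
  congr 1
  apply Subtype.coe_injective
  show O.subtype (Polynomial.eval y q) = O.subtype 0
  rw [← Polynomial.eval₂_at_apply, map_zero, ← Polynomial.eval_map]
  exact hy ▸ hz

/-- The residue field has characteristic zero. -/
theorem charZero_resField {K L : Type} [Field K] [CharZero K] [Field L] [Algebra K L]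
    (O : ValuationSubring L) [OverBase K O] : CharZero (ResField O) :=
  charZero_of_injective_algebraMap (algebraMap K (ResField O)).injective

end Fermat.Agent.MW
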