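import Fermat.Agent.MW.Local.Escape

/-!
# Normalised values of sections at a point, reduction and distance

`nev k P t` is the value at `P` of the section `t` of degree `k * embDeg`, divided by the `k`-th
power of a coordinate of largest magnitude. Its residue is the value of the reduced section at
the reduced point.
-/

set_option autoImplicit false

noncomputable section

open scoped TensorProduct
open Module

namespace Fermat.Agent.MW.CurveBasis

variable {K A : Type} [Field K] [CommRing A] [Algebra K A] (D : CurveBasis K A)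
variable {L : Type} [Field L] [Algebra K L] (O : ValuationSubring L) [OverBase K O]

/-- The coordinates of a point as a map on the algebra over the base. -/
def baseHom (φ : L ⊗[K] A →ₐ[L] L) : A →ₐ[K] L :=
  (φ.restrictScalars K).comp Algebra.TensorProduct.includeRight

omit [OverBase K O] in
/-- Unfolding of the restriction of a point to the base functions. -/
theorem baseHom_apply (φ : L ⊗[K] A →ₐ[L] L) (f : A) : baseHom φ f = φ (1 ⊗ₜ f) := rfl

open scoped Classical in
/-- The inverse of a coordinate of largest magnitude. -/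
def scale : Pt L (L ⊗[K] A) → L
  | none => 1
  | some φ => if D.Escapes O (baseHom φ) then (φ (1 ⊗ₜ D.e D.embDeg))⁻¹ else 1

omit [OverBase K O] in
/-- The scale at infinity is `1`. -/
theorem scale_none : D.scale O none = 1 := rfl

omit [OverBase K O] in
/-- The scale of an escaping point. -/
theorem scale_of_escapes {φ : L ⊗[K] A →ₐ[L] L} (h : D.Escapes O (baseHom φ)) :
    D.scale O (some φ) = (φ (1 ⊗ₜ D.e D.embDeg))⁻¹ := if_pos h

omit [OverBase K O] in
/-- The scale of an integral point is `1`. -/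
theorem scale_of_not_escapes {φ : L ⊗[K] A →ₐ[L] L} (h : ¬ D.Escapes O (baseHom φ)) :
    D.scale O (some φ) = 1 := if_neg h

/-- The degree of the embedding is not a gap. -/
theorem embDeg_notMem : D.embDeg ∉ D.gaps :=
  D.notMem_gaps_of_le (by simp [embDeg]; omega)

theorem mul_embDeg_notMem (k : ℕ) : k * D.embDeg ∉ D.gaps := by
  induction k with
  | zero => simpa using D.zero_notMem
  | succ k ih => rw [add_mul, one_mul]; exact D.add_notMem _ _ ih D.embDeg_notMem

/-- An escaping point has non-integral last coordinate. -/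
theorem one_lt_of_escapes {ψ : A →ₐ[K] L} (h : D.Escapes O ψ) :
    1 < O.valuation (ψ (D.e D.embDeg)) := by
  obtain ⟨n, hn, hng, hv⟩ := h.exists_notMem
  refine not_le.mp fun hle => hv.not_ge ?_
  exact le_of_pow_le_pow_left₀ (n := D.embDeg) (by simp [embDeg]) zero_le_one
    (by rw [D.valuation_pow_embDeg O ψ h hng, one_pow]; exact pow_le_one₀ zero_le hle)

theorem escapes_iff {ψ : A →ₐ[K] L} : D.Escapes O ψ ↔ ¬ ∀ f, ψ f ∈ O :=
  ⟨fun h hall => (D.one_lt_of_escapes O h).not_ge ((O.valuation_le_one_iff _).mpr (hall _)),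
    fun h => by_contra fun hn => h (D.mem_of_not_escapes O ψ hn)⟩

theorem red_of_escapes {φ : L ⊗[K] A →ₐ[L] L} (h : D.Escapes O (baseHom φ)) :
    red O (some φ) = none := by
  rw [red, dif_neg]; exact fun hall => (D.escapes_iff O).mp h hall

/-- An integral point reduces to a finite point. -/
theorem exists_red_of_not_escapes {φ : L ⊗[K] A →ₐ[L] L} (h : ¬ D.Escapes O (baseHom φ)) :
    ∃ χ : ResField O ⊗[K] A →ₐ[ResField O] ResField O, red O (some φ) = some χ ∧
      ∀ f, χ (1 ⊗ₜ f) = resid O (φ (1 ⊗ₜ f)) := by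
  have hall : ∀ f : A, φ (1 ⊗ₜ f) ∈ O := D.mem_of_not_escapes O _ h
  refine ⟨_, by rw [red, dif_pos hall], fun f => ?_⟩
  simp [resid_of_mem O (hall f)]
  rfl

theorem scale_ne_zero (P : Pt L (L ⊗[K] A)) : D.scale O P ≠ 0 := by
  rcases P with _ | φ
  · simp [scale]
  by_cases h : D.Escapes O (baseHom φ)
  · rw [D.scale_of_escapes O h]
    exact inv_ne_zero fun h0 => by
      simpa [baseHom_apply, h0] using D.one_lt_of_escapes O h
  · simp [D.scale_of_not_escapes O h]

/-- The normalised value of a section of degree `k * embDeg`. -/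
def nev (k : ℕ) (P : Pt L (L ⊗[K] A)) : L ⊗[K] A →ₗ[L] L :=
  D.scale O P ^ k • (D.baseChange L).evSec (k * D.embDeg) P

omit [OverBase K O] in
/-- Unfolding of the normalised value. -/
theorem nev_apply (k : ℕ) (P : Pt L (L ⊗[K] A)) (t : L ⊗[K] A) :
    D.nev O k P t = D.scale O P ^ k * (D.baseChange L).evSec (k * D.embDeg) P t := rfl

/-- Recover the value from the normalised value. -/
theorem evSec_nev (k : ℕ) (P : Pt L (L ⊗[K] A)) (t : L ⊗[K] A) :
    (D.baseChange L).evSec (k * D.embDeg) P t = (D.scale O P ^ k)⁻¹ * D.nev O k P t := by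
  rw [nev_apply, inv_mul_cancel_left₀ (pow_ne_zero _ (D.scale_ne_zero O P))]

omit [OverBase K O] in
/-- A section is the sum of its terms. -/
theorem eq_sum_coeff {N : ℕ} {t : L ⊗[K] A} (ht : t ∈ (D.baseChange L).lev N) :
    t = ∑ i ∈ Finset.range (N + 1), (D.baseChange L).coeff i t • ((1 : L) ⊗ₜ[K] D.e i) := by
  refine (D.baseChange L).coeff_ext fun j => ?_
  rw [map_sum]
  simp only [map_smul, baseChange_coeff, one_mul, smul_eq_mul]
  by_cases hjg : j ∈ D.gaps
  · rw [D.coeff_baseChange_of_mem t hjg, Finset.sum_eq_zero]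
    intro i _
    by_cases hig : i ∈ D.gaps
    · rw [D.coeff_baseChange_of_mem t hig, zero_mul]
    · rw [D.coeff_e hig, if_neg (fun h : j = i => hig (h ▸ hjg)), map_zero, mul_zero]
  by_cases hjN : j < N + 1
  · rw [Finset.sum_eq_single j]
    · simp [D.coeff_e hjg]
    · intro i _ hij
      by_cases hig : i ∈ D.gaps
      · rw [D.coeff_baseChange_of_mem t hig, zero_mul]
      · simp [D.coeff_e hig, hij.symm]
    · intro h; exact absurd (Finset.mem_range.mpr hjN) h
  · rw [(mem_lev_iff _).mp ht j (by omega), Finset.sum_eq_zero]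
    intro i hi
    have : j ≠ i := fun h => hjN (h ▸ Finset.mem_range.mp hi)
    by_cases hig : i ∈ D.gaps
    · simp [D.e_gap hig]
    · simp [D.coeff_e hig, this]

omit [OverBase K O] in
/-- The basis functions respect the filtration after base change. -/
theorem tmul_e_mem_lev {i N : ℕ} (h : i ≤ N) : (1 : L) ⊗ₜ[K] D.e i ∈ (D.baseChange L).lev N :=
  Submodule.subset_span ⟨i, h, D.baseChange_e L i⟩

/-- Below the top degree the normalised monomials at a point near infinity are small. -/
theorem valuation_scaled_lt {φ : L ⊗[K] A →ₐ[L] L} (h : D.Escapes O (baseHom φ)) {k : ℕ}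
    {s : Set ℕ} (hs : ∀ i ∈ s, i < k * D.embDeg) {f : A}
    (hf : f ∈ Submodule.span K (D.e '' s)) :
    O.valuation (D.scale O (some φ) ^ k * φ (1 ⊗ₜ f)) < 1 := by
  have hY := D.one_lt_of_escapes O h
  rw [baseHom_apply] at hY
  set Y := O.valuation (φ (1 ⊗ₜ D.e D.embDeg))
  have hY0 : 0 < Y := zero_lt_one.trans hY
  rcases Nat.eq_zero_or_pos (k * D.embDeg) with h0 | hpos
  · have : f = 0 := by
      have hs' : s = ∅ := Set.eq_empty_iff_forall_notMem.mpr fun i hi => by
        have := hs i hi; omega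
      simpa [hs'] using hf
    simp [this]
  have h1 : O.valuation (φ (1 ⊗ₜ f)) ^ D.embDeg ≤ Y ^ (k * D.embDeg - 1) := by
    refine D.valuation_map_le_of_mem_span O (baseHom φ) hf (by simp [embDeg]) fun i hi => ?_
    by_cases hig : i ∈ D.gaps
    · rw [D.e_gap hig, map_zero, map_zero, zero_pow (by simp [embDeg])]; exact zero_le
    rw [D.valuation_pow_embDeg O _ h hig, baseHom_apply]
    exact pow_le_pow_right₀ hY.le (by have := hs i hi; omega)
  refine lt_of_pow_lt_pow_left₀ D.embDeg zero_le_one ?_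
  rw [D.scale_of_escapes O h, map_mul, map_pow, map_inv₀, mul_pow, ← pow_mul, inv_pow, one_pow]
  refine (mul_le_mul' le_rfl h1).trans_lt ?_
  rw [inv_mul_lt_iff₀ (pow_pos hY0 _), mul_one]
  exact pow_lt_pow_right₀ hY (by omega)

/-- The top monomial at a point near infinity. -/
theorem resid_scaled_top {φ : L ⊗[K] A →ₐ[L] L} (h : D.Escapes O (baseHom φ)) (k : ℕ) :
    D.scale O (some φ) ^ k * φ (1 ⊗ₜ D.e (k * D.embDeg)) ∈ O ∧
      resid O (D.scale O (some φ) ^ k * φ (1 ⊗ₜ D.e (k * D.embDeg))) = 1 := by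
  induction k with
  | zero => simp [D.e_zero, ← Algebra.TensorProduct.one_def, resid_one]
  | succ k ih =>
    set l := D.scale O (some φ)
    set a := D.embDeg
    let low : A := D.e (k * a) * D.e a - D.e (k * a + a)
    have hlow : O.valuation (l ^ (k + 1) * φ (1 ⊗ₜ low)) < 1 :=
      D.valuation_scaled_lt O h (fun i hi => by simp at hi; rw [add_mul, one_mul]; exact hi)
        (D.e_mul _ _ (D.mul_embDeg_notMem k) D.embDeg_notMem)
    have hlowO : l ^ (k + 1) * φ (1 ⊗ₜ low) ∈ O :=
      (O.valuation_le_one_iff _).mp hlow.le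
    have hla : l * φ (1 ⊗ₜ D.e a) = 1 := by
      have h0 : φ (1 ⊗ₜ D.e a) ≠ 0 := fun h0 => by
        simpa [baseHom_apply, h0, a] using D.one_lt_of_escapes O h
      simp [l, D.scale_of_escapes O h, a, h0]
    have heq : l ^ (k + 1) * φ (1 ⊗ₜ D.e ((k + 1) * a)) =
        l ^ k * φ (1 ⊗ₜ D.e (k * a)) - l ^ (k + 1) * φ (1 ⊗ₜ low) := by
      have e1 : ((1 : L) ⊗ₜ[K] low) =
          (1 ⊗ₜ D.e (k * a)) * (1 ⊗ₜ D.e a) - 1 ⊗ₜ D.e ((k + 1) * a) := by
        simp [low, TensorProduct.tmul_sub, add_mul]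
      rw [e1, map_sub, map_mul, mul_sub,
        show l ^ (k + 1) * (φ (1 ⊗ₜ D.e (k * a)) * φ (1 ⊗ₜ D.e a))
          = l ^ k * φ (1 ⊗ₜ D.e (k * a)) * (l * φ (1 ⊗ₜ D.e a)) by ring, hla]
      ring
    rw [heq]
    refine ⟨sub_mem ih.1 hlowO, ?_⟩
    rw [resid_sub O ih.1 hlowO, ih.2, (resid_eq_zero_iff O hlowO).mpr hlow, sub_zero]

/-- The normalised value of an integral section reduces to the value of the reduced section. -/
theorem resid_nev {k : ℕ} {t : L ⊗[K] A} (ht : D.IntCoeff O t)
    (htk : t ∈ (D.baseChange L).lev (k * D.embDeg)) (P : Pt L (L ⊗[K] A)) :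
    D.nev O k P t ∈ O ∧ resid O (D.nev O k P t) =
      (D.baseChange (ResField O)).evSec (k * D.embDeg) (red O P) (redSec O D t) := by
  rcases P with _ | φ
  · rw [nev_apply, scale_none, one_pow, one_mul]
    exact ⟨ht _, (D.coeff_redSec O t _).symm⟩
  by_cases hesc : D.Escapes O (baseHom φ)
  · rw [D.red_of_escapes O hesc, nev_apply]
    show D.scale O (some φ) ^ k * φ t ∈ O ∧ resid O (D.scale O (some φ) ^ k * φ t) =
      (D.baseChange (ResField O)).coeff (k * D.embDeg) (redSec O D t)
    set l := D.scale O (some φ)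
    set N := k * D.embDeg
    have hsum : l ^ k * φ t = (∑ i ∈ Finset.range N,
        (D.baseChange L).coeff i t * (l ^ k * φ (1 ⊗ₜ D.e i))) +
          (D.baseChange L).coeff N t * (l ^ k * φ (1 ⊗ₜ D.e N)) := by
      rw [← Finset.sum_range_succ (fun i =>
        (D.baseChange L).coeff i t * (l ^ k * φ (1 ⊗ₜ D.e i)))]
      conv_lhs => rw [D.eq_sum_coeff htk]
      rw [map_sum, Finset.mul_sum]
      exact Finset.sum_congr rfl fun i _ => by rw [map_smul, smul_eq_mul]; ring
    have hsmall : O.valuation (∑ i ∈ Finset.range N,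
        (D.baseChange L).coeff i t * (l ^ k * φ (1 ⊗ₜ D.e i))) < 1 := by
      refine Valuation.map_sum_lt _ one_ne_zero fun i hi => ?_
      rw [map_mul]
      refine lt_of_le_of_lt (mul_le_of_le_one_left zero_le
        ((O.valuation_le_one_iff _).mpr (ht i))) ?_
      exact D.valuation_scaled_lt O hesc (s := {i}) (by simpa [N] using hi)
        (Submodule.subset_span ⟨i, rfl, rfl⟩)
    have htop := D.resid_scaled_top O hesc k
    have hsO := (O.valuation_le_one_iff _).mp hsmall.le
    have htO : (D.baseChange L).coeff N t * (l ^ k * φ (1 ⊗ₜ D.e N)) ∈ O := mul_mem (ht N) htop.1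
    rw [hsum]
    refine ⟨add_mem hsO htO, ?_⟩
    rw [resid_add O hsO htO, (resid_eq_zero_iff O hsO).mpr hsmall, zero_add,
      resid_mul O (ht N) htop.1, htop.2, mul_one, coeff_redSec]
  · obtain ⟨χ, hχ, hval⟩ := D.exists_red_of_not_escapes O hesc
    rw [hχ, nev_apply, D.scale_of_not_escapes O hesc, one_pow, one_mul]
    show φ t ∈ O ∧ resid O (φ t) = χ (redSec O D t)
    have hmem : ∀ f, φ (1 ⊗ₜ f) ∈ O := D.mem_of_not_escapes O _ hesc
    obtain ⟨τ, rfl⟩ := D.exists_inclInt_eq O ht
    rw [redSec_inclInt]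
    clear htk ht
    induction τ using TensorProduct.induction_on with
    | zero => simp [O.zero_mem, resid_zero]
    | tmul c f =>
      have e1 : φ (inclInt O (c ⊗ₜ[K] f)) = (c : L) * φ (1 ⊗ₜ f) := by
        have : inclInt O (c ⊗ₜ[K] f) = (c : L) • ((1 : L) ⊗ₜ[K] f) := by
          simp [inclInt, TensorProduct.smul_tmul']
        rw [this, map_smul, smul_eq_mul]
      have e2 : χ (redInt O (c ⊗ₜ[K] f)) = resid O (c : L) * χ (1 ⊗ₜ f) := by
        have : redInt O (c ⊗ₜ[K] f) = resid O (c : L) • ((1 : ResField O) ⊗ₜ[K] f) := by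
          simp [redInt, TensorProduct.smul_tmul', residAlg, resid_of_mem O c.2]
        rw [this, map_smul, smul_eq_mul]
      rw [e1, e2, hval]
      exact ⟨mul_mem c.2 (hmem f), resid_mul O c.2 (hmem f)⟩
    | add x y hx hy =>
      rw [map_add, map_add, map_add, map_add]
      exact ⟨add_mem hx.1 hy.1, by rw [resid_add O hx.1 hy.1, hx.2, hy.2]⟩

/-- Normalised values of integral sections are integral. -/
theorem nev_mem {k : ℕ} {t : L ⊗[K] A} (ht : D.IntCoeff O t)
    (htk : t ∈ (D.baseChange L).lev (k * D.embDeg)) (P : Pt L (L ⊗[K] A)) :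
    D.nev O k P t ∈ O := (D.resid_nev O ht htk P).1

variable [IsAlgClosed L] [IsDedekindDomain (L ⊗[K] A)]

omit [OverBase K O] [IsAlgClosed L] [IsDedekindDomain (L ⊗[K] A)] in
/-- Normalised values are multiplicative. -/
theorem nev_mul {k l : ℕ} {s t : L ⊗[K] A} (hs : s ∈ (D.baseChange L).lev (k * D.embDeg))
    (ht : t ∈ (D.baseChange L).lev (l * D.embDeg)) (P : Pt L (L ⊗[K] A)) :
    D.nev O (k + l) P (s * t) = D.nev O k P s * D.nev O l P t := by
  rw [nev_apply, nev_apply, nev_apply, add_mul, (D.baseChange L).evSec_mul hs ht, pow_add]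
  ring

/-- A normalised value vanishes exactly at the zeros of the section. -/
theorem nev_eq_zero_iff {k : ℕ} {t : L ⊗[K] A} (ht0 : t ≠ 0)
    (ht : t ∈ (D.baseChange L).lev (k * D.embDeg)) (P : Pt L (L ⊗[K] A)) :
    D.nev O k P t = 0 ↔ P ∈ (D.baseChange L).zeros (k * D.embDeg) t := by
  rw [nev_apply, mul_eq_zero, or_iff_right (pow_ne_zero _ (D.scale_ne_zero O P)),
    (D.baseChange L).evSec_eq_zero_iff ht0 ht]

/-- The coordinates of a point divided by their largest. -/
def cNrm (P : Pt L (L ⊗[K] A)) : Fin (D.embDeg + 1) → L :=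
  fun i => D.nev O 1 P ((1 : L) ⊗ₜ[K] D.e i)

omit [OverBase K O] in
omit [IsAlgClosed L] [IsDedekindDomain (L ⊗[K] A)] in
/-- The coordinate functions are sections of degree `embDeg`. -/
theorem tmul_e_mem_lev_one (i : Fin (D.embDeg + 1)) :
    (1 : L) ⊗ₜ[K] D.e i ∈ (D.baseChange L).lev (1 * D.embDeg) :=
  D.tmul_e_mem_lev (by rw [one_mul]; exact Nat.lt_succ_iff.mp i.2)

omit [IsAlgClosed L] [IsDedekindDomain (L ⊗[K] A)] in
/-- Normalised coordinates are integral. -/
theorem cNrm_mem (P : Pt L (L ⊗[K] A)) (i : Fin (D.embDeg + 1)) : D.cNrm O P i ∈ O :=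
  D.nev_mem O (D.intCoeff_tmul O _) (D.tmul_e_mem_lev_one i) P

omit [IsAlgClosed L] [IsDedekindDomain (L ⊗[K] A)] in
theorem resid_cNrm (P : Pt L (L ⊗[K] A)) (i : Fin (D.embDeg + 1)) :
    resid O (D.cNrm O P i) = (D.baseChange (ResField O)).coord (red O P) i := by
  rw [cNrm, (D.resid_nev O (D.intCoeff_tmul O _) (D.tmul_e_mem_lev_one i) P).2, redSec_tmul, one_mul,
    coord, baseChange_e]
  rfl

omit [IsAlgClosed L] [IsDedekindDomain (L ⊗[K] A)] in
theorem coord_eq_smul_cNrm (P : Pt L (L ⊗[K] A)) :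
    (D.baseChange L).coord P = (D.scale O P)⁻¹ • D.cNrm O P := by
  funext i
  have h := D.evSec_nev O 1 P ((1 : L) ⊗ₜ[K] D.e i)
  rw [one_mul, pow_one] at h
  rw [coord, baseChange_e]
  exact h

omit [IsAlgClosed L] [IsDedekindDomain (L ⊗[K] A)] in
/-- Some normalised coordinate reduces to `1`. -/
theorem exists_cNrm_unit (P : Pt L (L ⊗[K] A)) :
    ∃ i, resid O (D.cNrm O P i) = 1 := by
  rcases h : red O P with _ | χ
  · refine ⟨Fin.last _, ?_⟩
    rw [resid_cNrm, h, coord, baseChange_e]
    show (D.baseChange (ResField O)).coeff _ (1 ⊗ₜ[K] D.e (Fin.last _).1) = 1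
    rw [baseChange_coeff, D.coeff_e (by simpa using D.embDeg_notMem)]
    have hd : (D.baseChange (ResField O)).embDeg = (Fin.last D.embDeg).1 := rfl
    rw [one_mul, ← hd]
    simp
  · refine ⟨0, ?_⟩
    rw [resid_cNrm, h, coord, baseChange_e]
    show χ (1 ⊗ₜ[K] D.e 0) = 1
    rw [D.e_zero, ← Algebra.TensorProduct.one_def, map_one]

omit [IsAlgClosed L] [IsDedekindDomain (L ⊗[K] A)] in
theorem supMag_cNrm (P : Pt L (L ⊗[K] A)) : supMag O.valuation (D.cNrm O P) = 1 := by
  obtain ⟨i, hi⟩ := D.exists_cNrm_unit O P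
  exact supMag_eq_of_le_of_eq _ _ (fun j => (O.valuation_le_one_iff _).mpr (D.cNrm_mem O P j))
    (i := i) (valuation_eq_one_of_resid_ne_zero O (D.cNrm_mem O P i) (hi ▸ one_ne_zero))

omit [IsAlgClosed L] [IsDedekindDomain (L ⊗[K] A)] in
/-- The size of the coordinates of a point is the inverse of its scale. -/
theorem supMag_coord (P : Pt L (L ⊗[K] A)) :
    supMag O.valuation ((D.baseChange L).coord P) = (O.valuation (D.scale O P))⁻¹ := by
  calc supMag O.valuation ((D.baseChange L).coord P)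
      = supMag O.valuation ((D.scale O P)⁻¹ • D.cNrm O P) :=
        congrArg (supMag O.valuation) (D.coord_eq_smul_cNrm O P)
    _ = _ := (supMag_smul O.valuation _ _).trans (by rw [D.supMag_cNrm O P, mul_one, map_inv₀])

omit [IsAlgClosed L] [IsDedekindDomain (L ⊗[K] A)] in
/-- The distance computed from normalised coordinates. -/
theorem dst_eq (P Q : Pt L (L ⊗[K] A)) :
    (D.baseChange L).dst O.valuation P Q =
      supMag O.valuation (wedge (D.cNrm O P) (D.cNrm O Q)) := by
  have hw : wedge ((D.baseChange L).coord P) ((D.baseChange L).coord Q) =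
      ((D.scale O P)⁻¹ * (D.scale O Q)⁻¹) • wedge (D.cNrm O P) (D.cNrm O Q) := by
    funext p
    simp only [wedge, D.coord_eq_smul_cNrm O P, D.coord_eq_smul_cNrm O Q, Pi.smul_apply,
      smul_eq_mul]
    ring
  show supMag O.valuation (wedge ((D.baseChange L).coord P) ((D.baseChange L).coord Q)) /
    (supMag O.valuation ((D.baseChange L).coord P) *
      supMag O.valuation ((D.baseChange L).coord Q)) = _
  have hnum : supMag O.valuation (wedge ((D.baseChange L).coord P) ((D.baseChange L).coord Q)) =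
      O.valuation ((D.scale O P)⁻¹ * (D.scale O Q)⁻¹) *
        supMag O.valuation (wedge (D.cNrm O P) (D.cNrm O Q)) :=
    (congrArg (supMag O.valuation) hw).trans (supMag_smul O.valuation _ _)
  rw [hnum, supMag_coord, supMag_coord, map_mul, map_inv₀, map_inv₀, mul_div_assoc,
    mul_comm, div_mul_cancel₀]
  simp [D.scale_ne_zero O]

omit [IsAlgClosed L] [IsDedekindDomain (L ⊗[K] A)] in
theorem dst_le_one (P Q : Pt L (L ⊗[K] A)) : (D.baseChange L).dst O.valuation P Q ≤ 1 := by
  rw [D.dst_eq O]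
  refine (supMag_le_iff _ _ _).mpr fun p => (O.valuation_le_one_iff _).mpr ?_
  exact sub_mem (mul_mem (D.cNrm_mem O P _) (D.cNrm_mem O Q _))
    (mul_mem (D.cNrm_mem O P _) (D.cNrm_mem O Q _))

omit [IsAlgClosed L] [IsDedekindDomain (L ⊗[K] A)] in
/-- The distance is symmetric. -/
theorem dst_comm (P Q : Pt L (L ⊗[K] A)) :
    (D.baseChange L).dst O.valuation P Q = (D.baseChange L).dst O.valuation Q P := by
  have : ∀ P Q : Pt L (L ⊗[K] A), (D.baseChange L).dst O.valuation P Q ≤
      (D.baseChange L).dst O.valuation Q P := fun P Q => by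
    rw [D.dst_eq O, D.dst_eq O]
    refine (supMag_le_iff _ _ _).mpr fun p => ?_
    refine le_trans (le_of_eq ?_) (le_supMag O.valuation _ p.swap)
    simp [wedge, mul_comm]
  exact le_antisymm (this P Q) (this Q P)

variable [IsDedekindDomain (ResField O ⊗[K] A)]

omit [IsDedekindDomain (ResField O ⊗[K] A)] [IsDedekindDomain (L ⊗[K] A)] in
/-- Points have the same reduction exactly when they are close. -/
theorem red_eq_iff (P Q : Pt L (L ⊗[K] A)) :
    red O P = red O Q ↔ (D.baseChange L).dst O.valuation P Q < 1 := by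
  have := isAlgClosed_resField O
  have hres : ∀ p, resid O (wedge (D.cNrm O P) (D.cNrm O Q) p) =
      wedge ((D.baseChange (ResField O)).coord (red O P))
        ((D.baseChange (ResField O)).coord (red O Q)) p := fun p => by
    have m1 := mul_mem (D.cNrm_mem O P p.1) (D.cNrm_mem O Q p.2)
    have m2 := mul_mem (D.cNrm_mem O P p.2) (D.cNrm_mem O Q p.1)
    rw [wedge, resid_sub O m1 m2, resid_mul O (D.cNrm_mem O P _) (D.cNrm_mem O Q _),
      resid_mul O (D.cNrm_mem O P _) (D.cNrm_mem O Q _), resid_cNrm, resid_cNrm, resid_cNrm,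
      resid_cNrm]
    rfl
  have hmem : ∀ p, wedge (D.cNrm O P) (D.cNrm O Q) p ∈ O := fun p =>
    sub_mem (mul_mem (D.cNrm_mem O P _) (D.cNrm_mem O Q _))
      (mul_mem (D.cNrm_mem O P _) (D.cNrm_mem O Q _))
  rw [D.dst_eq O]
  constructor
  · intro h
    obtain ⟨p, hp⟩ := exists_supMag_eq O.valuation (wedge (D.cNrm O P) (D.cNrm O Q))
    rw [hp, ← resid_eq_zero_iff O (hmem p), hres, h]
    simp [wedge, mul_comm]
  · intro h
    refine (D.baseChange (ResField O)).eq_of_wedge_coord_eq_zero _ _ fun i j => ?_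
    have := hres (i, j)
    rw [(resid_eq_zero_iff O (hmem _)).mpr ((le_supMag _ _ _).trans_lt h)] at this
    exact this.symm

omit [IsDedekindDomain (ResField O ⊗[K] A)] [IsDedekindDomain (L ⊗[K] A)] in
/-- Points with different reductions are at distance `1`. -/
theorem dst_eq_one (P Q : Pt L (L ⊗[K] A)) (h : red O P ≠ red O Q) :
    (D.baseChange L).dst O.valuation P Q = 1 :=
  le_antisymm (D.dst_le_one O P Q) (not_lt.mp fun hlt => h ((D.red_eq_iff O P Q).mpr hlt))

omit [IsAlgClosed L] [IsDedekindDomain (L ⊗[K] A)] [IsDedekindDomain (ResField O ⊗[K] A)] in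
/-- Reduction of a constant point. -/
theorem red_mapPt_eq (P : Pt K A) : red O (mapPt L P) = mapPt (ResField O) P := by
  rcases P with _ | φ
  · rfl
  have hall : ∀ f : A, (Algebra.TensorProduct.lift (AlgHom.id L L) ((Algebra.ofId K L).comp φ)
      (fun _ _ => Commute.all _ _)) ((1 : L) ⊗ₜ[K] f) ∈ O := fun f => by
    simpa using OverBase.algebraMap_mem (φ f)
  show red O (some _) = some _
  rw [red, dif_pos hall]
  refine congrArg some (Algebra.TensorProduct.ext (AlgHom.ext fun c => by simp)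
    (AlgHom.ext fun f => ?_))
  simp [← resid_algebraMap O, resid_of_mem O (OverBase.algebraMap_mem (φ f))]
  exact congrArg (IsLocalRing.residue O) (Subtype.ext (by simp))

end Fermat.Agent.MW.CurveBasis
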