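import Fermat.Agent.MW.Core.Projection
import Fermat.Agent.MW.Local.Family

/-!
# Division by the fibre equation of the projection

A function with coefficients in a subalgebra `S` is congruent modulo `u - c` to an `S`-combination
of the Apéry basis, with `S`-integral quotient.
-/

set_option autoImplicit false

noncomputable section

open scoped TensorProduct Classical
open Module

namespace Fermat.Agent.MW.CurveBasis

variable {K A : Type} [Field K] [CommRing A] [Algebra K A] (D : CurveBasis K A)

variable {L : Type} [Field L] [Algebra K L]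

/-- `f` differs from a combination of Apéry elements with coefficients in `S` by an `S`-integral
multiple of the fibre equation. -/
def Reduces (S : Subalgebra K L) (c : L) (f : L ⊗[K] A) : Prop :=
  ∃ (p : Fin D.projDeg → L) (q : L ⊗[K] A), (∀ i, p i ∈ S) ∧
    (∀ i, (D.baseChange L).coeff i q ∈ S) ∧
    f - ∑ j, p j • ((1 : L) ⊗ₜ[K] D.e (D.apery j)) =
      ((1 : L) ⊗ₜ[K] D.e D.projDeg - algebraMap L _ c) * q

variable {S : Subalgebra K L} {c : L}

/-- `0` reduces. -/
theorem reduces_zero : D.Reduces S c 0 :=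
  ⟨0, 0, fun i => S.zero_mem, fun i => by simp [S.zero_mem], by simp⟩

/-- Reducible functions are closed under sums. -/
theorem Reduces.add {f g : L ⊗[K] A} (hf : D.Reduces S c f) (hg : D.Reduces S c g) :
    D.Reduces S c (f + g) := by
  obtain ⟨p, q, hp, hq, e⟩ := hf
  obtain ⟨p', q', hp', hq', e'⟩ := hg
  refine ⟨p + p', q + q', fun i => add_mem (hp i) (hp' i),
    fun i => by simpa using add_mem (hq i) (hq' i), ?_⟩
  simp only [Pi.add_apply, add_smul, Finset.sum_add_distrib, mul_add, ← e, ← e']
  abel

/-- Reducible functions are closed under multiples from the subring. -/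
theorem Reduces.smul {f : L ⊗[K] A} {r : L} (hr : r ∈ S) (hf : D.Reduces S c f) :
    D.Reduces S c (r • f) := by
  obtain ⟨p, q, hp, hq, e⟩ := hf
  refine ⟨r • p, r • q, fun i => mul_mem hr (hp i),
    fun i => by simpa using mul_mem hr (hq i), ?_⟩
  simp only [Pi.smul_apply, smul_eq_mul, mul_smul, ← Finset.smul_sum, ← smul_sub, e, mul_smul_comm]

theorem reduces_e (hc : c ∈ S) (n : ℕ) : D.Reduces S c ((1 : L) ⊗ₜ[K] D.e n) := by
  have hp : 0 < D.projDeg := by simp [projDeg]
  induction n using Nat.strong_induction_on with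
  | h n ih =>
    by_cases hg : n ∈ D.gaps
    · rw [D.e_gap hg, TensorProduct.tmul_zero]; exact D.reduces_zero
    let i : Fin D.projDeg := ⟨n % D.projDeg, Nat.mod_lt _ hp⟩
    rcases (D.apery_le hg (r := i) rfl).eq_or_lt with hEq | hlt
    · refine ⟨Pi.single i 1, 0, fun j => ?_, fun j => by simp [S.zero_mem], ?_⟩
      · by_cases hj : j = i
        · subst hj; simp [S.one_mem]
        · simp [hj, S.zero_mem]
      rw [Finset.sum_eq_single i (fun j _ hj => by simp [hj]) (fun h => by simp at h),
        Pi.single_eq_same, one_smul, hEq, sub_self, mul_zero]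
    have hmod : D.apery i % D.projDeg = n % D.projDeg := D.apery_mod i
    obtain ⟨t, ht⟩ : D.projDeg ∣ n - D.apery i := Nat.dvd_of_mod_eq_zero
      (Nat.sub_mod_eq_zero_of_mod_eq hmod.symm)
    have ht0 : 1 ≤ t := by
      rcases Nat.eq_zero_or_pos t with rfl | h
      · rw [mul_zero] at ht; change D.apery i < n at hlt; omega
      · exact h
    have hmul : ∀ s : ℕ, D.apery i + D.projDeg * s ∉ D.gaps := by
      intro s
      induction s with
      | zero => simpa using D.apery_notMem i
      | succ s ih => rw [mul_add, mul_one, ← add_assoc]; exact D.add_notMem _ _ ih D.projDeg_notMem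
    have hn : n = D.apery i + D.projDeg * (t - 1) + D.projDeg := by
      rw [add_assoc, ← Nat.mul_succ, Nat.succ_eq_add_one, Nat.sub_add_cancel ht0]
      change D.apery i < n at hlt
      omega
    set m := D.apery i + D.projDeg * (t - 1) with hm
    obtain ⟨pm, qm, hpm, hqm, hme⟩ := ih m (by omega)
    have hlow := D.e_mul m D.projDeg (hmul _) D.projDeg_notMem
    rw [← hn] at hlow
    have hlowR : ∀ f ∈ Submodule.span K (D.e '' Set.Iio n), D.Reduces S c ((1 : L) ⊗ₜ[K] f) := by
      intro f hf
      induction hf using Submodule.span_induction with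
      | mem x hx => obtain ⟨j, hj, rfl⟩ := hx; exact ih j hj
      | zero => rw [TensorProduct.tmul_zero]; exact D.reduces_zero
      | add x y _ _ hx hy => rw [TensorProduct.tmul_add]; exact Reduces.add D hx hy
      | smul r x _ hx =>
        rw [show (1 : L) ⊗ₜ[K] (r • x) = algebraMap K L r • ((1 : L) ⊗ₜ[K] x) by
          rw [TensorProduct.tmul_smul, algebraMap_smul]]
        exact Reduces.smul D (S.algebraMap_mem r) hx
    have hprod : D.Reduces S c (((1 : L) ⊗ₜ[K] D.e D.projDeg) * (1 ⊗ₜ[K] D.e m)) := by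
      have h1 : D.Reduces S c (c • ((1 : L) ⊗ₜ[K] D.e m)) := Reduces.smul D hc ⟨pm, qm, hpm, hqm, hme⟩
      have h2 : D.Reduces S c (((1 : L) ⊗ₜ[K] D.e D.projDeg - algebraMap L _ c) *
          (1 ⊗ₜ[K] D.e m)) := by
        refine ⟨0, 1 ⊗ₜ[K] D.e m, fun j => S.zero_mem, fun j => ?_, by simp⟩
        rw [baseChange_coeff, one_mul]; exact S.algebraMap_mem _
      have := Reduces.add D h2 h1
      rwa [sub_mul, ← Algebra.smul_def, sub_add_cancel] at this
    have hdecomp : (1 : L) ⊗ₜ[K] D.e n = ((1 : L) ⊗ₜ[K] D.e D.projDeg) * (1 ⊗ₜ[K] D.e m)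
        + (-1 : L) • ((1 : L) ⊗ₜ[K] (D.e m * D.e D.projDeg - D.e n)) := by
      rw [TensorProduct.tmul_sub, neg_one_smul, Algebra.TensorProduct.tmul_mul_tmul, one_mul,
        mul_comm (D.e D.projDeg)]
      abel
    rw [hdecomp]
    exact Reduces.add D hprod (Reduces.smul D (neg_mem S.one_mem) (hlowR _ hlow))

/-- Division by the fibre equation with coefficients in `S`. -/
theorem reduces_of_coeff_mem (hc : c ∈ S) {f : L ⊗[K] A}
    (hf : ∀ i, (D.baseChange L).coeff i f ∈ S) : D.Reduces S c f := by
  rw [D.eq_sum_coeff ((D.baseChange L).mem_lev_deg f)]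
  exact Finset.sum_induction _ (D.Reduces S c) (fun _ _ => Reduces.add D) D.reduces_zero
    fun i _ => Reduces.smul D (hf i) (D.reduces_e hc i)

/-- The fibre equation has degree `projDeg`. -/
theorem fibre_lev (c : L) : (1 : L) ⊗ₜ[K] D.e D.projDeg - algebraMap L _ c ∈
    (D.baseChange L).lev D.projDeg := by
  rw [← D.baseChange_e L]
  exact (D.baseChange L).proj_sub_mem c

/-- The fibre equation is nonzero. -/
theorem fibre_ne_zero (c : L) :
    (1 : L) ⊗ₜ[K] D.e D.projDeg - algebraMap L (L ⊗[K] A) c ≠ 0 := by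
  rw [← D.baseChange_e L]
  exact (D.baseChange L).proj_sub_ne_zero c

variable [IsAlgClosed L] [IsDedekindDomain (L ⊗[K] A)]

omit [IsAlgClosed L] in
/-- The point at infinity lies on no finite fibre. -/
theorem none_notMem_fibre (c : L) : none ∉ (D.baseChange L).zeros D.projDeg
    ((1 : L) ⊗ₜ[K] D.e D.projDeg - algebraMap L _ c) := by
  rw [← D.baseChange_e L]
  exact (D.baseChange L).none_notMem_zeros_proj_sub c

/-- A point of the fibre over `c` projects to `c`. -/
theorem apply_of_mem_fibre {c : L} {ψ : L ⊗[K] A →ₐ[L] L}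
    (h : some ψ ∈ (D.baseChange L).zeros D.projDeg
      ((1 : L) ⊗ₜ[K] D.e D.projDeg - algebraMap L _ c)) : ψ (1 ⊗ₜ D.e D.projDeg) = c := by
  have h1 := ((D.baseChange L).evSec_eq_zero_iff (D.fibre_ne_zero c) (D.fibre_lev c) _).mpr h
  change ψ ((1 : L) ⊗ₜ[K] D.e D.projDeg - algebraMap L _ c) = 0 at h1
  rwa [map_sub, AlgHom.commutes, sub_eq_zero] at h1

omit [IsAlgClosed L] in
/-- The multiplicity of a finite point in a divisor of zeros. -/
theorem count_some_zeros (n : ℕ) (t : L ⊗[K] A) (ψ : L ⊗[K] A →ₐ[L] L) :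
    ((D.baseChange L).zeros n t).count (some ψ) = (zerosFin (K := L) t).count ψ := by
  rw [CurveBasis.zeros, Multiset.count_add, Multiset.count_replicate, if_neg (by simp), add_zero,
    Multiset.count_map_eq_count' some _ (Option.some_injective _)]

end Fermat.Agent.MW.CurveBasis
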