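import Fermat.Agent.MW.Local.Points
import Mathlib.LinearAlgebra.FiniteDimensional.Basic
import Mathlib.LinearAlgebra.Dimension.RankNullity

/-!
# Zeros specialise

The integral sections through a divisor reduce onto the sections through its reduction. This is
proved by induction on the divisor: sections through `Q + E` are spanned by the products of two
sections through `Q` without further common zeros with sections through `E`.
-/

set_option autoImplicit false

noncomputable section

open scoped TensorProduct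
open Module

namespace Fermat.Agent.MW.CurveBasis

variable {K A : Type} [Field K] [CommRing A] [Algebra K A] (D : CurveBasis K A)
variable {L : Type} [Field L] [Algebra K L] (O : ValuationSubring L) [OverBase K O]

theorem linearIndependent_of_redSec {ι : Type} {f : ι → L ⊗[K] A}
    (hf : ∀ i, D.IntCoeff O (f i))
    (h : LinearIndependent (ResField O) fun i => redSec O D (f i)) : LinearIndependent L f := by
  classical
  rw [linearIndependent_iff']
  intro s c hc i hi
  by_contra hne
  obtain ⟨j, hj, hmax⟩ := s.exists_max_image (fun i => O.valuation (c i)) ⟨i, hi⟩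
  have hcj : c j ≠ 0 := fun h0 => by
    have := hmax i hi
    rw [h0, map_zero] at this
    exact (Valuation.ne_zero_iff _).mpr hne (le_antisymm this zero_le)
  have hd : ∀ l ∈ s, (c j)⁻¹ * c l ∈ O := fun l hl => by
    rw [← ValuationSubring.valuation_le_one_iff, map_mul, map_inv₀,
      inv_mul_le_iff₀ (zero_lt_iff.mpr ((Valuation.ne_zero_iff _).mpr hcj)), mul_one]
    exact hmax l hl
  have hrel : ∑ l ∈ s, ((c j)⁻¹ * c l) • f l = 0 := by
    simp_rw [mul_smul, ← Finset.smul_sum, hc, smul_zero]
  have hred := congrArg (redSec O D) hrel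
  rw [D.redSec_sum O s fun l hl => IntCoeff.smul D O (hd l hl) (hf l), D.redSec_zero O,
    Finset.sum_congr rfl fun l hl => D.redSec_smul O (hd l hl) (hf l)] at hred
  have := (linearIndependent_iff'.mp h) s _ hred j hj
  rw [inv_mul_cancel₀ hcj, resid_one] at this
  exact one_ne_zero this

/-- The reductions of the integral elements of a space of sections. -/
def redSub (V : Submodule L (L ⊗[K] A)) : Submodule (ResField O) (ResField O ⊗[K] A) where
  carrier := {y | ∃ t ∈ V, D.IntCoeff O t ∧ redSec O D t = y}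
  zero_mem' := ⟨0, zero_mem _, D.intCoeff_zero O, D.redSec_zero O⟩
  add_mem' := by
    rintro _ _ ⟨s, hs, hs', rfl⟩ ⟨t, ht, ht', rfl⟩
    exact ⟨s + t, add_mem hs ht, IntCoeff.add D O hs' ht', D.redSec_add O hs' ht'⟩
  smul_mem' := by
    rintro c _ ⟨t, ht, ht', rfl⟩
    obtain ⟨x, hx, rfl⟩ := exists_resid_eq O c
    exact ⟨x • t, V.smul_mem x ht, IntCoeff.smul D O hx ht', D.redSec_smul O hx ht'⟩

theorem redSub_le_lev {V : Submodule L (L ⊗[K] A)} {N : ℕ} (hV : V ≤ (D.baseChange L).lev N) :
    D.redSub O V ≤ (D.baseChange (ResField O)).lev N := by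
  rintro _ ⟨t, ht, -, rfl⟩; exact D.redSec_mem_lev O (hV ht)

theorem finrank_redSub_le {V : Submodule L (L ⊗[K] A)} {N : ℕ}
    (hV : V ≤ (D.baseChange L).lev N) :
    finrank (ResField O) (D.redSub O V) ≤ finrank L V := by
  have := finiteDimensional_lev (D.baseChange (ResField O)) N
  have := Submodule.finiteDimensional_of_le (D.redSub_le_lev O hV)
  have := finiteDimensional_lev (D.baseChange L) N
  have := Submodule.finiteDimensional_of_le hV
  let b := Module.finBasis (ResField O) (D.redSub O V)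
  choose f hfV hfI hfr using fun i => (b i).2
  have hli : LinearIndependent (ResField O) fun i => redSec O D (f i) := by
    simp_rw [hfr]
    exact b.linearIndependent.map' (Submodule.subtype _) (Submodule.ker_subtype _)
  have h2 : LinearIndependent L fun i => (⟨f i, hfV i⟩ : V) :=
    LinearIndependent.of_comp V.subtype (D.linearIndependent_of_redSec O hfI hli)
  simpa using h2.fintype_card_le_finrank

variable [IsAlgClosed L] [IsDedekindDomain (L ⊗[K] A)]
variable [IsAlgClosed (ResField O)] [IsDedekindDomain (ResField O ⊗[K] A)]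

omit [IsAlgClosed (ResField O)] [IsDedekindDomain (ResField O ⊗[K] A)] [IsAlgClosed L]
    [IsDedekindDomain (L ⊗[K] A)] in
/-- An integral section through a point with prescribed reduction. -/
theorem exists_lift_through_point {y : ResField O ⊗[K] A}
    (hy : y ∈ (D.baseChange (ResField O)).lev D.embDeg) (Q : Pt L (L ⊗[K] A))
    (hQ : (D.baseChange (ResField O)).evSec D.embDeg (red O Q) y = 0) :
    ∃ t ∈ (D.baseChange L).lev (1 * D.embDeg),
      D.IntCoeff O t ∧ redSec O D t = y ∧ D.nev O 1 Q t = 0 := by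
  rw [← one_mul D.embDeg] at hy hQ
  obtain ⟨s, hs, hsI, rfl⟩ := D.exists_redSec_eq O hy
  obtain ⟨i, hi⟩ := D.exists_cNrm_unit O Q
  have hv : O.valuation (D.cNrm O Q i) = 1 :=
    valuation_eq_one_of_resid_ne_zero O (D.cNrm_mem O Q i) (hi ▸ one_ne_zero)
  have hne : D.cNrm O Q i ≠ 0 := fun h => by simp [h] at hv
  have hinv : (D.cNrm O Q i)⁻¹ ∈ O := by
    rw [← ValuationSubring.valuation_le_one_iff, map_inv₀, hv, inv_one]
  obtain ⟨hc, hcr⟩ := D.resid_nev O hsI hs Q
  have hcO : D.nev O 1 Q s * (D.cNrm O Q i)⁻¹ ∈ O := mul_mem hc hinv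
  refine ⟨s - (D.nev O 1 Q s * (D.cNrm O Q i)⁻¹) • ((1 : L) ⊗ₜ[K] D.e i),
    sub_mem hs (Submodule.smul_mem _ _ (D.tmul_e_mem_lev_one i)),
    IntCoeff.sub D O hsI (IntCoeff.smul D O hcO (D.intCoeff_tmul O _)), ?_, ?_⟩
  · rw [D.redSec_sub O hsI (IntCoeff.smul D O hcO (D.intCoeff_tmul O _)),
      D.redSec_smul O hcO (D.intCoeff_tmul O _), resid_mul O hc hinv, hcr, hQ, zero_mul, zero_smul,
      sub_zero]
  · rw [map_sub, map_smul, smul_eq_mul]
    show D.nev O 1 Q s - D.nev O 1 Q s * (D.cNrm O Q i)⁻¹ * D.cNrm O Q i = 0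
    rw [inv_mul_cancel_right₀ hne, sub_self]

/-- Integral sections through `E` reduce onto the sections through the reduction of `E`. -/
theorem redSub_through (E : Multiset (Pt L (L ⊗[K] A))) :
    ∀ k, Multiset.card E + 1 < k → ∀ y : ResField O ⊗[K] A,
      (∃ t ∈ (D.baseChange L).lev (k * D.embDeg), D.IntCoeff O t ∧ redSec O D t = y ∧
          (t = 0 ∨ E ≤ (D.baseChange L).zeros (k * D.embDeg) t)) ↔
        y ∈ (D.baseChange (ResField O)).lev (k * D.embDeg) ∧
          (y = 0 ∨ E.map (red O) ≤ (D.baseChange (ResField O)).zeros (k * D.embDeg) y) := by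
  classical
  induction E using Multiset.induction_on with
  | empty =>
    intro k _ y
    refine ⟨fun ⟨t, ht, _, hty, _⟩ => ⟨hty ▸ D.redSec_mem_lev O ht, Or.inr (by simp)⟩,
      fun ⟨hy, _⟩ => ?_⟩
    obtain ⟨t, ht, htI, hty⟩ := D.exists_redSec_eq O hy
    exact ⟨t, ht, htI, hty, Or.inr (by simp)⟩
  | cons Q E ih =>
    intro k hk y
    obtain ⟨k', rfl⟩ : ∃ k', k = k' + 1 := ⟨k - 1, by omega⟩
    rw [Multiset.card_cons] at hk
    set a := D.embDeg with haDef
    have ha : a = 20 * D.genus + 20 := rfl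
    let Dk := D.baseChange (ResField O)
    let DL := D.baseChange L
    have hgk : Dk.genus = D.genus := rfl
    have hgL : DL.genus = D.genus := rfl
    have hn : (Multiset.card E + 2) * a ≤ k' * a := Nat.mul_le_mul_right _ (by omega)
    have hcE : Multiset.card E ≤ Multiset.card E * a := Nat.le_mul_of_pos_right _ (by omega)
    have hn' : Multiset.card E + 2 * a ≤ k' * a := by rw [add_mul] at hn; omega
    -- two sections through the reduced point
    obtain ⟨s₁, hs₁, hs₁0, Z₁, hZ₁, hav₁⟩ := Dk.exists_section_avoid {red O Q} (n := a)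
      (by simp [hgk]; omega) (E.map (red O)).toFinset
    obtain ⟨s₂, hs₂, hs₂0, Z₂, hZ₂, hav₂⟩ := Dk.exists_section_avoid {red O Q} (n := a)
      (by simp [hgk]; omega) Z₁.toFinset
    have hcard₂ : Multiset.card Z₂ + 1 = a := by
      have := Dk.card_zeros hs₂0 hs₂
      rw [hZ₂] at this; simp at this; omega
    -- the spaces of sections
    obtain ⟨V', hV'le, hV'iff, -, hV'dim⟩ := Dk.exists_submodule_through (E.map (red O)) (k' * a)
    obtain ⟨W, hWle, hWiff, -, hWdim⟩ :=
      Dk.exists_submodule_through (E.map (red O) + Z₂) (k' * a)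
    obtain ⟨T, hTle, hTiff, -, hTdim⟩ :=
      Dk.exists_submodule_through ((Q ::ₘ E).map (red O)) ((k' + 1) * a)
    obtain ⟨U, hUle, hUiff, -, hUdim⟩ :=
      DL.exists_submodule_through (Q ::ₘ E) ((k' + 1) * a)
    have hmula : (k' + 1) * a = k' * a + a := by ring
    have dV' := hV'dim (by simp [hgk]; omega)
    have dW := hWdim (by simp [hgk]; omega)
    have dT := hTdim (by simp [hgk]; omega)
    have dU := hUdim (by simp [hgL]; omega)
    simp only [Multiset.card_map, Multiset.card_add, Multiset.card_cons, hgk, hgL]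
      at dV' dW dT dU
    have hmem : ∀ (s : ResField O ⊗[K] A) (Z : Multiset (Pt (ResField O) (ResField O ⊗[K] A))),
        s ∈ Dk.lev a → s ≠ 0 → Dk.zeros a s = {red O Q} + Z → ∀ f ∈ V',
        f * s ∈ D.redSub O U ∧ f * s ∈ T := by
      intro s Z hs hs0 hZ f hf
      have hlev : f * s ∈ Dk.lev (k' * a + a) := Dk.mul_mem_lev (hV'le hf) hs
      rw [← hmula] at hlev
      rcases eq_or_ne f 0 with rfl | hf0
      · simp
      have hfz : E.map (red O) ≤ Dk.zeros (k' * a) f :=
        ((hV'iff f (hV'le hf)).mp hf).resolve_left hf0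
      refine ⟨?_, (hTiff _ hlev).mpr (Or.inr ?_)⟩
      · obtain ⟨S, hS, hSI, hSr, hSQ⟩ := D.exists_lift_through_point O hs Q
          ((Dk.evSec_eq_zero_iff hs0 hs _).mpr (by rw [hZ]; simp))
        obtain ⟨F, hF, hFI, hFr, hFE⟩ := (ih k' (by omega) f).mpr ⟨hV'le hf, Or.inr hfz⟩
        have hFS : F * S ∈ DL.lev ((k' + 1) * a) := by
          have := DL.mul_mem_lev hF hS
          rwa [← add_mul] at this
        have hprod : redSec O D (F * S) = f * s := by rw [D.redSec_mul O hFI hSI, hFr, hSr]
        have hne : F * S ≠ 0 := fun h0 => mul_ne_zero hf0 hs0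
          (by rw [← hprod, h0, D.redSec_zero O])
        refine ⟨F * S, (hUiff _ hFS).mpr (Or.inr ?_), IntCoeff.mul D O hFI hSI, hprod⟩
        have hF0 := left_ne_zero_of_mul hne
        have hS0 := right_ne_zero_of_mul hne
        rw [add_mul, DL.zeros_mul hF0 hS0 hF hS, ← Multiset.singleton_add, add_comm ({Q} : Multiset _)]
        refine add_le_add (hFE.resolve_left hF0) (Multiset.singleton_le.mpr ?_)
        exact (D.nev_eq_zero_iff O hS0 hS Q).mp hSQ
      · rw [hmula, Dk.zeros_mul hf0 hs0 (hV'le hf) hs, Multiset.map_cons, hZ,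
          ← Multiset.singleton_add, add_comm ({red O Q} : Multiset _)]
        exact add_le_add hfz (Multiset.le_add_right _ _)
    let Φ : (V' × V') →ₗ[ResField O] ResField O ⊗[K] A :=
      ((LinearMap.mulRight (ResField O) s₁).comp V'.subtype).coprod
        ((LinearMap.mulRight (ResField O) s₂).comp V'.subtype)
    have hΦ : ∀ p, Φ p = (p.1 : ResField O ⊗[K] A) * s₁ + (p.2 : ResField O ⊗[K] A) * s₂ :=
      fun p => rfl
    have hrangeU : LinearMap.range Φ ≤ D.redSub O U := by
      rintro _ ⟨p, rfl⟩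
      exact add_mem (hmem s₁ Z₁ hs₁ hs₁0 hZ₁ _ p.1.2).1 (hmem s₂ Z₂ hs₂ hs₂0 hZ₂ _ p.2.2).1
    have hrangeT : LinearMap.range Φ ≤ T := by
      rintro _ ⟨p, rfl⟩
      exact add_mem (hmem s₁ Z₁ hs₁ hs₁0 hZ₁ _ p.1.2).2 (hmem s₂ Z₂ hs₂ hs₂0 hZ₂ _ p.2.2).2
    have := finiteDimensional_lev Dk (k' * a)
    have := finiteDimensional_lev Dk ((k' + 1) * a)
    have := Submodule.finiteDimensional_of_le hV'le
    have := Submodule.finiteDimensional_of_le hWle
    have := Submodule.finiteDimensional_of_le hTle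
    have hker : finrank (ResField O) (LinearMap.ker Φ) ≤ finrank (ResField O) W := by
      have hfst : ∀ p : LinearMap.ker Φ, ((p.1.1 : V') : ResField O ⊗[K] A) ∈ W := by
        rintro ⟨⟨⟨f, hf⟩, ⟨g, hg⟩⟩, hp⟩
        rw [LinearMap.mem_ker, hΦ] at hp
        simp only at hp ⊢
        rcases eq_or_ne f 0 with rfl | hf0
        · exact zero_mem _
        refine (hWiff f (hV'le hf)).mpr (Or.inr ?_)
        have hg0 : g ≠ 0 := fun h0 => by simp [h0, hf0, hs₁0] at hp
        have hz : Dk.zeros (k' * a + a) (f * s₁) = Dk.zeros (k' * a + a) (g * s₂) := by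
          rw [eq_neg_of_add_eq_zero_left hp, ← neg_one_smul (ResField O) (g * s₂),
            Dk.zeros_smul _ _ (neg_ne_zero.mpr one_ne_zero)]
        rw [Dk.zeros_mul hf0 hs₁0 (hV'le hf) hs₁, Dk.zeros_mul hg0 hs₂0 (hV'le hg) hs₂,
          hZ₁, hZ₂, add_left_comm, add_left_comm (Dk.zeros (k' * a) g)] at hz
        have hz' := add_left_cancel hz
        have hle : E.map (red O) + Z₂ ≤ Dk.zeros (k' * a) f + Z₁ :=
          hz' ▸ add_le_add (((hV'iff g (hV'le hg)).mp hg).resolve_left hg0) le_rfl
        refine Multiset.le_iff_count.mpr fun x => ?_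
        have hc := Multiset.le_iff_count.mp hle x
        rw [Multiset.count_add, Multiset.count_add] at hc
        rw [Multiset.count_add]
        by_cases hx : x ∈ Z₁
        · have h1 : x ∉ E.map (red O) := fun h => hav₁ x hx (Multiset.mem_toFinset.mpr h)
          have h2 : x ∉ Z₂ := fun h => hav₂ x h (Multiset.mem_toFinset.mpr hx)
          simp [Multiset.count_eq_zero.mpr h1, Multiset.count_eq_zero.mpr h2]
        · rw [Multiset.count_eq_zero.mpr hx] at hc; omega
      let ψ : LinearMap.ker Φ →ₗ[ResField O] W :=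
        LinearMap.codRestrict W (V'.subtype ∘ₗ LinearMap.fst _ _ _ ∘ₗ
          (LinearMap.ker Φ).subtype) hfst
      refine LinearMap.finrank_le_finrank_of_injective (f := ψ) fun p q hpq => ?_
      have h1 : p.1.1 = q.1.1 := Subtype.ext (congrArg (fun w : W => (w : ResField O ⊗[K] A)) hpq)
      refine Subtype.ext (Prod.ext h1 (Subtype.ext (mul_right_cancel₀ hs₂0 ?_)))
      have hp := p.2
      have hq := q.2
      rw [LinearMap.mem_ker, hΦ] at hp hq
      rw [h1] at hp
      exact add_left_cancel (hp.trans hq.symm)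
    have hrn := LinearMap.finrank_range_add_finrank_ker Φ
    rw [Module.finrank_prod] at hrn
    have hU' := D.finrank_redSub_le O hUle
    have : FiniteDimensional (ResField O) (D.redSub O U) :=
      Submodule.finiteDimensional_of_le (D.redSub_le_lev O hUle)
    have hTU : D.redSub O U = T := by
      rw [← Submodule.eq_of_le_of_finrank_le hrangeU (by omega),
        Submodule.eq_of_le_of_finrank_le hrangeT (by omega)]
    constructor
    · rintro ⟨t, ht, htI, rfl, htz⟩
      refine ⟨D.redSec_mem_lev O ht, ?_⟩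
      have hmemT : redSec O D t ∈ T := hTU ▸ ⟨t, (hUiff t ht).mpr htz, htI, rfl⟩
      exact (hTiff _ (D.redSec_mem_lev O ht)).mp hmemT
    · rintro ⟨hy, hyz⟩
      obtain ⟨t, ht, htI, hty⟩ : y ∈ D.redSub O U := hTU ▸ (hTiff y hy).mpr hyz
      exact ⟨t, hUle ht, htI, hty, (hUiff t (hUle ht)).mp ht⟩

/-- The zeros of the reduction are the reductions of the zeros. -/
theorem zeros_redSec_eq (N : ℕ) (t : L ⊗[K] A) (htN : t ∈ (D.baseChange L).lev N)
    (hO : D.IntCoeff O t) (hunit : redSec O D t ≠ 0) :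
    (D.baseChange (ResField O)).zeros N (redSec O D t) =
      ((D.baseChange L).zeros N t).map (red O) := by
  classical
  let Dk := D.baseChange (ResField O)
  have ht0 : t ≠ 0 := fun h => hunit (h ▸ D.redSec_zero O)
  set E := (D.baseChange L).zeros N t with hE
  have hcard : Multiset.card E = N := (D.baseChange L).card_zeros ht0 htN
  have htN' : redSec O D t ∈ Dk.lev N := D.redSec_mem_lev O htN
  have hge : N + 2 * D.genus ≤ (N + 3) * D.embDeg := by
    have : N ≤ N * D.embDeg := Nat.le_mul_of_pos_right _ (by simp [embDeg])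
    have : D.genus ≤ D.embDeg := by simp [embDeg]; omega
    rw [add_mul]; omega
  obtain ⟨M, hM⟩ : ∃ M, N + M = (N + 3) * D.embDeg := ⟨_, Nat.add_sub_cancel' (by omega)⟩
  obtain ⟨y, hy, hy0, Z, hZ, hav⟩ := Dk.exists_section_avoid 0 (n := M)
    (by show 0 + 2 * D.genus ≤ M; omega) (E.map (red O)).toFinset
  obtain ⟨s, hs, hsI, rfl⟩ := D.exists_redSec_eq O hy
  have hts : t * s ∈ (D.baseChange L).lev ((N + 3) * D.embDeg) :=
    hM ▸ (D.baseChange L).mul_mem_lev htN hs
  have hs0 : s ≠ 0 := fun h => hy0 (h ▸ D.redSec_zero O)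
  obtain ⟨-, hcase⟩ := (D.redSub_through O E (N + 3) (by omega) _).mp
    ⟨t * s, hts, IntCoeff.mul D O hO hsI, D.redSec_mul O hO hsI, Or.inr (by
      rw [← hM, (D.baseChange L).zeros_mul ht0 hs0 htN hs]; exact Multiset.le_add_right _ _)⟩
  have hle := hcase.resolve_left (mul_ne_zero hunit hy0)
  rw [← hM, Dk.zeros_mul hunit hy0 htN' hy, hZ, zero_add] at hle
  refine (Multiset.eq_of_le_of_card_le (Multiset.le_iff_count.mpr fun x => ?_) ?_).symm
  · have hc := Multiset.le_iff_count.mp hle x
    rw [Multiset.count_add] at hc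
    by_cases hx : x ∈ Z
    · have : x ∉ E.map (red O) := fun h => hav x hx (Multiset.mem_toFinset.mpr h)
      simp [Multiset.count_eq_zero.mpr this]
    · rw [Multiset.count_eq_zero.mpr hx] at hc; omega
  · rw [Multiset.card_map, hcard]
    exact le_of_eq (Dk.card_zeros hunit htN')

include D in
/-- Linear equivalence specialises. -/
theorem cl_red_congr_eq (E E' : Multiset (Pt L (L ⊗[K] A))) (h : cl E = cl E') :
    cl (E.map (red O)) = cl (E'.map (red O)) := by
  obtain ⟨R, -, hR⟩ := (D.baseChange L).exists_rep (-cl E)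
  have key : ∀ F : Multiset (Pt L (L ⊗[K] A)), cl F + cl R = 0 →
      cl (F.map (red O)) + cl (R.map (red O)) = 0 := by
    intro F hF
    obtain ⟨t, ht0, ht, htz⟩ := (D.baseChange L).exists_zeros_eq (F + R)
      (by simpa [cl] using hF)
    obtain ⟨c, t', hc, ht', hp, rfl, -⟩ := D.exists_primitive O ht0 ht
    rw [(D.baseChange L).zeros_smul _ _ hc] at htz
    have hz := D.zeros_redSec_eq O _ t' ht' hp.1 hp.2
    rw [htz, Multiset.map_add] at hz
    have := (D.baseChange (ResField O)).cl_zeros (n := Multiset.card (F + R)) hp.2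
    rw [hz] at this
    simpa [cl] using this
  exact add_right_cancel ((key E (by rw [hR, add_neg_cancel])).trans
    (key E' (by rw [← h, hR, add_neg_cancel])).symm)

end Fermat.Agent.MW.CurveBasis
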